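/-
GATE-Z (S15) / (LOC-r), VOCABULARY PIN (helper92): **torsor orders**.  Definitions only (plus the
trivial projections).  Sits next to helper5's `GH/N0/Order.IsStableOrder`.

Setting: `R` a ring of scalars (application: `R = ℤ_(r) = GaloisRep.ratLocalizedAt r`), `K` a field
(`ℚ̄`) with an action of a group `G` (`G_ℚ`), `M` a finite commutative group with a `G`-action
`actM`, `X` a finite `M`-torsor (`[AddTorsor M X]`: `m +ᵥ x`, `x -ᵥ x'`) with a `G`-action `actX`,
`HM ⊆ Map(M, K)` a function order on `M` (`IsStableOrder F actM HM`).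

A **torsor order** on `X` relative to `HM` is an `R`-subalgebra `HX ⊆ Map(X, K)` which is
* `equivariant` : `f (actX σ x) = σ • f x`  (i.e. `HX ⊆ Map_G(X, K)`),
* `fg`          : finite as an `R`-module,
* `sep`         : separates the points of `X` (full rank),
* `coact`       : COACTION  `f (m +ᵥ x) = Σ a_i m * b_i x`,  `a_i ∈ HM`, `b_i ∈ HX`,
* `diff`        : DIFFERENCE `f (x -ᵥ x') = Σ a_i x * b_i x'` for `f ∈ HM`, `a_i, b_i ∈ HX`.

`diff` is what distinguishes a torsor under the GROUP SCHEME `Spec HM` from a mere `HM`-comodule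
algebra: `O[u]/(u^r - π)` has the coaction of `μ_r` but `u ⊗ u⁻¹` is not integral (helper96 5617 §1).

"The class of `X` is FLAT relative to `HM`" := `HasTorsorOrder actX HM`.
-/
import Mathlib
import Fermat.Agent.GH.N0.Order

set_option autoImplicit false

namespace Fermat.Agent.GZ.LocR

section Def

variable {R : Type*} [CommRing R] {K : Type*} [Field K] [Algebra R K]
variable {G : Type*} [Group G] [MulSemiringAction G K]
variable {M : Type*} [AddCommGroup M] {X : Type*} [AddTorsor M X]

/-- **a torsor order on `X` relative to the function order `HM` on `M`.** -/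
structure IsStableTorsorOrder (actX : G → X → X) (HM : Subalgebra R (M → K))
    (HX : Subalgebra R (X → K)) : Prop where
  equivariant : ∀ f ∈ HX, ∀ σ x, f (actX σ x) = σ • f x
  fg : Module.Finite R HX
  sep : ∀ x y : X, x ≠ y → ∃ f ∈ HX, f x ≠ f y
  coact : ∀ f ∈ HX, ∃ (n : ℕ) (a : Fin n → HM) (b : Fin n → HX), ∀ (m : M) (x : X),
    f (m +ᵥ x) = ∑ i, (a i : M → K) m * (b i : X → K) x
  diff : ∀ f ∈ HM, ∃ (n : ℕ) (a b : Fin n → HX), ∀ x x' : X,
    f (x -ᵥ x') = ∑ i, (a i : X → K) x * (b i : X → K) x'

/-- **flatness of the class of a torsor**: `X` has a torsor order relative to `HM`. -/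
def HasTorsorOrder (actX : G → X → X) (HM : Subalgebra R (M → K)) : Prop :=
  ∃ HX : Subalgebra R (X → K), IsStableTorsorOrder actX HM HX

theorem IsStableTorsorOrder.hasTorsorOrder {actX : G → X → X} {HM : Subalgebra R (M → K)}
    {HX : Subalgebra R (X → K)} (h : IsStableTorsorOrder actX HM HX) : HasTorsorOrder actX HM :=
  ⟨HX, h⟩

end Def

section Pair

open Fermat.Agent.GH.N0

variable {R : Type*} [CommRing R] [IsDomain R] [IsPrincipalIdealRing R]
variable (F : Type*) [Field F] [Algebra R F] [IsFractionRing R F]
variable {K : Type*} [Field K] [Algebra F K] [Algebra R K] [IsScalarTower R F K]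
variable {G : Type*} [Group G] [MulSemiringAction G K]
variable {M : Type*} [AddCommGroup M] [Finite M] {X : Type*} [AddTorsor M X]

/-- a function order on the group together with a torsor order on the torsor, and the
compatibility of the two actions. -/
structure IsTorsorOrderPair (actM : G → M → M) (actX : G → X → X)
    (HM : Subalgebra R (M → K)) (HX : Subalgebra R (X → K)) : Prop where
  group : IsStableOrder F actM HM
  torsor : IsStableTorsorOrder actX HM HX
  act_vadd : ∀ σ (m : M) (x : X), actX σ (m +ᵥ x) = actM σ m +ᵥ actX σ x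

end Pair

end Fermat.Agent.GZ.LocR
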