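/-
GATE-Z / S15, node GZ-LOCR-CONSTORD, part 1 (helper5): **the reduction kernel of a Δ-stable function
algebra and the ÉTALE / LOCAL dichotomy on a group of prime order.**

`K` a field, `A ⊆ K` a subring (the valuation ring over the residue characteristic), `𝔫 ⊆ A` an
`A`-stable additive subgroup (its maximal ideal), `H ⊆ Map(M, K)` an `R`-subalgebra of `A`-valued
functions on an abelian group `M`, Δ-stable (`f (x + y) = ∑ aᵢ x * bᵢ y`) and stable under `x ↦ -x`.

* `redKer 𝔫 H` : the subgroup `M⁰ = {x | ∀ f ∈ H, f x - f 0 ∈ 𝔫}` of the points reducing to `0`;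
* `sub_mem_redKer_iff` : `x - y ∈ M⁰ ↔ ∀ f ∈ H, f x - f y ∈ 𝔫` (two points have the same reduction);
* `isLocalAt_or_etale` : if `M` has prime order, `H` is LOCAL (`M⁰ = M`, `ClosureW.IsLocalAt`) or
  ÉTALE (`M⁰ = 0`: any two distinct points are separated modulo `𝔫`);
* `act_sub_mem_redKer` : an automorphism `σ` of `K` with `σ a - a ∈ 𝔫` on `A` (an element of the
  inertia group) moves every point inside its reduction class: `act σ x - x ∈ M⁰`; hence inertia acts
  trivially on `M` in the étale case (`act_eq_of_etale`) — helper96 (board 5617 §2) for group orders;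
* `exists_indicator` / `forall_mem_of_etale` : ÉTALE + `R`-valued functions + every non-unit of `R`
  lies in `𝔫` ⟹ `H` contains ALL `R`-valued functions (Lagrange interpolation): the order is the
  standard étale order `Map(M, R)`.

Mathlib + `GS/ClosureW/Basic` (for `IsLocalAt`) only.
-/
import Mathlib
import Fermat.Agent.GS.ClosureW.Basic

set_option autoImplicit false
set_option linter.unusedSectionVars false

namespace Fermat.Agent.GZ.LocR.ConstOrd

open Fermat.Agent.GS.ClosureW

variable {R K : Type*} [CommRing R] [Field K] [Algebra R K]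
variable {M : Type*} [AddCommGroup M]

/-- Δ-stability of a function algebra (the `delta` field of `GH/N0/Order.IsStableOrder`). -/
def DeltaStable (H : Subalgebra R (M → K)) : Prop :=
  ∀ f ∈ H, ∃ (n : ℕ) (a b : Fin n → H), ∀ x y : M,
    f (x + y) = ∑ i, (a i : M → K) x * (b i : M → K) y

/-- stability under the inversion of `M`. -/
def NegStable (H : Subalgebra R (M → K)) : Prop :=
  ∀ f ∈ H, (fun x : M => f (-x)) ∈ H

section RedKer

variable (A : Subring K) (𝔫 : AddSubgroup K) (H : Subalgebra R (M → K))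

/-- the hypotheses on the pair `(A, 𝔫)` and on the values of `H`. -/
structure Frame : Prop where
  mul_mem : ∀ a ∈ A, ∀ c ∈ 𝔫, a * c ∈ 𝔫
  val_mem : ∀ f ∈ H, ∀ x : M, f x ∈ A
  delta : DeltaStable H
  neg : NegStable H

variable {A 𝔫 H}

/-- `f (x + y) - f (x' + y)` and friends: the basic congruence from Δ-stability. -/
theorem Frame.sub_mem_of_left (hF : Frame A 𝔫 H) {x x' : M}
    (hx : ∀ f ∈ H, f x - f x' ∈ 𝔫) (y : M) {f : M → K} (hf : f ∈ H) :
    f (x + y) - f (x' + y) ∈ 𝔫 := by
  obtain ⟨n, a, b, hab⟩ := hF.delta f hf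
  rw [hab, hab, ← Finset.sum_sub_distrib]
  refine 𝔫.sum_mem fun i _ => ?_
  have : (a i : M → K) x * (b i : M → K) y - (a i : M → K) x' * (b i : M → K) y =
      (b i : M → K) y * ((a i : M → K) x - (a i : M → K) x') := by ring
  rw [this]
  exact hF.mul_mem _ (hF.val_mem _ (b i).2 y) _ (hx _ (a i).2)

variable (𝔫 H) in
/-- **the reduction kernel**: the points with the same reduction as `0`. -/
def redKerSet : Set M := {x | ∀ f ∈ H, f x - f 0 ∈ 𝔫}

/-- the reduction kernel as a subgroup. -/
def redKer (hF : Frame A 𝔫 H) : AddSubgroup M where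
  carrier := redKerSet 𝔫 H
  zero_mem' := fun f _ => by rw [sub_self]; exact 𝔫.zero_mem
  add_mem' := by
    intro x y hx hy f hf
    have h1 : f (x + y) - f (0 + y) ∈ 𝔫 := hF.sub_mem_of_left hx y hf
    rw [zero_add] at h1
    have := 𝔫.add_mem h1 (hy f hf)
    rwa [sub_add_sub_cancel] at this
  neg_mem' := by
    intro x hx f hf
    have := hx _ (hF.neg f hf)
    simpa only [neg_zero] using this

theorem mem_redKer (hF : Frame A 𝔫 H) {x : M} :
    x ∈ redKer hF ↔ ∀ f ∈ H, f x - f 0 ∈ 𝔫 := Iff.rfl

/-- two points have the same reduction iff their difference lies in the reduction kernel. -/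
theorem sub_mem_redKer_iff (hF : Frame A 𝔫 H) {x y : M} :
    x - y ∈ redKer hF ↔ ∀ f ∈ H, f x - f y ∈ 𝔫 := by
  constructor
  · intro h f hf
    have h1 : f ((x - y) + y) - f (0 + y) ∈ 𝔫 := hF.sub_mem_of_left h y hf
    rwa [sub_add_cancel, zero_add] at h1
  · intro h f hf
    have h1 : f (x + -y) - f (y + -y) ∈ 𝔫 := hF.sub_mem_of_left h (-y) hf
    rwa [add_neg_cancel, ← sub_eq_add_neg] at h1

/-- the reduction kernel is everything iff `H` is local. -/
theorem redKer_eq_top_iff (hF : Frame A 𝔫 H) :
    redKer hF = ⊤ ↔ IsLocalAt (𝔫 : Set K) H := by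
  constructor
  · intro h f hf x
    have : x ∈ redKer hF := by rw [h]; exact AddSubgroup.mem_top x
    exact this f hf
  · intro h
    rw [eq_top_iff]
    intro x _
    exact fun f hf => h f hf x

/-- **ÉTALE**: any two distinct points are separated modulo `𝔫`. -/
def IsEtaleAt (𝔫 : AddSubgroup K) (H : Subalgebra R (M → K)) : Prop :=
  ∀ x y : M, x ≠ y → ∃ f ∈ H, f x - f y ∉ 𝔫

/-- the reduction kernel is trivial iff `H` is étale. -/
theorem redKer_eq_bot_iff (hF : Frame A 𝔫 H) : redKer hF = ⊥ ↔ IsEtaleAt 𝔫 H := by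
  constructor
  · intro h x y hxy
    by_contra hcon
    push Not at hcon
    have h1 : x - y ∈ redKer hF := (sub_mem_redKer_iff hF).mpr hcon
    rw [h, AddSubgroup.mem_bot, sub_eq_zero] at h1
    exact hxy h1
  · intro h
    rw [eq_bot_iff]
    intro x hx
    rw [AddSubgroup.mem_bot]
    by_contra hne
    obtain ⟨f, hf, hfx⟩ := h x 0 hne
    exact hfx (hx f hf)

/-- **the dichotomy on a group of prime order.** -/
theorem isLocalAt_or_etale (hF : Frame A 𝔫 H) [Finite M] (hcard : (Nat.card M).Prime) :
    IsLocalAt (𝔫 : Set K) H ∨ IsEtaleAt 𝔫 H := by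
  have := Fact.mk hcard
  rcases (redKer hF).eq_bot_or_eq_top_of_prime_card with h | h
  · exact Or.inr ((redKer_eq_bot_iff hF).mp h)
  · exact Or.inl ((redKer_eq_top_iff hF).mp h)

/-- local and étale exclude each other on a nontrivial group (if `0 ∈ 𝔫`, always). -/
theorem not_etale_of_local [Nontrivial M] (hloc : IsLocalAt (𝔫 : Set K) H) : ¬ IsEtaleAt 𝔫 H := by
  intro het
  obtain ⟨x, hx⟩ := exists_ne (0 : M)
  obtain ⟨f, hf, hfx⟩ := het x 0 hx
  exact hfx (hloc f hf x)

end RedKer

/-! ### inertia -/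

section Inertia

variable {A : Subring K} {𝔫 : AddSubgroup K} {H : Subalgebra R (M → K)}
variable {G : Type*} [Group G] [MulSemiringAction G K]

/-- an element of the inertia group moves every point inside its reduction class. -/
theorem act_sub_mem_redKer (hF : Frame A 𝔫 H) (act : G → M → M)
    (hequiv : ∀ f ∈ H, ∀ (σ : G) (x : M), f (act σ x) = σ • f x)
    (σ : G) (hσ : ∀ a ∈ A, σ • a - a ∈ 𝔫) (x : M) : act σ x - x ∈ redKer hF := by
  rw [sub_mem_redKer_iff]
  intro f hf
  rw [hequiv f hf]
  exact hσ _ (hF.val_mem f hf x)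

/-- **inertia acts trivially on the points of an étale order.** -/
theorem act_eq_of_etale (hF : Frame A 𝔫 H) (act : G → M → M)
    (hequiv : ∀ f ∈ H, ∀ (σ : G) (x : M), f (act σ x) = σ • f x)
    (het : IsEtaleAt 𝔫 H) (σ : G) (hσ : ∀ a ∈ A, σ • a - a ∈ 𝔫) (x : M) : act σ x = x := by
  have h1 := act_sub_mem_redKer hF act hequiv σ hσ x
  rw [(redKer_eq_bot_iff hF).mpr het, AddSubgroup.mem_bot, sub_eq_zero] at h1
  exact h1

end Inertia

/-! ### the étale order with rational points is the standard one -/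

section Lagrange

variable {𝔫 : AddSubgroup K} {H : Subalgebra R (M → K)} [Finite M]

/-- **Lagrange interpolation**: in the étale case, if the functions of `H` take their values in `R`
and every non-unit of `R` lies in `𝔫`, the indicator function of every point lies in `H`. -/
theorem exists_indicator [DecidableEq M] (het : IsEtaleAt 𝔫 H)
    (hval : ∀ f ∈ H, ∀ x : M, ∃ r : R, algebraMap R K r = f x)
    (hunit : ∀ r : R, algebraMap R K r ∉ 𝔫 → IsUnit r) (x : M) :
    (fun z : M => if z = x then (1 : K) else 0) ∈ H := by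
  classical
  have := Fintype.ofFinite M
  -- for every `y ≠ x` a function `g_y ∈ H` with `g_y x = 1`, `g_y y = 0`
  have hg : ∀ y : M, y ≠ x → ∃ g ∈ H, g x = 1 ∧ g y = 0 := by
    intro y hy
    obtain ⟨f, hf, hfxy⟩ := het x y hy.symm
    obtain ⟨rx, hrx⟩ := hval f hf x
    obtain ⟨ry, hry⟩ := hval f hf y
    have hu : IsUnit (rx - ry) := by
      apply hunit
      rw [map_sub, hrx, hry]
      exact hfxy
    obtain ⟨u, hu'⟩ := hu
    refine ⟨(↑u⁻¹ : R) • (f - algebraMap R (M → K) ry), ?_, ?_, ?_⟩
    · exact Subalgebra.smul_mem _ (Subalgebra.sub_mem _ hf (Subalgebra.algebraMap_mem _ _)) _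
    · rw [Pi.smul_apply, Pi.sub_apply, Pi.algebraMap_apply, ← hrx, ← map_sub, ← hu',
        Algebra.smul_def, ← map_mul, Units.inv_mul, map_one]
    · rw [Pi.smul_apply, Pi.sub_apply, Pi.algebraMap_apply, ← hry, sub_self, smul_zero]
  choose g hgH hgx hgy using hg
  have hprod : (fun z : M => if z = x then (1 : K) else 0) =
      ∏ y ∈ (Finset.univ.filter fun y => y ≠ x).attach,
        g y.1 (Finset.mem_filter.mp y.2).2 := by
    funext z
    rw [Finset.prod_apply]
    split_ifs with hz
    · subst hz
      symm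
      exact Finset.prod_eq_one fun y _ => hgx y.1 _
    · symm
      have hzm : z ∈ Finset.univ.filter fun y => y ≠ x :=
        Finset.mem_filter.mpr ⟨Finset.mem_univ _, hz⟩
      exact Finset.prod_eq_zero (Finset.mem_attach _ ⟨z, hzm⟩) (hgy z hz)
  rw [hprod]
  exact Subalgebra.prod_mem _ fun y _ => hgH y.1 _

/-- **the étale order with rational points is `Map(M, R)`**: every `R`-valued function lies in `H`. -/
theorem forall_mem_of_etale (het : IsEtaleAt 𝔫 H)
    (hval : ∀ f ∈ H, ∀ x : M, ∃ r : R, algebraMap R K r = f x)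
    (hunit : ∀ r : R, algebraMap R K r ∉ 𝔫 → IsUnit r) (g : M → R) :
    (fun z : M => algebraMap R K (g z)) ∈ H := by
  classical
  have := Fintype.ofFinite M
  have : (fun z : M => algebraMap R K (g z)) =
      ∑ x : M, g x • (fun z : M => if z = x then (1 : K) else 0) := by
    funext z
    rw [Finset.sum_apply]
    simp only [Pi.smul_apply, Algebra.smul_def, mul_ite, mul_one, mul_zero]
    rw [Finset.sum_ite_eq Finset.univ z (fun x => algebraMap R K (g x))]
    simp
  rw [this]
  exact Subalgebra.sum_mem _ fun x _ => Subalgebra.smul_mem _ (exists_indicator het hval hunit x) _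

end Lagrange

end Fermat.Agent.GZ.LocR.ConstOrd
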