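/-
GATE-Z / S15, node GZ-LOCR-CONSTORD, part 3a (helper5): **the norm over a Galois-stable subgroup maps
a stable function order into itself.**

Frame of `GH/N0/Order.IsStableOrder F act H` (`R` a PID, `F = Frac R ⊆ K`, `G` acting on `K` with
fixed field `F`, `M` a finite abelian group, `H ⊆ Map(M, K)` a Galois-equivariant, finite,
separating, Δ-stable `R`-algebra of functions).

* `act_add` : the maps `act σ` are additive;
* `IntComb H f` : `f` is a combination of functions of `H` with coefficients integral over `R`
  (closed under products, contains the translates `y ↦ f (y + k)` of the functions of `H`);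
* `mem_of_intComb_of_equivariant` (**DESCENT**): an integral combination of functions of `H` which is
  Galois-equivariant lies in `H`  (`(R̄ · H) ∩ Map_G(M, K) = H`; uses that an `R`-basis of `H` stays
  linearly independent over `K` and that `R` is integrally closed);
* `norm_mem` (**NORM**): for a `G`-stable subgroup `V'` and `f ∈ H` the function
  `y ↦ ∏_{k ∈ V'} f (y + k)` lies in `H` (the multiplicative twin of `GS/ClosureW/Quot.trK_mem`).

Mathlib + `GH/N0/Order` + `GS/ClosureW/Quot` only.
-/
import Mathlib
import Fermat.Agent.GS.ClosureW.Quot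

set_option autoImplicit false
set_option linter.unusedSectionVars false

namespace Fermat.Agent.GZ.LocR.ConstOrd

open Fermat.Agent.GH.N0 Fermat.Agent.GS.ClosureW Module

variable {R : Type*} [CommRing R] [IsDomain R] [IsPrincipalIdealRing R]
variable {F : Type*} [Field F] [Algebra R F] [IsFractionRing R F]
variable {K : Type*} [Field K] [Algebra F K] [Algebra R K] [IsScalarTower R F K]
variable {G : Type*} [Group G] [MulSemiringAction G K]
variable {M : Type*} [AddCommGroup M] [Finite M]
variable {act : G → M → M} {H : Subalgebra R (M → K)}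

/-- in a stable order the maps `act σ` are additive. -/
theorem act_add (h : IsStableOrder F act H) (σ : G) (x y : M) :
    act σ (x + y) = act σ x + act σ y := by
  by_contra hne
  obtain ⟨f, hf, hfne⟩ := h.sep _ _ hne
  apply hfne
  obtain ⟨n, a, b, hab⟩ := h.delta f hf
  rw [h.equivariant f hf, hab, hab, Finset.smul_sum]
  refine Finset.sum_congr rfl fun i _ => ?_
  rw [smul_mul', ← h.equivariant _ (a i).2, ← h.equivariant _ (b i).2]

/-- `f` is a combination of functions of `H` with coefficients integral over `R`. -/
def IntComb (H : Subalgebra R (M → K)) (f : M → K) : Prop :=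
  ∃ (J : Type) (_ : Fintype J) (s : J → K) (g : J → M → K),
    (∀ j, IsIntegral R (s j)) ∧ (∀ j, g j ∈ H) ∧ ∀ x, f x = ∑ j, s j * g j x

theorem IntComb.of_mem {f : M → K} (hf : f ∈ H) : IntComb H f :=
  ⟨Unit, inferInstance, fun _ => 1, fun _ => f, fun _ => isIntegral_one, fun _ => hf,
    fun x => by simp⟩

theorem IntComb.one : IntComb H (1 : M → K) := IntComb.of_mem H.one_mem

theorem IntComb.mul {f f' : M → K} (hf : IntComb H f) (hf' : IntComb H f') :
    IntComb H (f * f') := by
  obtain ⟨J, _, s, g, hs, hg, hfe⟩ := hf
  obtain ⟨J', _, s', g', hs', hg', hfe'⟩ := hf'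
  refine ⟨J × J', inferInstance, fun j => s j.1 * s' j.2, fun j => g j.1 * g' j.2,
    fun j => (hs j.1).mul (hs' j.2), fun j => H.mul_mem (hg j.1) (hg' j.2), fun x => ?_⟩
  rw [Pi.mul_apply, hfe, hfe', Finset.sum_mul_sum, Fintype.sum_prod_type]
  refine Finset.sum_congr rfl fun j _ => Finset.sum_congr rfl fun j' _ => ?_
  show s j * g j x * (s' j' * g' j' x) = s j * s' j' * (g j x * g' j' x)
  ring

theorem IntComb.prod {ι : Type*} (s : Finset ι) (f : ι → M → K)
    (hf : ∀ i ∈ s, IntComb H (f i)) : IntComb H (∏ i ∈ s, f i) :=
  Finset.prod_induction f (IntComb H) (fun _ _ ha hb => ha.mul hb) IntComb.one hf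

/-- the translates of the functions of `H` are integral combinations of functions of `H`. -/
theorem IntComb.translate (h : IsStableOrder F act H) {f : M → K} (hf : f ∈ H) (k : M) :
    IntComb H (fun y => f (y + k)) := by
  obtain ⟨n, a, b, hab⟩ := h.delta f hf
  refine ⟨Fin n, inferInstance, fun i => (b i : M → K) k, fun i => (a i : M → K),
    fun i => isIntegral_apply h (b i).2 k, fun i => (a i).2, fun y => ?_⟩
  show f (y + k) = ∑ i, (b i : M → K) k * (a i : M → K) y
  rw [hab]
  exact Finset.sum_congr rfl fun i _ => mul_comm _ _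

/-- **DESCENT**: a Galois-equivariant integral combination of functions of `H` lies in `H`. -/
theorem mem_of_intComb_of_equivariant (h : IsStableOrder F act H) {f : M → K}
    (hf : IntComb H f) (heq : ∀ (σ : G) (x : M), f (act σ x) = σ • f x) : f ∈ H := by
  classical
  obtain ⟨J, _, s, g, hs, hg, hfe⟩ := hf
  have hfg := h.fg
  have hfree := h.free
  let b := Module.Free.chooseBasis R H
  -- coordinates
  let c : Module.Free.ChooseBasisIndex R H → K := fun i =>
    ∑ j, s j * algebraMap R K (b.repr ⟨g j, hg j⟩ i)
  have hgx : ∀ j x, g j x = ∑ i, algebraMap R K (b.repr ⟨g j, hg j⟩ i) * (b i : M → K) x := by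
    intro j x
    have h1 := b.sum_repr ⟨g j, hg j⟩
    have h2 := congrArg (fun u : H => (u : M → K) x) h1
    simp only at h2
    rw [← h2, AddSubmonoidClass.coe_finsetSum, Finset.sum_apply]
    refine Finset.sum_congr rfl fun i _ => ?_
    rw [Subalgebra.coe_smul, Pi.smul_apply, Algebra.smul_def]
  have hfc : ∀ x, f x = ∑ i, c i * (b i : M → K) x := by
    intro x
    rw [hfe]
    simp only [c, hgx, Finset.mul_sum, Finset.sum_mul]
    rw [Finset.sum_comm]
    refine Finset.sum_congr rfl fun i _ => Finset.sum_congr rfl fun j _ => ?_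
    ring
  have hcint : ∀ i, IsIntegral R (c i) := fun i =>
    IsIntegral.sum _ fun j _ => (hs j).mul isIntegral_algebraMap
  -- the coordinates are Galois-fixed
  have hli := h.linearIndependent_coe b
  have hcfix : ∀ i (σ : G), σ • c i = c i := by
    intro i σ
    have hrel : ∑ i, (c i - σ • c i) • (fun i => ((b i : H) : M → K)) i = 0 := by
      funext y
      obtain ⟨x, rfl⟩ := h.act_surjective σ y
      rw [Finset.sum_apply, Pi.zero_apply]
      have h1 := heq σ x
      rw [hfc, hfc, Finset.smul_sum] at h1
      have h2 : ∀ i, σ • (c i * (b i : M → K) x) = σ • c i * (b i : M → K) (act σ x) := by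
        intro i
        rw [smul_mul', ← h.equivariant _ (b i).2]
      simp only [h2] at h1
      rw [← sub_eq_zero, ← Finset.sum_sub_distrib] at h1
      rw [← h1]
      refine Finset.sum_congr rfl fun i _ => ?_
      rw [Pi.smul_apply, smul_eq_mul]
      ring
    have := Fintype.linearIndependent_iff.mp hli _ hrel i
    exact (sub_eq_zero.mp this).symm
  have hr : ∀ i, ∃ r : R, algebraMap R K r = c i := fun i =>
    exists_algebraMap_eq_of_fixed h (hcfix i) (hcint i)
  choose r hr using hr
  have : f = ∑ i, r i • (b i : M → K) := by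
    funext x
    rw [hfc, Finset.sum_apply]
    refine Finset.sum_congr rfl fun i _ => ?_
    rw [Pi.smul_apply, Algebra.smul_def, hr]
  rw [this]
  exact Subalgebra.sum_mem _ fun i _ => Subalgebra.smul_mem _ (b i).2 _

/-- **NORM**: the norm over a Galois-stable subgroup maps `H` into `H`. -/
theorem norm_mem (h : IsStableOrder F act H) (V' : AddSubgroup M) [Fintype V']
    (hV' : ∀ (σ : G), ∀ k ∈ V', act σ k ∈ V') {f : M → K} (hf : f ∈ H) :
    (fun y : M => ∏ k : V', f (y + k)) ∈ H := by
  have hfun : (fun y : M => ∏ k : V', f (y + k)) = ∏ k : V', fun y : M => f (y + k) := by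
    funext y
    rw [Finset.prod_apply]
  apply mem_of_intComb_of_equivariant h
  · rw [hfun]
    exact IntComb.prod _ _ fun k _ => IntComb.translate h hf k
  · intro σ y
    show ∏ k : V', f (act σ y + k) = σ • ∏ k : V', f (y + k)
    rw [Finset.smul_prod']
    have hbij : Function.Bijective (fun k : V' => (⟨act σ k, hV' σ k k.2⟩ : V')) := by
      apply Finite.injective_iff_bijective.mp
      intro k k' hkk
      exact Subtype.ext (h.act_injective σ (congrArg Subtype.val hkk))
    rw [← Function.Bijective.prod_comp hbij (fun k : V' => f (act σ y + k))]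
    refine Finset.prod_congr rfl fun k _ => ?_
    show f (act σ y + act σ k) = σ • f (y + k)
    rw [← act_add h, h.equivariant f hf]

end Fermat.Agent.GZ.LocR.ConstOrd
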