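/-
GATE-Z / S15, node GZ-LOCR-CONSTORD, part 3b (helper5): **the reduction kernel of a sub-order and of a
quotient order; the TYPE (étale / local) of a rank-one subquotient; multiplicativity of `#M⁰`.**

Frame of `GH/N0/Order.IsStableOrder F act H` + `(A, 𝔫)`: a subring `A ⊆ K` containing the integral
closure of `R` and a PRIME ideal `𝔫` of `A` (`IsPrimeAt R A 𝔫`; instance: the valuation ring of
`ℚ̄` over `r` and its maximal ideal).  `M⁰ = redKer` is the reduction kernel of `ConstOrdDich`.

* `IsPrimeAt.frame`  : every stable order is a `Frame A 𝔫 H` (values integral, Δ- and neg-stable);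
* `redKer_map`       : for the restricted order along `j : N →+ M`, `N⁰ = j⁻¹(M⁰)`;
* `exists_avoid`     : prime avoidance at the rational point `0`: if no point of `x + V'` reduces to
  `0` there is `f ∈ H` with `f 0 ∈ 𝔫` and `f (x + k) ∉ 𝔫` for all `k ∈ V'`;
* `redKer_comap`     : **for the quotient (invariant) order along an equivariant surjection
  `π : M →+ Q`, `Q⁰ = π(M⁰)`** (norm over `ker π` + descent, `ConstOrdNorm.norm_mem`);
* `isEtaleAt_comap_iff` / `isLocalAt_comap_iff` : the quotient order is ÉTALE iff `M⁰ ≤ ker π`;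
  on a quotient of prime order it is LOCAL iff `¬ M⁰ ≤ ker π`;
* `isEtaleAt_subquot_iff` / `isLocalAt_subquot_iff` : the same for a SUBQUOTIENT
  `N ↪ M`, `N ↠ Q` (restrict, then take invariants): étale iff `j⁻¹(M⁰) ≤ ker π`;
* `card_redKer_mul`  : **`#N⁰ * #Q⁰ = #M⁰` for an exact sequence `0 → N → M → Q → 0`** with the
  restricted and the quotient order: the 'local length' `log_r #M⁰` (and hence the 'étale length'
  `log_r #(M/M⁰)`) is additive, so along ANY Galois-stable flag with pieces of prime order `r`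
  the number of étale pieces is `log_r #(M/M⁰)`.
-/
import Mathlib
import Fermat.Agent.GZ.LocR.ConstOrdDich
import Fermat.Agent.GZ.LocR.ConstOrdNorm

set_option autoImplicit false
set_option linter.unusedSectionVars false

namespace Fermat.Agent.GZ.LocR.ConstOrd

open Fermat.Agent.GH.N0 Fermat.Agent.GS.ClosureW Module

variable {R : Type*} [CommRing R] [IsDomain R] [IsPrincipalIdealRing R]
variable {F : Type*} [Field F] [Algebra R F] [IsFractionRing R F]
variable {K : Type*} [Field K] [Algebra F K] [Algebra R K] [IsScalarTower R F K]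
variable {G : Type*} [Group G] [MulSemiringAction G K]
variable {M : Type*} [AddCommGroup M] [Finite M]
variable {act : G → M → M} {H : Subalgebra R (M → K)}

/-- `A` contains the integral closure of `R` in `K` and `𝔫` is a prime ideal of `A`. -/
structure IsPrimeAt (R : Type*) {K : Type*} [CommRing R] [Field K] [Algebra R K]
    (A : Subring K) (𝔫 : AddSubgroup K) : Prop where
  int_mem : ∀ c : K, IsIntegral R c → c ∈ A
  mul_mem : ∀ a ∈ A, ∀ c ∈ 𝔫, a * c ∈ 𝔫
  prime : ∀ a ∈ A, ∀ b ∈ A, a * b ∈ 𝔫 → a ∈ 𝔫 ∨ b ∈ 𝔫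
  one_notMem : (1 : K) ∉ 𝔫

variable {A : Subring K} {𝔫 : AddSubgroup K}

/-- every stable order is a frame for `(A, 𝔫)`. -/
theorem IsPrimeAt.frame (hP : IsPrimeAt R A 𝔫) (h : IsStableOrder F act H) : Frame A 𝔫 H where
  mul_mem := hP.mul_mem
  val_mem := fun _ hf x => hP.int_mem _ (isIntegral_apply h hf x)
  delta := h.delta
  neg := fun f hf => h.neg_pull_mem f hf

/-- a product of elements of `A` outside `𝔫` is outside `𝔫`. -/
theorem IsPrimeAt.prod_notMem (hP : IsPrimeAt R A 𝔫) {ι : Type*} (s : Finset ι) (a : ι → K)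
    (hA : ∀ i ∈ s, a i ∈ A) (hn : ∀ i ∈ s, a i ∉ 𝔫) : ∏ i ∈ s, a i ∉ 𝔫 := by
  classical
  induction s using Finset.induction_on with
  | empty => rw [Finset.prod_empty]; exact hP.one_notMem
  | insert i s hi ih =>
    rw [Finset.prod_insert hi]
    intro hmem
    rcases hP.prime _ (hA i (Finset.mem_insert_self i s)) _
      (Subring.prod_mem A fun k hk => hA k (Finset.mem_insert_of_mem hk)) hmem with h1 | h1
    · exact hn i (Finset.mem_insert_self i s) h1
    · exact ih (fun k hk => hA k (Finset.mem_insert_of_mem hk))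
        (fun k hk => hn k (Finset.mem_insert_of_mem hk)) h1

/-- a product of elements of `A`, one of which lies in `𝔫`, lies in `𝔫`. -/
theorem IsPrimeAt.prod_mem (hP : IsPrimeAt R A 𝔫) {ι : Type*} (s : Finset ι) (a : ι → K)
    (hA : ∀ i ∈ s, a i ∈ A) {i₀ : ι} (hi₀ : i₀ ∈ s) (h₀ : a i₀ ∈ 𝔫) : ∏ i ∈ s, a i ∈ 𝔫 := by
  classical
  rw [← Finset.mul_prod_erase s a hi₀, mul_comm]
  exact hP.mul_mem _ (Subring.prod_mem A fun k hk => hA k (Finset.mem_of_mem_erase hk)) _ h₀

/-! ### restriction -/

section Sub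

variable {N : Type*} [AddCommGroup N]

/-- the reduction kernel of the restricted order is the preimage of the reduction kernel. -/
theorem redKer_map (j : N →+ M) (hF : Frame A 𝔫 H) (hFN : Frame A 𝔫 (H.map (precomp R K j))) :
    redKer hFN = (redKer hF).comap j := by
  ext n
  constructor
  · intro hn f hf
    have := hn (precomp R K j f) ⟨f, hf, rfl⟩
    rwa [precomp_apply, precomp_apply, map_zero] at this
  · rintro hn _ ⟨f, hf, rfl⟩
    show f (j n) - f (j 0) ∈ 𝔫
    rw [map_zero]
    exact hn f hf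

end Sub

/-! ### the evaluation primes of `H` and prime avoidance -/

/-- the functions of `H` whose value at `z` lies in `𝔫`. -/
def evIdeal (hF : Frame A 𝔫 H) (z : M) : Ideal H where
  carrier := {f | (f : M → K) z ∈ 𝔫}
  add_mem' := fun {_ _} hf hg => 𝔫.add_mem hf hg
  zero_mem' := 𝔫.zero_mem
  smul_mem' := fun c _ hf => hF.mul_mem _ (hF.val_mem c.1 c.2 z) _ hf

theorem mem_evIdeal (hF : Frame A 𝔫 H) {z : M} {f : H} :
    f ∈ evIdeal hF z ↔ (f : M → K) z ∈ 𝔫 := Iff.rfl

theorem evIdeal_isPrime (hP : IsPrimeAt R A 𝔫) (hF : Frame A 𝔫 H) (z : M) :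
    (evIdeal hF z).IsPrime := by
  refine ⟨?_, ?_⟩
  · intro htop
    have h1 : (1 : H) ∈ evIdeal hF z := by rw [htop]; trivial
    exact hP.one_notMem h1
  · intro f g hfg
    exact hP.prime _ (hF.val_mem f.1 f.2 z) _ (hF.val_mem g.1 g.2 z) hfg

/-- **prime avoidance at the rational point `0`.** -/
theorem exists_avoid (h : IsStableOrder F act H) (hP : IsPrimeAt R A 𝔫) (hF : Frame A 𝔫 H)
    (V' : AddSubgroup M) (x : M) (hx : ∀ k ∈ V', x + k ∉ redKer hF) :
    ∃ f ∈ H, f 0 ∈ 𝔫 ∧ ∀ k ∈ V', f (x + k) ∉ 𝔫 := by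
  classical
  have := Fintype.ofFinite M
  by_contra hcon
  push Not at hcon
  let s : Finset M := Finset.univ.filter (fun z => z - x ∈ V')
  have hsub : ((evIdeal hF 0 : Ideal H) : Set H) ⊆ ⋃ z ∈ (↑s : Set M), (evIdeal hF z : Set H) := by
    intro f hf
    obtain ⟨k, hk, hfk⟩ := hcon f.1 f.2 hf
    refine Set.mem_iUnion₂.mpr ⟨x + k, ?_, hfk⟩
    simp [s, hk]
  obtain ⟨z, hz, hle⟩ := (Ideal.subset_union_prime (0 : M) 0
    (fun i _ _ _ => evIdeal_isPrime hP hF i)).mp hsub
  have hzV : z - x ∈ V' := (Finset.mem_filter.mp hz).2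
  apply hx (z - x) hzV
  rw [add_sub_cancel]
  intro f hf
  obtain ⟨r, hr⟩ := h.exists_algebraMap_eq_apply_zero ⟨f, hf⟩
  have hmem : ((⟨f, hf⟩ : H) - algebraMap R H r) ∈ evIdeal hF 0 := by
    rw [mem_evIdeal]
    have : (((⟨f, hf⟩ : H) - algebraMap R H r : H) : M → K) 0 = 0 := by
      rw [Subalgebra.coe_sub, Subalgebra.coe_algebraMap, Pi.sub_apply, Pi.algebraMap_apply, hr,
        sub_self]
    rw [this]
    exact 𝔫.zero_mem
  have h2 := hle hmem
  rw [mem_evIdeal, Subalgebra.coe_sub, Subalgebra.coe_algebraMap, Pi.sub_apply,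
    Pi.algebraMap_apply, hr] at h2
  exact h2

/-! ### quotient -/

section Quot

variable [CharZero K] {Q : Type*} [AddCommGroup Q] [Finite Q] {actQ : G → Q → Q}

/-- a point of `Q` which is not the image of a point of `M⁰` is separated from `0` modulo `𝔫` by an
invariant function of `H`. -/
theorem exists_comap_sep (h : IsStableOrder F act H) (hP : IsPrimeAt R A 𝔫)
    (hF : Frame A 𝔫 H) (π : M →+ Q) (hπ : Function.Surjective π)
    (hπeq : ∀ (σ : G) (x : M), π (act σ x) = actQ σ (π x)) (x : M)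
    (hx : ∀ k ∈ π.ker, x + k ∉ redKer hF) :
    ∃ g ∈ H.comap (precomp R K π), g (π x) - g 0 ∉ 𝔫 := by
  classical
  have : Fintype π.ker := Fintype.ofFinite _
  obtain ⟨f, hf, hf0, hfx⟩ := exists_avoid h hP hF π.ker x hx
  have hN := norm_mem h π.ker (ker_stable h π hπeq) hf
  have hinv : ∀ y, ∀ k₀ ∈ π.ker, (fun y : M => ∏ k : π.ker, f (y + k)) (y + k₀) =
      (fun y : M => ∏ k : π.ker, f (y + k)) y := by
    intro y k₀ hk₀
    show ∏ k : π.ker, f (y + k₀ + k) = ∏ k : π.ker, f (y + k)
    refine Fintype.prod_equiv (Equiv.addLeft (⟨k₀, hk₀⟩ : π.ker)) _ _ fun k => ?_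
    rw [Equiv.coe_addLeft, AddSubgroup.coe_add, add_assoc]
  obtain ⟨g, hg⟩ := exists_desc hπ (fun y : M => ∏ k : π.ker, f (y + k)) hinv
  have hgH : g ∈ H.comap (precomp R K π) := by
    show precomp R K π g ∈ H
    have : precomp R K π g = fun y : M => ∏ k : π.ker, f (y + k) := by
      funext y
      rw [precomp_apply, hg]
    rw [this]
    exact hN
  refine ⟨g, hgH, ?_⟩
  have hvalA : ∀ y : M, f y ∈ A := fun y => hF.val_mem f hf y
  have hg0 : g 0 ∈ 𝔫 := by
    rw [← map_zero π, hg]
    refine hP.prod_mem Finset.univ (fun k : π.ker => f (0 + k)) (fun k _ => hvalA _)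
      (Finset.mem_univ (0 : π.ker)) ?_
    show f (0 + ((0 : π.ker) : M)) ∈ 𝔫
    rw [AddSubgroup.coe_zero, add_zero]
    exact hf0
  have hgx : g (π x) ∉ 𝔫 := by
    rw [hg]
    exact hP.prod_notMem Finset.univ (fun k : π.ker => f (x + k)) (fun k _ => hvalA _)
      (fun k _ => hfx k k.2)
  intro hmem
  apply hgx
  have := 𝔫.add_mem hmem hg0
  rwa [sub_add_cancel] at this

/-- **the reduction kernel of the quotient order is the image of the reduction kernel.** -/
theorem redKer_comap (h : IsStableOrder F act H) (hP : IsPrimeAt R A 𝔫)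
    (π : M →+ Q) (hπ : Function.Surjective π)
    (hπeq : ∀ (σ : G) (x : M), π (act σ x) = actQ σ (π x))
    (hF : Frame A 𝔫 H) (hFQ : Frame A 𝔫 (H.comap (precomp R K π))) :
    redKer hFQ = (redKer hF).map π := by
  ext z
  constructor
  · intro hz
    obtain ⟨x, rfl⟩ := hπ z
    by_contra hcon
    have hx : ∀ k ∈ π.ker, x + k ∉ redKer hF := by
      intro k hk hmem
      apply hcon
      refine AddSubgroup.mem_map.mpr ⟨x + k, hmem, ?_⟩
      rw [map_add, AddMonoidHom.mem_ker.mp hk, add_zero]
    obtain ⟨g, hg, hgx⟩ := exists_comap_sep h hP hF π hπ hπeq x hx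
    exact hgx (hz g hg)
  · rintro ⟨x, hx, rfl⟩ g hg
    have := hx (precomp R K π g) hg
    rwa [precomp_apply, precomp_apply, map_zero] at this

/-- the quotient order is a frame. -/
theorem IsPrimeAt.frame_comap (hP : IsPrimeAt R A 𝔫) (h : IsStableOrder F act H)
    (π : M →+ Q) (hπ : Function.Surjective π)
    (hπeq : ∀ (σ : G) (x : M), π (act σ x) = actQ σ (π x)) :
    Frame A 𝔫 (H.comap (precomp R K π)) :=
  hP.frame (isStableOrder_comap h π hπ hπeq)

/-- **the quotient order is étale iff the reduction kernel dies in the quotient.** -/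
theorem isEtaleAt_comap_iff (h : IsStableOrder F act H) (hP : IsPrimeAt R A 𝔫)
    (π : M →+ Q) (hπ : Function.Surjective π)
    (hπeq : ∀ (σ : G) (x : M), π (act σ x) = actQ σ (π x)) :
    IsEtaleAt 𝔫 (H.comap (precomp R K π)) ↔ redKer (hP.frame h) ≤ π.ker := by
  rw [← redKer_eq_bot_iff (hP.frame_comap h π hπ hπeq),
    redKer_comap h hP π hπ hπeq (hP.frame h), AddSubgroup.map_eq_bot_iff]

/-- **on a quotient of prime order, the quotient order is local iff the reduction kernel survives
in the quotient.** -/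
theorem isLocalAt_comap_iff (h : IsStableOrder F act H) (hP : IsPrimeAt R A 𝔫)
    (π : M →+ Q) (hπ : Function.Surjective π)
    (hπeq : ∀ (σ : G) (x : M), π (act σ x) = actQ σ (π x)) (hcard : (Nat.card Q).Prime) :
    IsLocalAt (𝔫 : Set K) (H.comap (precomp R K π)) ↔ ¬ redKer (hP.frame h) ≤ π.ker := by
  have hnt : Nontrivial Q := Finite.one_lt_card_iff_nontrivial.mp hcard.one_lt
  rw [← isEtaleAt_comap_iff h hP π hπ hπeq]
  constructor
  · exact fun hloc => not_etale_of_local hloc
  · intro hne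
    rcases isLocalAt_or_etale (hP.frame_comap h π hπ hπeq) hcard with h1 | h1
    · exact h1
    · exact absurd h1 hne

end Quot

/-! ### subquotients and the count -/

section Subquot

variable [CharZero K]
variable {N : Type*} [AddCommGroup N] [Finite N] {actN : G → N → N}
variable {Q : Type*} [AddCommGroup Q] [Finite Q] {actQ : G → Q → Q}

/-- **TYPE of a subquotient**: the subquotient order on `Q` (`N ↪ M` restricted, then `N ↠ Q`
invariants) is étale iff the points of `N` reducing to `0` die in `Q`. -/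
theorem isEtaleAt_subquot_iff (h : IsStableOrder F act H) (hP : IsPrimeAt R A 𝔫)
    (j : N →+ M) (hj : Function.Injective j)
    (hjeq : ∀ (σ : G) (n : N), j (actN σ n) = act σ (j n))
    (π : N →+ Q) (hπ : Function.Surjective π)
    (hπeq : ∀ (σ : G) (n : N), π (actN σ n) = actQ σ (π n)) :
    IsEtaleAt 𝔫 ((H.map (precomp R K j)).comap (precomp R K π)) ↔
      (redKer (hP.frame h)).comap j ≤ π.ker := by
  have hN := isStableOrder_map (actN := actN) h j hj hjeq
  rw [isEtaleAt_comap_iff hN hP π hπ hπeq, redKer_map j (hP.frame h) (hP.frame hN)]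

/-- **TYPE of a rank-one subquotient**: it is local iff some point of `N` reducing to `0` survives
in `Q`. -/
theorem isLocalAt_subquot_iff (h : IsStableOrder F act H) (hP : IsPrimeAt R A 𝔫)
    (j : N →+ M) (hj : Function.Injective j)
    (hjeq : ∀ (σ : G) (n : N), j (actN σ n) = act σ (j n))
    (π : N →+ Q) (hπ : Function.Surjective π)
    (hπeq : ∀ (σ : G) (n : N), π (actN σ n) = actQ σ (π n)) (hcard : (Nat.card Q).Prime) :
    IsLocalAt (𝔫 : Set K) ((H.map (precomp R K j)).comap (precomp R K π)) ↔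
      ¬ (redKer (hP.frame h)).comap j ≤ π.ker := by
  have hN := isStableOrder_map (actN := actN) h j hj hjeq
  rw [isLocalAt_comap_iff hN hP π hπ hπeq hcard, redKer_map j (hP.frame h) (hP.frame hN)]

/-- **multiplicativity of the reduction kernel**: `#N⁰ * #Q⁰ = #M⁰` for an exact sequence
`0 → N → M → Q → 0` of groups with the restricted and the quotient order. -/
theorem card_redKer_mul (h : IsStableOrder F act H) (hP : IsPrimeAt R A 𝔫)
    (j : N →+ M) (hj : Function.Injective j)
    (π : M →+ Q) (hπ : Function.Surjective π)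
    (hπeq : ∀ (σ : G) (x : M), π (act σ x) = actQ σ (π x)) (hex : j.range = π.ker)
    (hF : Frame A 𝔫 H) (hFN : Frame A 𝔫 (H.map (precomp R K j)))
    (hFQ : Frame A 𝔫 (H.comap (precomp R K π))) :
    Nat.card (redKer hFN) * Nat.card (redKer hFQ) = Nat.card (redKer hF) := by
  rw [redKer_comap h hP π hπ hπeq hF hFQ, redKer_map j hF hFN]
  have h1 : Nat.card ((redKer hF).comap j) = Nat.card ((π.domRestrict (redKer hF)).ker) := by
    rw [AddMonoidHom.ker_domRestrict,
      ← AddSubgroup.card_map_of_injective (redKer hF).subtype_injective,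
      AddSubgroup.addSubgroupOf_map_subtype, ← hex, ← AddSubgroup.map_comap_eq,
      AddSubgroup.card_map_of_injective hj]
  have h2 : Nat.card ((redKer hF).map π) = Nat.card ((π.domRestrict (redKer hF)).range) := by
    rw [AddMonoidHom.domRestrict_range]
  rw [h1, h2, ← AddSubgroup.index_ker, AddSubgroup.card_mul_index]

end Subquot

end Fermat.Agent.GZ.LocR.ConstOrd
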