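/-
GATE-Z / S15, node GZ-LOCR-CONSTORD, part 4a (helper5): **the Newton-polygon bound for a LOCAL stable
order.**

Frame of `GH/N0/Order.IsStableOrder F act H` + `IsPrimeAt R A 𝔫` (`ConstOrdQuot`), `H` LOCAL at `𝔫`
(`GS/ClosureW.IsLocalAt`), `r` an element-prime of the base in the sense `R ∩ 𝔫 ⊆ r R`.

* `coeff_prod_X_sub_C_mem` / `coeff_prod_X_sub_C_mem_ideal` : the coefficients of `∏ (X - y_i)` lie in
  every subring containing the `y_i`, the non-leading ones in every ideal containing the `y_i`;
* `exists_pow_eq_mul` : for `f ∈ H`, `m ≠ 0`:  `(f m - f 0) ^ (#M - 1) = r * z` with `z` integral over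
  `R` (the polynomial `∏_{m' ≠ 0} (T - (f m' - f 0))` has coefficients in `R`, is `≡ T^(#M-1)` modulo
  `𝔫`, and kills `f m - f 0`) — NO hypothesis on the Galois action;
* `exists_eq_one_sub_mul` : if `#M = r` is prime and `ζ` is a primitive `r`-th root of unity,
  `f m - f 0 = (1 - ζ) * w` with `w` integral over `R`: **the order is local at level `1 - ζ`**.
* `IntComb.add/const/smul/isIntegral_apply/exists_coord` : more closure properties of the integral
  combinations of `ConstOrdNorm`.
-/
import Mathlib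
import Fermat.Agent.GZ.LocR.ConstOrdQuot

set_option autoImplicit false
set_option linter.unusedSectionVars false

namespace Fermat.Agent.GZ.LocR.ConstOrd

open Fermat.Agent.GH.N0 Fermat.Agent.GS.ClosureW Module Polynomial

section Coeff

variable {K : Type*} [Field K] {ι : Type*}

/-- the coefficients of `∏ (X - C (y i))` lie in every subring containing the `y i`. -/
theorem coeff_prod_X_sub_C_mem (S : Subring K) (s : Finset ι) (y : ι → K)
    (hy : ∀ i ∈ s, y i ∈ S) (j : ℕ) : (∏ i ∈ s, (X - C (y i))).coeff j ∈ S := by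
  classical
  induction s using Finset.induction_on generalizing j with
  | empty =>
    rw [Finset.prod_empty, coeff_one]
    split_ifs
    · exact S.one_mem
    · exact S.zero_mem
  | insert a s ha ih =>
    rw [Finset.prod_insert ha]
    have ih' := fun j => ih (fun i hi => hy i (Finset.mem_insert_of_mem hi)) j
    have hya := hy a (Finset.mem_insert_self a s)
    cases j with
    | zero =>
      rw [mul_coeff_zero, coeff_sub, coeff_X_zero, coeff_C_zero, zero_sub]
      exact S.mul_mem (S.neg_mem hya) (ih' 0)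
    | succ j =>
      rw [coeff_X_sub_C_mul]
      exact S.sub_mem (ih' j) (S.mul_mem hya (ih' (j + 1)))

/-- the non-leading coefficients of `∏ (X - C (y i))` lie in every ideal containing the `y i`. -/
theorem coeff_prod_X_sub_C_mem_ideal (A : Subring K) (𝔫 : AddSubgroup K)
    (hmul : ∀ a ∈ A, ∀ c ∈ 𝔫, a * c ∈ 𝔫) (s : Finset ι) (y : ι → K)
    (hyA : ∀ i ∈ s, y i ∈ A) (hyn : ∀ i ∈ s, y i ∈ 𝔫) (j : ℕ) (hj : j < s.card) :
    (∏ i ∈ s, (X - C (y i))).coeff j ∈ 𝔫 := by
  classical
  induction s using Finset.induction_on generalizing j with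
  | empty => simp at hj
  | insert a s ha ih =>
    rw [Finset.prod_insert ha]
    rw [Finset.card_insert_of_notMem ha] at hj
    have hA' := fun j => coeff_prod_X_sub_C_mem A s y
      (fun i hi => hyA i (Finset.mem_insert_of_mem hi)) j
    have hyan := hyn a (Finset.mem_insert_self a s)
    cases j with
    | zero =>
      rw [mul_coeff_zero, coeff_sub, coeff_X_zero, coeff_C_zero, zero_sub, mul_comm]
      exact hmul _ (hA' 0) _ (𝔫.neg_mem hyan)
    | succ j =>
      rw [coeff_X_sub_C_mul]
      refine 𝔫.sub_mem (ih (fun i hi => hyA i (Finset.mem_insert_of_mem hi))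
        (fun i hi => hyn i (Finset.mem_insert_of_mem hi)) j (by omega)) ?_
      rw [mul_comm]
      exact hmul _ (hA' (j + 1)) _ hyan

end Coeff

variable {R : Type*} [CommRing R] [IsDomain R] [IsPrincipalIdealRing R]
variable {F : Type*} [Field F] [Algebra R F] [IsFractionRing R F]
variable {K : Type*} [Field K] [Algebra F K] [Algebra R K] [IsScalarTower R F K]
variable {G : Type*} [Group G] [MulSemiringAction G K]
variable {M : Type*} [AddCommGroup M] [Finite M]
variable {act : G → M → M} {H : Subalgebra R (M → K)}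
variable {A : Subring K} {𝔫 : AddSubgroup K}

/-- **the Newton-polygon bound**: in a local stable order, `(f m - f 0) ^ (#M - 1) ∈ r R̄`. -/
theorem exists_pow_eq_mul (h : IsStableOrder F act H) (hP : IsPrimeAt R A 𝔫)
    (hloc : IsLocalAt (𝔫 : Set K) H) {r : ℕ}
    (hRn : ∀ a : R, algebraMap R K a ∈ 𝔫 → (r : R) ∣ a) {f : M → K} (hf : f ∈ H)
    {m : M} (hm : m ≠ 0) :
    ∃ z : K, IsIntegral R z ∧ (f m - f 0) ^ (Nat.card M - 1) = (r : K) * z := by
  classical
  have := Fintype.ofFinite M
  set s : Finset M := Finset.univ.erase 0 with hs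
  set y : M → K := fun m' => f m' - f 0 with hy
  set Q : K[X] := ∏ m' ∈ s, (X - C (y m')) with hQ
  have hcard : s.card = Nat.card M - 1 := by
    rw [hs, Finset.card_erase_of_mem (Finset.mem_univ _), Finset.card_univ,
      Nat.card_eq_fintype_card]
  have hms : m ∈ s := Finset.mem_erase.mpr ⟨hm, Finset.mem_univ _⟩
  have hmonic : Q.Monic := monic_prod_X_sub_C y s
  have hdeg : Q.natDegree = s.card := natDegree_finsetProd_X_sub_C_eq_card s y
  have hroot : Q.eval (y m) = 0 := by
    rw [hQ, eval_prod]
    refine Finset.prod_eq_zero hms ?_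
    rw [eval_sub, eval_X, eval_C, sub_self]
  have hyint : ∀ m', IsIntegral R (y m') := fun m' =>
    (isIntegral_apply h hf m').sub (isIntegral_apply h hf 0)
  have hint : ∀ j, IsIntegral R (Q.coeff j) := by
    intro j
    have := coeff_prod_X_sub_C_mem (integralClosure R K).toSubring s y
      (fun i _ => (hyint i)) j
    exact this
  have hyA : ∀ m', y m' ∈ A := fun m' => hP.int_mem _ (hyint m')
  have hn : ∀ j < s.card, Q.coeff j ∈ 𝔫 :=
    fun j hj => coeff_prod_X_sub_C_mem_ideal A 𝔫 hP.mul_mem s y (fun i _ => hyA i)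
      (fun i _ => hloc f hf i) j hj
  have hfix : ∀ (σ : G) (j : ℕ), σ • Q.coeff j = Q.coeff j := by
    intro σ j
    have h1 : Q.map (MulSemiringAction.toRingHom G K σ) = Q := by
      rw [hQ, Polynomial.map_prod]
      have h2 : ∀ m' ∈ s, (X - C (y m')).map (MulSemiringAction.toRingHom G K σ) =
          X - C (y (act σ m')) := by
        intro m' _
        rw [Polynomial.map_sub, map_X, map_C]
        congr 2
        show σ • (f m' - f 0) = f (act σ m') - f 0
        rw [smul_sub, ← h.equivariant f hf, ← h.equivariant f hf, h.act_zero]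
      rw [Finset.prod_congr rfl h2]
      refine Finset.prod_bij (fun m' _ => act σ m') ?_ ?_ ?_ ?_
      · intro m' hm'
        refine Finset.mem_erase.mpr ⟨fun h0 => ?_, Finset.mem_univ _⟩
        rw [← h.act_zero σ] at h0
        exact (Finset.mem_erase.mp hm').1 (h.act_injective σ h0)
      · intro a _ b _ hab
        exact h.act_injective σ hab
      · intro b hb
        obtain ⟨a, rfl⟩ := h.act_surjective σ b
        refine ⟨a, Finset.mem_erase.mpr ⟨fun h0 => ?_, Finset.mem_univ _⟩, rfl⟩
        apply (Finset.mem_erase.mp hb).1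
        rw [h0, h.act_zero]
      · intro _ _
        rfl
    have h3 := congrArg (fun P : K[X] => P.coeff j) h1
    simp only [coeff_map] at h3
    exact h3
  -- the coefficients lie in `r R`
  have hc : ∀ j < s.card, ∃ c : R, Q.coeff j = (r : K) * algebraMap R K c := by
    intro j hj
    obtain ⟨a, ha⟩ := exists_algebraMap_eq_of_fixed h (fun σ => hfix σ j) (hint j)
    obtain ⟨c, rfl⟩ := hRn a (by rw [ha]; exact hn j hj)
    exact ⟨c, by rw [← ha, map_mul, map_natCast]⟩
  choose! c hc using hc
  refine ⟨-∑ j ∈ Finset.range s.card, algebraMap R K (c j) * y m ^ j, ?_, ?_⟩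
  · exact (IsIntegral.sum _ fun j _ => isIntegral_algebraMap.mul ((hyint m).pow j)).neg
  · rw [eval_eq_sum_range, hdeg, Finset.sum_range_succ, ← hdeg, hmonic.coeff_natDegree, one_mul,
      hdeg] at hroot
    rw [← hcard]
    have h4 : y m ^ s.card = -∑ j ∈ Finset.range s.card, Q.coeff j * y m ^ j := by
      rw [eq_neg_iff_add_eq_zero, add_comm]
      exact hroot
    show y m ^ s.card = _
    rw [h4, mul_neg, Finset.mul_sum]
    congr 1
    refine Finset.sum_congr rfl fun j hj => ?_
    rw [hc j (Finset.mem_range.mp hj), mul_assoc]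

/-- **a local stable order of prime order `r` is local at level `1 - ζ`.** -/
theorem exists_eq_one_sub_mul (h : IsStableOrder F act H) (hP : IsPrimeAt R A 𝔫)
    (hloc : IsLocalAt (𝔫 : Set K) H) {r : ℕ} (hr : r.Prime) (hcard : Nat.card M = r)
    (hRn : ∀ a : R, algebraMap R K a ∈ 𝔫 → (r : R) ∣ a) {ζ : K} (hζ : IsPrimitiveRoot ζ r)
    {f : M → K} (hf : f ∈ H) (m : M) :
    ∃ w : K, IsIntegral R w ∧ f m - f 0 = (1 - ζ) * w := by
  by_cases hm : m = 0
  · exact ⟨0, isIntegral_zero, by rw [hm, sub_self, mul_zero]⟩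
  obtain ⟨z, hz, hyz⟩ := exists_pow_eq_mul h hP hloc hRn hf hm
  rw [hcard] at hyz
  obtain ⟨u, hu, hru⟩ := hζ.self_sub_one_pow_dvd_order (Nat.sub_lt hr.pos one_pos)
  have hζ1 : ζ - 1 ≠ 0 := sub_ne_zero.mpr (hζ.ne_one hr.one_lt)
  have huint : IsIntegral R u := by
    have h1 : IsIntegral ℤ u :=
      _root_.adjoin_le_integralClosure (hζ.isIntegral hr.pos) hu
    exact h1.tower_top
  have hwpow : ((f m - f 0) / (ζ - 1)) ^ (r - 1) = u * z := by
    rw [div_pow, hyz, hru]
    field_simp
  have hwint : IsIntegral R ((f m - f 0) / (ζ - 1)) := by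
    apply IsIntegral.of_pow (Nat.sub_pos_of_lt hr.one_lt)
    rw [hwpow]
    exact huint.mul hz
  refine ⟨-((f m - f 0) / (ζ - 1)), hwint.neg, ?_⟩
  field_simp
  ring

/-! ### more on integral combinations -/

theorem IntComb.add {f f' : M → K} (hf : IntComb H f) (hf' : IntComb H f') :
    IntComb H (f + f') := by
  obtain ⟨J, _, s, g, hs, hg, hfe⟩ := hf
  obtain ⟨J', _, s', g', hs', hg', hfe'⟩ := hf'
  refine ⟨J ⊕ J', inferInstance, Sum.elim s s', Sum.elim g g', ?_, ?_, fun x => ?_⟩
  · rintro (j | j)
    · exact hs j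
    · exact hs' j
  · rintro (j | j)
    · exact hg j
    · exact hg' j
  · rw [Pi.add_apply, hfe, hfe', Fintype.sum_sum_type]
    rfl

theorem IntComb.smul {f : M → K} (hf : IntComb H f) {c : K} (hc : IsIntegral R c) :
    IntComb H (fun x => c * f x) := by
  obtain ⟨J, _, s, g, hs, hg, hfe⟩ := hf
  refine ⟨J, inferInstance, fun j => c * s j, g, fun j => hc.mul (hs j), hg, fun x => ?_⟩
  show c * f x = ∑ j, c * s j * g j x
  rw [hfe, Finset.mul_sum]
  exact Finset.sum_congr rfl fun j _ => (mul_assoc _ _ _).symm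

theorem IntComb.const {c : K} (hc : IsIntegral R c) : IntComb H (fun _ : M => c) := by
  have := (IntComb.one (H := H)).smul hc
  simpa using this

theorem IntComb.sum {ι : Type*} (s : Finset ι) (f : ι → M → K)
    (hf : ∀ i ∈ s, IntComb H (f i)) : IntComb H (∑ i ∈ s, f i) := by
  classical
  induction s using Finset.induction_on with
  | empty =>
    rw [Finset.sum_empty]
    have := IntComb.const (H := H) (isIntegral_zero (R := R) (B := K))
    exact this
  | insert a s ha ih =>
    rw [Finset.sum_insert ha]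
    exact (hf a (Finset.mem_insert_self a s)).add
      (ih fun i hi => hf i (Finset.mem_insert_of_mem hi))

theorem IntComb.isIntegral_apply (h : IsStableOrder F act H) {f : M → K} (hf : IntComb H f)
    (x : M) : IsIntegral R (f x) := by
  obtain ⟨J, _, s, g, hs, hg, hfe⟩ := hf
  rw [hfe]
  exact IsIntegral.sum _ fun j _ => (hs j).mul (Fermat.Agent.GS.ClosureW.isIntegral_apply h (hg j) x)

/-- coordinates of an integral combination in an `R`-basis of `H`. -/
theorem IntComb.exists_coord {ι : Type*} [Fintype ι]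
    (b : Basis ι R H) {f : M → K} (hf : IntComb H f) :
    ∃ c : ι → K, (∀ i, IsIntegral R (c i)) ∧ ∀ x, f x = ∑ i, c i * (b i : M → K) x := by
  classical
  obtain ⟨J, _, s, g, hs, hg, hfe⟩ := hf
  have hgx : ∀ j x, g j x = ∑ i, algebraMap R K (b.repr ⟨g j, hg j⟩ i) * (b i : M → K) x := by
    intro j x
    have h1 := b.sum_repr ⟨g j, hg j⟩
    have h2 := congrArg (fun u : H => (u : M → K) x) h1
    simp only at h2
    rw [← h2, AddSubmonoidClass.coe_finsetSum, Finset.sum_apply]
    refine Finset.sum_congr rfl fun i _ => ?_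
    rw [Subalgebra.coe_smul, Pi.smul_apply, Algebra.smul_def]
  refine ⟨fun i => ∑ j, s j * algebraMap R K (b.repr ⟨g j, hg j⟩ i),
    fun i => IsIntegral.sum _ fun j _ => (hs j).mul isIntegral_algebraMap, fun x => ?_⟩
  rw [hfe]
  simp only [hgx, Finset.mul_sum, Finset.sum_mul]
  rw [Finset.sum_comm]
  refine Finset.sum_congr rfl fun i _ => Finset.sum_congr rfl fun j _ => ?_
  ring

end Fermat.Agent.GZ.LocR.ConstOrd
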