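/-
GATE-Z / S15, node GZ-LOCR-CONSTORD, part 4b (helper5): **a LOCAL stable order on a group of prime
order `r` carrying a faithful Galois-equivariant character `χ` is the multiplicative order `R[χ]`.**

This is the `(μ)` input of `GZ/LocR/RankOne.exists_unit_class` (helper14):
`hχ_mem : χ ∈ HM` and `hHM : ∀ f ∈ HM, ∃ c : Fin r → R, f = ∑_j c_j χ^j`.

Frame of `GH/N0/Order.IsStableOrder F act H` + `IsPrimeAt R A 𝔫`, `H` LOCAL at `𝔫`, `R ∩ 𝔫 ⊆ r R`,
`#M = r` prime, `χ : Multiplicative M →* K` with `χ m₀` a primitive `r`-th root of unity and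
`χ (act σ m) = σ • χ m`.

Proof: `ConstOrdPow.exists_eq_one_sub_mul` (local at level `1 - ζ`) + transport of the integral span
`R̄ · H` to helper57's frame `GF/Ord` on `ℤ/r ≅ M` (`lineB`: an `R̄`-subalgebra of `Map(ℤ/r, R̄)`,
Δ-stable, finite, local at level `1 - ζ`, hence `= R̄[χ]` by `GF/Ord.mem_iff_of_fg`) + Galois descent
(`ConstOrdNorm.mem_of_intComb_of_equivariant`, Dedekind independence `GF/Ord.coeff_eq_zero`).
-/
import Mathlib
import Fermat.Agent.GZ.LocR.ConstOrdPow
import Fermat.Agent.GF.Ord.Chi2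

set_option autoImplicit false
set_option linter.unusedSectionVars false

namespace Fermat.Agent.GZ.LocR.ConstOrd

open Fermat.Agent.GH.N0 Fermat.Agent.GS.ClosureW Module

/-- `∑` over `ZMod r` of a function of `val` is the `∑` over `Fin r`. -/
theorem sum_zmod_val_eq_sum_fin {K : Type*} [AddCommMonoid K] {r : ℕ} (hr : r ≠ 0) (Φ : ℕ → K) :
    haveI : NeZero r := ⟨hr⟩
    ∑ j : ZMod r, Φ j.val = ∑ i : Fin r, Φ i := by
  obtain ⟨n, rfl⟩ := Nat.exists_eq_succ_of_ne_zero hr
  rfl

variable {R : Type*} [CommRing R] [IsDomain R] [IsPrincipalIdealRing R]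
variable {F : Type*} [Field F] [Algebra R F] [IsFractionRing R F]
variable {K : Type*} [Field K] [Algebra F K] [Algebra R K] [IsScalarTower R F K]
variable {G : Type*} [Group G] [MulSemiringAction G K]
variable {M : Type*} [AddCommGroup M] [Finite M]
variable {act : G → M → M} {H : Subalgebra R (M → K)}
variable {A : Subring K} {𝔫 : AddSubgroup K}
variable {r : ℕ} [hrF : Fact r.Prime]

/-- Δ-stability of the integral combinations. -/
theorem IntComb.delta (h : IsStableOrder F act H) {f : M → K} (hf : IntComb H f) :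
    ∃ (T : Type) (_ : Fintype T) (a b : T → M → K), (∀ t, IntComb H (a t)) ∧
      (∀ t, IntComb H (b t)) ∧ ∀ x y, f (x + y) = ∑ t, a t x * b t y := by
  obtain ⟨J, _, s, g, hs, hg, hfe⟩ := hf
  have hd := fun j => h.delta (g j) (hg j)
  choose n a b hab using hd
  refine ⟨Σ j : J, Fin (n j), inferInstance, fun t x => s t.1 * (a t.1 t.2 : M → K) x,
    fun t => (b t.1 t.2 : M → K), fun t => (IntComb.of_mem (a t.1 t.2).2).smul (hs t.1),
    fun t => IntComb.of_mem (b t.1 t.2).2, fun x y => ?_⟩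
  rw [hfe, Fintype.sum_sigma]
  refine Finset.sum_congr rfl fun j _ => ?_
  rw [hab, Finset.mul_sum]
  exact Finset.sum_congr rfl fun i _ => (mul_assoc _ _ _).symm

/-- the integral span of `H` restricted to the line `ι : ℤ/r → M`, as an algebra of
`R̄`-valued functions on `ℤ/r`. -/
def lineB (H : Subalgebra R (M → K)) (ι : ZMod r →+ M) :
    Subalgebra (integralClosure R K) (ZMod r → integralClosure R K) where
  carrier := {g | ∃ f, IntComb H f ∧ ∀ k, ((g k : integralClosure R K) : K) = f (ι k)}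
  mul_mem' := by
    rintro g g' ⟨f, hf, hg⟩ ⟨f', hf', hg'⟩
    exact ⟨f * f', hf.mul hf', fun k => by
      rw [Pi.mul_apply, Pi.mul_apply, MulMemClass.coe_mul, hg, hg']⟩
  add_mem' := by
    rintro g g' ⟨f, hf, hg⟩ ⟨f', hf', hg'⟩
    exact ⟨f + f', hf.add hf', fun k => by
      rw [Pi.add_apply, Pi.add_apply, AddMemClass.coe_add, hg, hg']⟩
  algebraMap_mem' c := ⟨fun _ => (c : K), IntComb.const c.2, fun _ => rfl⟩

/-- the restriction of an integral combination to the line. -/
def lineF (h : IsStableOrder F act H) (ι : ZMod r →+ M) (f : M → K) (hf : IntComb H f) :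
    ZMod r → integralClosure R K :=
  fun k => ⟨f (ι k), hf.isIntegral_apply h (ι k)⟩

theorem lineF_mem (h : IsStableOrder F act H) (ι : ZMod r →+ M) (f : M → K)
    (hf : IntComb H f) : lineF h ι f hf ∈ lineB H ι := ⟨f, hf, fun _ => rfl⟩

theorem lineB_deltaStable (h : IsStableOrder F act H) (ι : ZMod r →+ M) :
    Fermat.Agent.GF.Ord.DeltaStable (lineB H ι) := by
  rintro g ⟨f, hf, hg⟩
  obtain ⟨T, _, a, b, ha, hb, hab⟩ := hf.delta h
  let e := Fintype.equivFin T
  refine ⟨Fintype.card T, fun i => lineF h ι (a (e.symm i)) (ha _),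
    fun i => lineF h ι (b (e.symm i)) (hb _), fun i => lineF_mem h ι _ _,
    fun i => lineF_mem h ι _ _, fun x y => ?_⟩
  apply Subtype.ext
  rw [hg, map_add, hab, AddSubmonoidClass.coe_finsetSum, ← Equiv.sum_comp e.symm]
  rfl

theorem lineB_fg (h : IsStableOrder F act H) (ι : ZMod r →+ M) :
    (Subalgebra.toSubmodule (lineB H ι)).FG := by
  classical
  have hfg := h.fg
  have hfree := h.free
  let b := Module.Free.chooseBasis R H
  have hspan : Subalgebra.toSubmodule (lineB H ι) = Submodule.span (integralClosure R K)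
      (Set.range fun i => lineF h ι (b i : M → K) (IntComb.of_mem (b i).2)) := by
    apply le_antisymm
    · rintro g ⟨f, hf, hg⟩
      obtain ⟨c, hc, hfc⟩ := hf.exists_coord b
      have : g = ∑ i, (⟨c i, hc i⟩ : integralClosure R K) •
          lineF h ι (b i : M → K) (IntComb.of_mem (b i).2) := by
        funext k
        apply Subtype.ext
        rw [hg, hfc, Finset.sum_apply, AddSubmonoidClass.coe_finsetSum]
        rfl
      rw [this]
      exact Submodule.sum_mem _ fun i _ =>
        Submodule.smul_mem _ _ (Submodule.subset_span ⟨i, rfl⟩)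
    · rw [Submodule.span_le]
      rintro _ ⟨i, rfl⟩
      exact lineF_mem h ι _ _
  rw [hspan]
  exact Submodule.fg_span (Set.finite_range _)

/-- **(μ): the local order with a faithful equivariant character is `R[χ]`.** -/
theorem mu_shape [CharZero K] (h : IsStableOrder F act H) (hP : IsPrimeAt R A 𝔫)
    (hloc : IsLocalAt (𝔫 : Set K) H) (hcard : Nat.card M = r)
    (hRn : ∀ a : R, algebraMap R K a ∈ 𝔫 → (r : R) ∣ a)
    (χ : Multiplicative M →* K) (m₀ : M)
    (hζ : IsPrimitiveRoot (χ (Multiplicative.ofAdd m₀)) r)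
    (hχ : ∀ (σ : G) (m : M), χ (Multiplicative.ofAdd (act σ m)) = σ • χ (Multiplicative.ofAdd m)) :
    (fun m : M => χ (Multiplicative.ofAdd m)) ∈ H ∧
      ∀ f ∈ H, ∃ c : Fin r → R, ∀ m : M,
        f m = ∑ j : Fin r, algebraMap R K (c j) * χ (Multiplicative.ofAdd m) ^ (j : ℕ) := by
  classical
  have hr : r.Prime := hrF.out
  set ζ : K := χ (Multiplicative.ofAdd m₀) with hζdef
  have hr0 : (r : K) ≠ 0 := Nat.cast_ne_zero.mpr hr.ne_zero
  have hrm : ∀ m : M, r • m = 0 := fun m => by rw [← hcard]; exact card_nsmul_eq_zero'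
  -- the line
  let ι : ZMod r →+ M := ZMod.lift r ⟨zmultiplesHom M m₀, by
    rw [zmultiplesHom_apply, natCast_zsmul, hrm]⟩
  have hιk : ∀ k : ZMod r, ι k = k.val • m₀ := by
    intro k
    have hk : k = ((k.val : ℤ) : ZMod r) := by rw [Int.cast_natCast, ZMod.natCast_zmod_val]
    conv_lhs => rw [hk]
    rw [ZMod.lift_coe]
    show (zmultiplesHom M m₀) (k.val : ℤ) = _
    rw [zmultiplesHom_apply, natCast_zsmul]
  have hχι : ∀ k : ZMod r, χ (Multiplicative.ofAdd (ι k)) = ζ ^ k.val := by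
    intro k
    rw [hιk, ofAdd_nsmul, map_pow]
  have hι1 : ι 1 = m₀ := by rw [hιk, ZMod.val_one, one_smul]
  have hιinj : Function.Injective ι := by
    rw [injective_iff_map_eq_zero]
    intro k hk
    have h1 : ζ ^ k.val = 1 := by rw [← hχι, hk, ofAdd_zero, map_one]
    have h2 : r ∣ k.val := (hζ.pow_eq_one_iff_dvd _).mp h1
    have h3 : k.val = 0 := Nat.eq_zero_of_dvd_of_lt h2 (ZMod.val_lt k)
    exact (ZMod.val_eq_zero k).mp h3
  have hιsurj : Function.Surjective ι := by
    have : Function.Bijective ι := hιinj.bijective_of_nat_card_le (by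
      rw [Nat.card_zmod, hcard])
    exact this.2
  -- the ring `O = R̄` and the characters
  have hζint : IsIntegral R ζ := (hζ.isIntegral hr.pos).tower_top
  let ζ' : integralClosure R K := ⟨ζ, hζint⟩
  have hζ' : IsPrimitiveRoot ζ' r :=
    IsPrimitiveRoot.of_map_of_injective (f := (integralClosure R K).val) hζ
      Subtype.coe_injective
  let ψ : AddChar (ZMod r) (integralClosure R K) := AddChar.zmodChar r hζ'.pow_eq_one
  have hψ : ψ.IsPrimitive := AddChar.zmodChar_primitive_of_primitive_root r hζ'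
  let ψQ : AddChar (ZMod r) K := AddChar.zmodChar r hζ.pow_eq_one
  have hψQ : ψQ.IsPrimitive := AddChar.zmodChar_primitive_of_primitive_root r hζ
  have hψc : ∀ k, ((ψ k : integralClosure R K) : K) = ψQ k := by
    intro k
    rw [AddChar.zmodChar_apply, AddChar.zmodChar_apply, SubmonoidClass.coe_pow]
  have hψQχ : ∀ k, ψQ k = χ (Multiplicative.ofAdd (ι k)) := by
    intro k
    rw [AddChar.zmodChar_apply, hχι]
  have hψ1 : ψ 1 = ζ' := by rw [AddChar.zmodChar_apply, ZMod.val_one, pow_one]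
  have hψQmul : ∀ j k : ZMod r, ψQ (j * k) = ψQ k ^ j.val := by
    intro j k
    rw [← AddChar.map_nsmul_eq_pow, nsmul_eq_mul, ZMod.natCast_zmod_val]
  -- the hypotheses of `GF/Ord`
  have hΔ := lineB_deltaStable (r := r) h ι
  have hp0 : ((r : ℕ) : integralClosure R K) ≠ 0 := by
    intro h0
    apply hr0
    have := congrArg (fun z : integralClosure R K => (z : K)) h0
    simpa using this
  have hlocB : ∀ g ∈ lineB H ι, (1 - ψ 1) ∣ g 1 - g 0 := by
    rintro g ⟨f, hf, hg⟩
    obtain ⟨J, _, s, gg, hs, hgg, hfe⟩ := hf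
    have hw : ∀ j, ∃ w : K, IsIntegral R w ∧ gg j m₀ - gg j 0 = (1 - ζ) * w := fun j =>
      exists_eq_one_sub_mul h hP hloc hr hcard hRn hζ (hgg j) m₀
    choose w hwint hw using hw
    refine ⟨⟨∑ j, s j * w j, IsIntegral.sum _ fun j _ => (hs j).mul (hwint j)⟩, ?_⟩
    apply Subtype.ext
    rw [hψ1, AddSubgroupClass.coe_sub, hg, hg, hι1, map_zero, hfe, hfe,
      ← Finset.sum_sub_distrib, MulMemClass.coe_mul, AddSubgroupClass.coe_sub,
      OneMemClass.coe_one]
    show _ = (1 - ζ) * ∑ j, s j * w j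
    rw [Finset.mul_sum]
    refine Finset.sum_congr rfl fun j _ => ?_
    rw [← mul_sub, hw j]
    ring
  have hfgB := lineB_fg (r := r) h ι
  have hm₀ : m₀ ≠ 0 := by
    intro h0
    apply hζ.ne_one hr.one_lt
    rw [hζdef, h0, ofAdd_zero, map_one]
  obtain ⟨f0, hf0, hf0ne⟩ := h.sep m₀ 0 hm₀
  have hf0B : lineF h ι f0 (IntComb.of_mem hf0) ∈ lineB H ι := lineF_mem h ι _ _
  have hne : lineF h ι f0 (IntComb.of_mem hf0) 1 ≠ lineF h ι f0 (IntComb.of_mem hf0) 0 := by
    intro heq
    apply hf0ne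
    have := congrArg (fun z : integralClosure R K => (z : K)) heq
    simp only [lineF] at this
    rwa [hι1, map_zero] at this
  -- (i) `χ ∈ H`
  have hχB : (fun k : ZMod r => ψ k) ∈ lineB H ι :=
    Fermat.Agent.GF.Ord.chi_mem_of_fg hψ hΔ hp0 hlocB
      (fun j => Fermat.Agent.GF.Ord.coefIdeal_fg_of_fg hψ hΔ hp0 hlocB hfgB j) hf0B hne
  have hχH : (fun m : M => χ (Multiplicative.ofAdd m)) ∈ H := by
    obtain ⟨f, hf, hfψ⟩ := hχB
    have hfeq : f = fun m : M => χ (Multiplicative.ofAdd m) := by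
      funext m
      obtain ⟨k, rfl⟩ := hιsurj m
      rw [← hfψ, hψc, hψQχ]
    rw [← hfeq]
    apply mem_of_intComb_of_equivariant h hf
    intro σ m
    rw [hfeq]
    exact hχ σ m
  refine ⟨hχH, ?_⟩
  -- (ii) coefficients
  intro f hf
  have hfB := lineF_mem h ι f (IntComb.of_mem hf)
  obtain ⟨c, hc⟩ := Fermat.Agent.GF.Ord.exists_coeff hψ hΔ hp0 hlocB _ hfB
  have hfK : ∀ k : ZMod r, f (ι k) = ∑ j, (c j : K) * ψQ (j * k) := by
    intro k
    have := congrArg (fun z : integralClosure R K => (z : K)) (hc k)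
    simp only [lineF, AddSubmonoidClass.coe_finsetSum, MulMemClass.coe_mul, hψc] at this
    exact this
  -- the coefficients are Galois-fixed
  have hcfix : ∀ (σ : G) (j : ZMod r), σ • (c j : K) = (c j : K) := by
    intro σ
    have hrel : ∀ y : ZMod r, ∑ j, ((c j : K) - σ • (c j : K)) * ψQ (j * y) = 0 := by
      intro y
      obtain ⟨m, hm⟩ := h.act_surjective σ (ι y)
      obtain ⟨k, rfl⟩ := hιsurj m
      have h1 := h.equivariant f hf σ (ι k)
      rw [hm, hfK, hfK, Finset.smul_sum] at h1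
      have h2 : ∀ j : ZMod r, σ • ((c j : K) * ψQ (j * k)) = σ • (c j : K) * ψQ (j * y) := by
        intro j
        rw [smul_mul', hψQmul, hψQmul, smul_pow', hψQχ, hψQχ, ← hχ, hm]
      simp only [h2] at h1
      rw [← sub_eq_zero, ← Finset.sum_sub_distrib] at h1
      rw [← h1]
      refine Finset.sum_congr rfl fun j _ => ?_
      ring
    have := Fermat.Agent.GF.Ord.coeff_eq_zero hψQ hr0 _ hrel
    intro j
    exact (sub_eq_zero.mp (this j)).symm
  have ha : ∀ j : ZMod r, ∃ a : R, algebraMap R K a = (c j : K) := fun j =>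
    exists_algebraMap_eq_of_fixed h (fun σ => hcfix σ j) (c j).2
  choose a ha using ha
  refine ⟨fun i => a ((i : ℕ) : ZMod r), fun m => ?_⟩
  obtain ⟨k, rfl⟩ := hιsurj m
  rw [hfK]
  have h3 := sum_zmod_val_eq_sum_fin hr.ne_zero
    (fun i : ℕ => algebraMap R K (a ((i : ℕ) : ZMod r)) * χ (Multiplicative.ofAdd (ι k)) ^ i)
  rw [← h3]
  refine Finset.sum_congr rfl fun j _ => ?_
  rw [ZMod.natCast_zmod_val, ha, hψQmul, hψQχ]

end Fermat.Agent.GZ.LocR.ConstOrd
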