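/-
GATE-Z (S15) / (LOC-r), node GZ-LOCR-RANKONE (helper14): **rank-one torsor orders** — item (c) of
the count (helper96 5617 §1–2), on helper92's pinned vocabulary `GZ/LocR/TorsVocab`.

`A ⊆ K` a valuation subring containing the image of `R`; a torsor order `HX` on the `M`-torsor `X`
relative to the function order `HM` on `M` (`IsStableTorsorOrder actX HM HX`).

* `apply_mem_of_fg` : the values of the functions of `HX` lie in `A` (integrality, from `fg`).
* ÉTALE TYPE (`actX_eq_of_indicator_mem`): if all indicator functions `δ_j` lie in `HM`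
  (`HM ⊇ Map(M, R)`), every `σ` acting trivially on `A / 𝔪_A` (inertia) fixes `X` POINTWISE:
  the class of `X` is unramified.  Proof: `δ_j(x -ᵥ x') = Σ a_i(x) b_i(x')` evaluated at
  `(σ x, x)` and `(x, x)`, `j := σ x -ᵥ x`, gives `1 ≡ [j = 0] mod 𝔪_A`.
* MULTIPLICATIVE TYPE (`exists_unit_class`): if `HM ⊆ Σ_j R · χ^j` for a character `χ : M → K^×`
  whose powers `χ^j`, `j < N`, are pairwise distinct, `χ ∈ HM`, and `u : X → K` is a Kummer
  coordinate (`u (m +ᵥ x) = χ m * u x`, `u (σ x) = σ (u x)`), there is `c ≠ 0` FIXED BY `G` with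
  `(c * u x₀) ^ N ∈ A^×`: the Kummer class `u(x₀)^N` is a unit class over the fixed field.
  Proof: the coaction makes `HX` graded by the powers of `χ` INTEGRALLY (no division by `N`);
  the `(1, -1)`-component of the difference identity for `χ` gives `1 = Σ g_i(x₀) g'_i(x₀)` with
  `g_i` of degree `1`, all products in the local ring `A`, so one product is a unit; then
  `g_i(x₀)^N ∈ A^×` and `c := g_i(x₀) / u(x₀)` is `G`-fixed.  Valid for every `N ≥ 1`, in
  particular at `r = 2`.
-/
import Mathlib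
import Fermat.Agent.GZ.LocR.TorsVocab

set_option autoImplicit false
set_option linter.unusedSectionVars false
set_option linter.style.haveILetI false

namespace Fermat.Agent.GZ.LocR.RankOne

open Fermat.Agent.GZ.LocR

/-! ### integrality -/

section Integral

variable {R : Type*} [CommRing R] {K : Type*} [Field K] [Algebra R K]

/-- valuation subrings are integrally closed (along a ring hom). -/
theorem mem_of_isIntegral (A : ValuationSubring K) (hRA : ∀ r : R, algebraMap R K r ∈ A) {x : K}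
    (hx : IsIntegral R x) : x ∈ A := by
  let φ : R →+* A := (algebraMap R K).codRestrict A.toSubring hRA
  obtain ⟨g, hgm, hg⟩ := hx
  have hint : IsIntegral A x := by
    refine ⟨g.map φ, hgm.map φ, ?_⟩
    rw [Polynomial.eval₂_map]
    have : (algebraMap A K).comp φ = algebraMap R K := by
      ext y; rfl
    rw [this]
    exact hg
  obtain ⟨y, hy⟩ := (IsIntegrallyClosed.isIntegral_iff (R := A) (K := K)).mp hint
  rw [← hy]
  exact y.2

/-- the values of a module-finite algebra of functions lie in every valuation subring containing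
the scalars. -/
theorem apply_mem_of_fg {X : Type*} (A : ValuationSubring K)
    (hRA : ∀ r : R, algebraMap R K r ∈ A) (HX : Subalgebra R (X → K)) (hfg : Module.Finite R HX)
    {f : X → K} (hf : f ∈ HX) (x : X) : f x ∈ A := by
  haveI := hfg
  have h1 : IsIntegral R (⟨f, hf⟩ : HX) := Algebra.IsIntegral.isIntegral _
  have h2 : IsIntegral R f := h1.map HX.val
  have h3 : IsIntegral R (f x) := h2.map (Pi.evalAlgHom R (fun _ : X => K) x)
  exact mem_of_isIntegral A hRA h3

/-- in a valuation subring, a finite sum of elements equal to `1` has an invertible term. -/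
theorem exists_inv_mem_of_sum_eq_one (A : ValuationSubring K) {n : ℕ} (P : Fin n → K)
    (hP : ∀ i, P i ∈ A) (hsum : ∑ i, P i = 1) : ∃ i, P i ≠ 0 ∧ (P i)⁻¹ ∈ A := by
  by_contra hcon
  rw [not_exists] at hcon
  have hmem : ∀ i, (⟨P i, hP i⟩ : A) ∈ IsLocalRing.maximalIdeal A := by
    intro i
    rw [IsLocalRing.mem_maximalIdeal, mem_nonunits_iff]
    intro hu
    obtain ⟨v, hv⟩ := hu
    apply hcon i
    have h1 : ((v⁻¹ : Aˣ) : A) * (⟨P i, hP i⟩ : A) = 1 := by rw [← hv]; exact v.inv_mul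
    have h2 : (((v⁻¹ : Aˣ) : A) : K) * P i = 1 := by
      have := congrArg (fun z : A => (z : K)) h1
      simpa using this
    have h3 : (P i)⁻¹ = (((v⁻¹ : Aˣ) : A) : K) := (eq_inv_of_mul_eq_one_left h2).symm
    refine ⟨fun h0 => ?_, ?_⟩
    · rw [h0, mul_zero] at h2
      exact zero_ne_one h2
    · rw [h3]
      exact ((v⁻¹ : Aˣ) : A).2
  have h1 : (∑ i, (⟨P i, hP i⟩ : A)) ∈ IsLocalRing.maximalIdeal A :=
    Ideal.sum_mem _ fun i _ => hmem i
  have h2 : (∑ i, (⟨P i, hP i⟩ : A)) = 1 := by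
    apply Subtype.ext
    push_cast
    exact hsum
  rw [h2] at h1
  exact (IsLocalRing.maximalIdeal.isMaximal A).ne_top ((Ideal.eq_top_iff_one _).mpr h1)

end Integral

/-! ### étale type: indicator functions in `HM` ⟹ inertia acts trivially on `X` -/

section Etale

variable {R : Type*} [CommRing R] {K : Type*} [Field K] [Algebra R K]
variable {G : Type*} [Group G] [MulSemiringAction G K]
variable {M : Type*} [AddCommGroup M] {X : Type*} [AddTorsor M X]

open Classical in
/-- **(c), étale type.** If `HM` contains the indicator functions of the points of `M`, a torsor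
order `HX` relative to `HM` with values in the valuation subring `A` forces every `σ` which is
trivial on `A / 𝔪_A` to fix `X` pointwise. -/
theorem actX_eq_of_indicator_mem {actX : G → X → X} {HM : Subalgebra R (M → K)}
    {HX : Subalgebra R (X → K)} (h : IsStableTorsorOrder actX HM HX)
    (A : ValuationSubring K) (hA : ∀ f ∈ HX, ∀ x, f x ∈ A)
    (hδ : ∀ j : M, (fun m : M => if m = j then (1 : K) else 0) ∈ HM)
    (σ : G) (hσ : ∀ a ∈ A, σ • a - a ∈ A.nonunits) (x : X) : actX σ x = x := by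
  by_contra hne
  have hj0 : actX σ x -ᵥ x ≠ (0 : M) := fun h0 => hne (vsub_eq_zero_iff_eq.mp h0)
  obtain ⟨n, a, b, hab⟩ := h.diff _ (hδ (actX σ x -ᵥ x))
  have h1 := hab (actX σ x) x
  have h2 := hab x x
  rw [if_pos rfl] at h1
  rw [vsub_self, if_neg (Ne.symm hj0)] at h2
  -- the difference of the two identities
  have h3 : (1 : K) = ∑ i, (σ • (a i : X → K) x - (a i : X → K) x) * (b i : X → K) x := by
    have e : ∀ i, (σ • (a i : X → K) x - (a i : X → K) x) * (b i : X → K) x =
        (a i : X → K) (actX σ x) * (b i : X → K) x - (a i : X → K) x * (b i : X → K) x := by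
      intro i
      rw [h.equivariant _ (a i).2 σ x]
      ring
    rw [Finset.sum_congr rfl fun i _ => e i, Finset.sum_sub_distrib, ← h1, ← h2, sub_zero]
  -- every term lies in the maximal ideal of `A`
  have hterm : ∀ i, (σ • (a i : X → K) x - (a i : X → K) x) * (b i : X → K) x ∈ A.nonunits := by
    intro i
    have hb : A.valuation ((b i : X → K) x) ≤ 1 :=
      (A.valuation_le_one_iff _).mpr (hA _ (b i).2 x)
    have ha : A.valuation (σ • (a i : X → K) x - (a i : X → K) x) < 1 :=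
      A.mem_nonunits_iff.mp (hσ _ (hA _ (a i).2 x))
    rw [A.mem_nonunits_iff, map_mul]
    exact mul_lt_one_of_lt_of_le ha hb
  have hsum : (1 : K) ∈ A.nonunits := by
    rw [h3]
    exact sum_mem fun i _ => hterm i
  rw [A.mem_nonunits_iff, map_one] at hsum
  exact lt_irrefl _ hsum

end Etale

/-! ### multiplicative type: `HM ⊆ Σ R χ^j` ⟹ unit class -/

section Mu

open Multiplicative

variable {R : Type*} [CommRing R] {K : Type*} [Field K] [Algebra R K]
variable {G : Type*} [Group G] [MulSemiringAction G K]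
variable {M : Type*} [AddCommGroup M] {X : Type*} [AddTorsor M X]
variable (χ : Multiplicative M →* K) (N : ℕ)

omit [AddTorsor M X] in
theorem chi_ne_zero (m : M) : χ (ofAdd m) ≠ 0 :=
  ((Group.isUnit (ofAdd m)).map χ).ne_zero

/-- **linear independence of the characters `χ^j`, `j < N`** (Dedekind), in coefficient form. -/
theorem coeff_ext
    (hdist : ∀ i j : Fin N, (∀ m : M, χ (ofAdd m) ^ (i : ℕ) = χ (ofAdd m) ^ (j : ℕ)) → i = j)
    (l l' : Fin N → K)
    (h : ∀ m : M, ∑ j : Fin N, χ (ofAdd m) ^ (j : ℕ) * l j =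
      ∑ j : Fin N, χ (ofAdd m) ^ (j : ℕ) * l' j) : l = l' := by
  have hinj : Function.Injective
      (fun j : Fin N => ((powMonoidHom (j : ℕ)).comp χ : Multiplicative M →* K)) := by
    intro i j hij
    apply hdist i j
    intro m
    have := DFunLike.congr_fun hij (ofAdd m)
    simpa using this
  have hli := (linearIndependent_monoidHom (Multiplicative M) K).comp _ hinj
  have h0 := Fintype.linearIndependent_iff.mp hli (fun j => l j - l' j) (by
    funext m
    have hm := h (toAdd m)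
    simp only [ofAdd_toAdd] at hm
    simp only [Function.comp_apply, Finset.sum_apply, Pi.smul_apply, MonoidHom.coe_comp,
      powMonoidHom_apply, smul_eq_mul, Pi.zero_apply]
    rw [← sub_eq_zero, ← Finset.sum_sub_distrib] at hm
    rw [← hm]
    refine Finset.sum_congr rfl fun j _ => ?_
    ring)
  funext j
  exact sub_eq_zero.mp (h0 j)

variable {χ N}

/-- the coaction makes `HX` graded by the powers of `χ`, INTEGRALLY. -/
theorem exists_graded {actX : G → X → X} {HM : Subalgebra R (M → K)}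
    {HX : Subalgebra R (X → K)} (h : IsStableTorsorOrder actX HM HX)
    (hHM : ∀ f ∈ HM, ∃ c : Fin N → R, ∀ m : M,
      f m = ∑ j : Fin N, algebraMap R K (c j) * χ (ofAdd m) ^ (j : ℕ))
    {f : X → K} (hf : f ∈ HX) :
    ∃ F : Fin N → HX, ∀ (m : M) (x : X),
      f (m +ᵥ x) = ∑ j : Fin N, χ (ofAdd m) ^ (j : ℕ) * (F j : X → K) x := by
  obtain ⟨n, a, b, hab⟩ := h.coact f hf
  choose c hc using fun i => hHM (a i) (a i).2
  refine ⟨fun j => ∑ i, c i j • b i, fun m x => ?_⟩
  rw [hab m x]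
  have e : ∀ j : Fin N, ((∑ i, c i j • b i : HX) : X → K) x =
      ∑ i, algebraMap R K (c i j) * (b i : X → K) x := by
    intro j
    rw [AddSubmonoidClass.coe_finsetSum, Finset.sum_apply]
    refine Finset.sum_congr rfl fun i _ => ?_
    rw [Subalgebra.coe_smul, Pi.smul_apply, Algebra.smul_def]
  simp only [e, hc, Finset.sum_mul, Finset.mul_sum]
  rw [Finset.sum_comm]
  refine Finset.sum_congr rfl fun j _ => Finset.sum_congr rfl fun i _ => ?_
  ring

/-- the graded components are homogeneous. -/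
theorem graded_homogeneous {HX : Subalgebra R (X → K)}
    (hdist : ∀ i j : Fin N, (∀ m : M, χ (ofAdd m) ^ (i : ℕ) = χ (ofAdd m) ^ (j : ℕ)) → i = j)
    {f : X → K} (F : Fin N → HX)
    (hF : ∀ (m : M) (x : X),
      f (m +ᵥ x) = ∑ j : Fin N, χ (ofAdd m) ^ (j : ℕ) * (F j : X → K) x)
    (j : Fin N) (m' : M) (x : X) :
    (F j : X → K) (m' +ᵥ x) = χ (ofAdd m') ^ (j : ℕ) * (F j : X → K) x := by
  have key : (fun j : Fin N => (F j : X → K) (m' +ᵥ x)) =
      fun j : Fin N => χ (ofAdd m') ^ (j : ℕ) * (F j : X → K) x := by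
    apply coeff_ext χ N hdist
    intro m
    rw [← hF m (m' +ᵥ x), vadd_vadd, hF (m + m') x]
    refine Finset.sum_congr rfl fun j _ => ?_
    rw [ofAdd_add, map_mul, mul_pow, mul_assoc]
  exact congrFun key j

/-- a function of degree one is a `G`-fixed multiple of the Kummer coordinate `u`. -/
theorem div_fixed {actX : G → X → X} {HM : Subalgebra R (M → K)}
    {HX : Subalgebra R (X → K)} (h : IsStableTorsorOrder actX HM HX)
    (u : X → K) (hu : ∀ (m : M) (x : X), u (m +ᵥ x) = χ (ofAdd m) * u x)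
    (hu_gal : ∀ (σ : G) (x : X), u (actX σ x) = σ • u x)
    {g : X → K} (hg : g ∈ HX) (hg1 : ∀ (m : M) (x : X), g (m +ᵥ x) = χ (ofAdd m) * g x)
    (x₀ : X) (σ : G) : σ • (g x₀ / u x₀) = g x₀ / u x₀ := by
  have hconst : ∀ x, g x / u x = g x₀ / u x₀ := by
    intro x
    have hx : x = (x -ᵥ x₀) +ᵥ x₀ := (vsub_vadd x x₀).symm
    rw [hx, hg1, hu, mul_div_mul_left _ _ (chi_ne_zero χ _)]
  have e : σ • (g x₀ / u x₀) = (σ • g x₀) / (σ • u x₀) :=
    map_div₀ (MulSemiringAction.toRingHom G K σ) (g x₀) (u x₀)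
  rw [e, ← h.equivariant g hg σ x₀, ← hu_gal σ x₀, hconst]

/-- **(c), multiplicative type.** `HM ⊆ Σ_j R χ^j` (the standard order of `μ_N`-type), `χ ∈ HM`,
`u` a Kummer coordinate on the torsor `X`, `HX` a torsor order with values in the valuation
subring `A`: the Kummer class `u(x₀)^N` is a UNIT class over the fixed field of `G`:
`∃ c ≠ 0` fixed by `G` with `(c * u x₀)^N ∈ A^×`. -/
theorem exists_unit_class {actX : G → X → X} {HM : Subalgebra R (M → K)}
    {HX : Subalgebra R (X → K)} (h : IsStableTorsorOrder actX HM HX)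
    (A : ValuationSubring K) (hA : ∀ f ∈ HX, ∀ x, f x ∈ A)
    (hN : 2 ≤ N) (hχN : ∀ m : M, χ (ofAdd m) ^ N = 1)
    (hdist : ∀ i j : Fin N, (∀ m : M, χ (ofAdd m) ^ (i : ℕ) = χ (ofAdd m) ^ (j : ℕ)) → i = j)
    (hHM : ∀ f ∈ HM, ∃ c : Fin N → R, ∀ m : M,
      f m = ∑ j : Fin N, algebraMap R K (c j) * χ (ofAdd m) ^ (j : ℕ))
    (hχ_mem : (fun m : M => χ (ofAdd m)) ∈ HM)
    (u : X → K) (hu : ∀ (m : M) (x : X), u (m +ᵥ x) = χ (ofAdd m) * u x)
    (hu_gal : ∀ (σ : G) (x : X), u (actX σ x) = σ • u x)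
    (x₀ : X) (hu0 : u x₀ ≠ 0) :
    ∃ c : K, c ≠ 0 ∧ (∀ σ : G, σ • c = c) ∧
      (c * u x₀) ^ N ∈ A ∧ ((c * u x₀) ^ N)⁻¹ ∈ A := by
  classical
  obtain ⟨n, a, b, hab⟩ := h.diff _ hχ_mem
  choose Fa hFa using fun i => exists_graded (χ := χ) (N := N) h hHM (a i).2
  choose Fb hFb using fun i => exists_graded (χ := χ) (N := N) h hHM (b i).2
  let j1 : Fin N := ⟨1, by omega⟩
  let jm : Fin N := ⟨N - 1, by omega⟩
  have hinv : ∀ m : M, χ (ofAdd m) ^ (N - 1) * χ (ofAdd m) = 1 := by
    intro m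
    rw [← pow_succ, Nat.sub_add_cancel (by omega), hχN]
  -- the degree-one component in the first variable
  have id1 : ∀ x x' : X, χ (ofAdd (x -ᵥ x')) =
      ∑ i, (Fa i j1 : X → K) x * (b i : X → K) x' := by
    intro x x'
    have key : (fun j : Fin N => if j = j1 then χ (ofAdd (x -ᵥ x')) else 0) =
        fun j : Fin N => ∑ i, (Fa i j : X → K) x * (b i : X → K) x' := by
      apply coeff_ext χ N hdist
      intro m
      have hL : ∑ j : Fin N, χ (ofAdd m) ^ (j : ℕ) *
          (if j = j1 then χ (ofAdd (x -ᵥ x')) else 0) = χ (ofAdd m) * χ (ofAdd (x -ᵥ x')) := by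
        rw [Finset.sum_eq_single j1]
        · rw [if_pos rfl]
          show χ (ofAdd m) ^ 1 * _ = _
          rw [pow_one]
        · intro j _ hj
          rw [if_neg hj, mul_zero]
        · intro hj
          exact absurd (Finset.mem_univ _) hj
      have hR : ∑ j : Fin N, χ (ofAdd m) ^ (j : ℕ) *
          ∑ i, (Fa i j : X → K) x * (b i : X → K) x' =
          ∑ i, (a i : X → K) (m +ᵥ x) * (b i : X → K) x' := by
        simp only [hFa, Finset.mul_sum, Finset.sum_mul]
        rw [Finset.sum_comm]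
        refine Finset.sum_congr rfl fun i _ => Finset.sum_congr rfl fun j _ => ?_
        ring
      rw [hL, hR, ← hab (m +ᵥ x) x', vadd_vsub_assoc, ofAdd_add, map_mul]
    have := congrFun key j1
    rw [if_pos rfl] at this
    exact this
  -- the degree-`(-1)` component in the second variable
  have id2 : ∀ x x' : X, χ (ofAdd (x -ᵥ x')) =
      ∑ i, (Fa i j1 : X → K) x * (Fb i jm : X → K) x' := by
    intro x x'
    have key : (fun j : Fin N => if j = jm then χ (ofAdd (x -ᵥ x')) else 0) =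
        fun j : Fin N => ∑ i, (Fa i j1 : X → K) x * (Fb i j : X → K) x' := by
      apply coeff_ext χ N hdist
      intro m
      have hL : ∑ j : Fin N, χ (ofAdd m) ^ (j : ℕ) *
          (if j = jm then χ (ofAdd (x -ᵥ x')) else 0) =
          χ (ofAdd m) ^ (N - 1) * χ (ofAdd (x -ᵥ x')) := by
        rw [Finset.sum_eq_single jm]
        · rw [if_pos rfl]
        · intro j _ hj
          rw [if_neg hj, mul_zero]
        · intro hj
          exact absurd (Finset.mem_univ _) hj
      have hR : ∑ j : Fin N, χ (ofAdd m) ^ (j : ℕ) *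
          ∑ i, (Fa i j1 : X → K) x * (Fb i j : X → K) x' =
          ∑ i, (Fa i j1 : X → K) x * (b i : X → K) (m +ᵥ x') := by
        simp only [hFb, Finset.mul_sum]
        rw [Finset.sum_comm]
        refine Finset.sum_congr rfl fun i _ => Finset.sum_congr rfl fun j _ => ?_
        ring
      rw [hL, hR, ← id1 x (m +ᵥ x'), vsub_vadd_eq_vsub_sub]
      -- `χ (d - m) = χ m ^ (N - 1) * χ d`
      have e : χ (ofAdd (x -ᵥ x' - m)) * χ (ofAdd m) = χ (ofAdd (x -ᵥ x')) := by
        rw [← map_mul, ← ofAdd_add, sub_add_cancel]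
      rw [← e, mul_comm (χ (ofAdd (x -ᵥ x' - m))), ← mul_assoc, hinv, one_mul]
    have := congrFun key jm
    rw [if_pos rfl] at this
    exact this
  -- evaluate at `(x₀, x₀)`
  have hsum : ∑ i, (Fa i j1 : X → K) x₀ * (Fb i jm : X → K) x₀ = 1 := by
    rw [← id2 x₀ x₀, vsub_self, ofAdd_zero, map_one]
  have hPA : ∀ i, (Fa i j1 : X → K) x₀ * (Fb i jm : X → K) x₀ ∈ A := fun i =>
    hA _ (HX.mul_mem (Fa i j1).2 (Fb i jm).2) x₀
  obtain ⟨i, hi0, hi⟩ := exists_inv_mem_of_sum_eq_one A _ hPA hsum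
  have hg1 : (Fa i j1 : X → K) x₀ ≠ 0 := left_ne_zero_of_mul hi0
  have hc : (Fa i j1 : X → K) x₀ / u x₀ * u x₀ = (Fa i j1 : X → K) x₀ :=
    div_mul_cancel₀ _ hu0
  have hpowA : ∀ g : HX, ((g : X → K) x₀) ^ N ∈ A := fun g =>
    hA _ (HX.pow_mem g.2 N) x₀
  refine ⟨(Fa i j1 : X → K) x₀ / u x₀, div_ne_zero hg1 hu0, fun σ => ?_, ?_, ?_⟩
  · refine div_fixed (χ := χ) h u hu hu_gal (Fa i j1).2 (fun m x => ?_) x₀ σ
    have := graded_homogeneous hdist (Fa i) (hFa i) j1 m x
    rw [this]
    show χ (ofAdd m) ^ 1 * _ = _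
    rw [pow_one]
  · rw [hc]
    exact hpowA (Fa i j1)
  · rw [hc]
    have e : (((Fa i j1 : X → K) x₀) ^ N)⁻¹ =
        ((Fb i jm : X → K) x₀) ^ N * (((Fa i j1 : X → K) x₀ * (Fb i jm : X → K) x₀)⁻¹) ^ N := by
      rw [mul_inv, mul_pow, inv_pow, inv_pow]
      have h2 : (Fb i jm : X → K) x₀ ≠ 0 := right_ne_zero_of_mul hi0
      field_simp
    rw [e]
    exact A.mul_mem _ _ (hpowA (Fb i jm)) (pow_mem hi N)

/-! ### convenience forms -/

omit [AddTorsor M X] in
/-- the powers `χ^j`, `j < N`, are pairwise distinct as soon as one value of `χ` is a primitive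
`N`-th root of unity. -/
theorem hdist_of_isPrimitiveRoot (m₀ : M) (hζ : IsPrimitiveRoot (χ (ofAdd m₀)) N) :
    ∀ i j : Fin N, (∀ m : M, χ (ofAdd m) ^ (i : ℕ) = χ (ofAdd m) ^ (j : ℕ)) → i = j :=
  fun i j hij => Fin.ext (hζ.pow_inj i.2 j.2 (hij m₀))

omit [AddTorsor M X] in
/-- `χ ^ N = 1` if `N` kills `M`. -/
theorem chi_pow_eq_one (hM : ∀ m : M, N • m = 0) (m : M) : χ (ofAdd m) ^ N = 1 := by
  rw [← map_pow, ← ofAdd_nsmul, hM, ofAdd_zero, map_one]

open Classical in
/-- **(c), étale type**, with the integrality of the values derived from `fg`. -/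
theorem actX_eq_of_indicator_mem' {actX : G → X → X} {HM : Subalgebra R (M → K)}
    {HX : Subalgebra R (X → K)} (h : IsStableTorsorOrder actX HM HX)
    (A : ValuationSubring K) (hRA : ∀ r : R, algebraMap R K r ∈ A)
    (hδ : ∀ j : M, (fun m : M => if m = j then (1 : K) else 0) ∈ HM)
    (σ : G) (hσ : ∀ a ∈ A, σ • a - a ∈ A.nonunits) (x : X) : actX σ x = x :=
  actX_eq_of_indicator_mem h A (fun _ hf x => apply_mem_of_fg A hRA HX h.fg hf x) hδ σ hσ x

/-- **(c), multiplicative type**, with the integrality of the values derived from `fg`, `χ ^ N = 1`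
from `N • M = 0` and the distinctness of the powers from a primitive value. -/
theorem exists_unit_class' {actX : G → X → X} {HM : Subalgebra R (M → K)}
    {HX : Subalgebra R (X → K)} (h : IsStableTorsorOrder actX HM HX)
    (A : ValuationSubring K) (hRA : ∀ r : R, algebraMap R K r ∈ A)
    (hN : 2 ≤ N) (hM : ∀ m : M, N • m = 0)
    (m₀ : M) (hζ : IsPrimitiveRoot (χ (ofAdd m₀)) N)
    (hHM : ∀ f ∈ HM, ∃ c : Fin N → R, ∀ m : M,
      f m = ∑ j : Fin N, algebraMap R K (c j) * χ (ofAdd m) ^ (j : ℕ))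
    (hχ_mem : (fun m : M => χ (ofAdd m)) ∈ HM)
    (u : X → K) (hu : ∀ (m : M) (x : X), u (m +ᵥ x) = χ (ofAdd m) * u x)
    (hu_gal : ∀ (σ : G) (x : X), u (actX σ x) = σ • u x)
    (x₀ : X) (hu0 : u x₀ ≠ 0) :
    ∃ c : K, c ≠ 0 ∧ (∀ σ : G, σ • c = c) ∧
      (c * u x₀) ^ N ∈ A ∧ ((c * u x₀) ^ N)⁻¹ ∈ A :=
  exists_unit_class h A (fun _ hf x => apply_mem_of_fg A hRA HX h.fg hf x) hN
    (chi_pow_eq_one hM) (hdist_of_isPrimitiveRoot m₀ hζ) hHM hχ_mem u hu hu_gal x₀ hu0

end Mu

end Fermat.Agent.GZ.LocR.RankOne
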