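/-
GATE-Z / S15, node GZ-LOCR-CONSTORD, part 4c (helper5): **PLUG of the rank-one classification into
helper14's `GZ/LocR/RankOne`** (item (c) of the count).

For a rank-one piece `M` (`#M = r` prime) with a stable order `H` (frame `GH/N0 IsStableOrder`), a
torsor order `HX` on an `M`-torsor `X` relative to `H` (`TorsVocab.IsStableTorsorOrder`):

* `actX_eq_of_etale`      : `H` ÉTALE with rational points ⟹ inertia fixes `X` pointwise
                            (unramified class) — `ConstOrdDich.exists_indicator` +
                            `RankOne.actX_eq_of_indicator_mem'`;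
* `exists_unit_of_local`  : `H` LOCAL with a faithful equivariant character `χ` ⟹ the Kummer class of
                            `X` is a unit class — `ConstOrdMu.mu_shape` + `RankOne.exists_unit_class'`.
-/
import Mathlib
import Fermat.Agent.GZ.LocR.ConstOrdMu
import Fermat.Agent.GZ.LocR.RankOne

set_option autoImplicit false
set_option linter.unusedSectionVars false

namespace Fermat.Agent.GZ.LocR.ConstOrd

open Fermat.Agent.GZ.LocR Fermat.Agent.GH.N0 Fermat.Agent.GS.ClosureW

variable {R : Type*} [CommRing R] [IsDomain R] [IsPrincipalIdealRing R]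
variable {F : Type*} [Field F] [Algebra R F] [IsFractionRing R F]
variable {K : Type*} [Field K] [Algebra F K] [Algebra R K] [IsScalarTower R F K]
variable {G : Type*} [Group G] [MulSemiringAction G K]
variable {M : Type*} [AddCommGroup M] [Finite M] {X : Type*} [AddTorsor M X]
variable {act : G → M → M} {H : Subalgebra R (M → K)}
variable {A : Subring K} {𝔫 : AddSubgroup K}

/-- **(c), étale type, from the TYPE of the order**: an étale order with rational points contains the
indicator functions, hence inertia acts trivially on every torsor with a torsor order. -/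
theorem actX_eq_of_etale (het : IsEtaleAt 𝔫 H)
    (hval : ∀ f ∈ H, ∀ x : M, ∃ a : R, algebraMap R K a = f x)
    (hunit : ∀ a : R, algebraMap R K a ∉ 𝔫 → IsUnit a)
    {actX : G → X → X} {HX : Subalgebra R (X → K)} (hX : IsStableTorsorOrder actX H HX)
    (V : ValuationSubring K) (hRV : ∀ a : R, algebraMap R K a ∈ V)
    (σ : G) (hσ : ∀ a ∈ V, σ • a - a ∈ V.nonunits) (x : X) : actX σ x = x := by
  classical
  refine RankOne.actX_eq_of_indicator_mem' hX V hRV (fun j => ?_) σ hσ x
  convert exists_indicator het hval hunit j using 2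

/-- **(c), multiplicative type, from the TYPE of the order**: a local order of prime order `r` with a
faithful equivariant character is `R[χ]`, hence the Kummer class of every torsor with a torsor order
is a unit class. -/
theorem exists_unit_of_local [CharZero K] {r : ℕ} [hrF : Fact r.Prime]
    (h : IsStableOrder F act H) (hP : IsPrimeAt R A 𝔫)
    (hloc : IsLocalAt (𝔫 : Set K) H) (hcard : Nat.card M = r)
    (hRn : ∀ a : R, algebraMap R K a ∈ 𝔫 → (r : R) ∣ a)
    (χ : Multiplicative M →* K) (m₀ : M)
    (hζ : IsPrimitiveRoot (χ (Multiplicative.ofAdd m₀)) r)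
    (hχ : ∀ (σ : G) (m : M), χ (Multiplicative.ofAdd (act σ m)) = σ • χ (Multiplicative.ofAdd m))
    {actX : G → X → X} {HX : Subalgebra R (X → K)} (hX : IsStableTorsorOrder actX H HX)
    (V : ValuationSubring K) (hRV : ∀ a : R, algebraMap R K a ∈ V)
    (u : X → K) (hu : ∀ (m : M) (x : X), u (m +ᵥ x) = χ (Multiplicative.ofAdd m) * u x)
    (hu_gal : ∀ (σ : G) (x : X), u (actX σ x) = σ • u x) (x₀ : X) (hu0 : u x₀ ≠ 0) :
    ∃ c : K, c ≠ 0 ∧ (∀ σ : G, σ • c = c) ∧ (c * u x₀) ^ r ∈ V ∧ ((c * u x₀) ^ r)⁻¹ ∈ V := by
  obtain ⟨hχH, hHM⟩ := mu_shape h hP hloc hcard hRn χ m₀ hζ hχ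
  have hM : ∀ m : M, r • m = 0 := fun m => by rw [← hcard]; exact card_nsmul_eq_zero'
  exact RankOne.exists_unit_class' hX V hRV hrF.out.two_le hM m₀ hζ hHM hχH u hu hu_gal x₀ hu0

end Fermat.Agent.GZ.LocR.ConstOrd
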