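/-
GATE-Z / S15, (LOC-r) order-side PLUG (helper5, second seat of F-SB): **the local condition at `r` on
a rank-one piece, from the TYPE of its order.**

`P` a finite `G`-set-with-group-structure of prime order `r` with a stable order `HP`
(frame `GH/N0 IsStableOrder F act HP`; in the application `HP = FlatSub.pieceOrder HW T S`),
`V` a valuation subring of `K` over `r` (`hRV`, `hRn : R ∩ 𝔪_V ⊆ r R`, `hunit : R ∖ 𝔪_V ⊆ Rˣ`),
`y` a FLAT cochain (`FlatSub.IsFlat act HP y`, helper94).

* `nonunitsAddSubgroup V`, `isPrimeAt_valuationSubring` : `(V, 𝔪_V)` is an `IsPrimeAt` pair;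
* `isLocalAt_or_isEtaleAt_piece` : the order of a piece of prime order is LOCAL or ÉTALE at `𝔪_V`;
* `isEtaleAt_of_trivial` : `r` odd + trivial action ⟹ ÉTALE;
* `isLocalAt_of_inertia_ne` : an inertia element moving a point ⟹ LOCAL;
* `flat_apply_eq_zero_of_etale` : ÉTALE + rational points ⟹ `y σ = 0` on the inertia (unramified);
* `flat_apply_eq_zero_of_trivial` : `r` odd + trivial action ⟹ `y σ = 0` on the inertia;
* `flat_exists_unit_class_of_local` : LOCAL + faithful equivariant character `χ` + Hilbert-90 datum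
  `β` (`χ (y σ) * β = σ • β`) ⟹ the Kummer class `β ^ r` is a unit class.
-/
import Mathlib
import Fermat.Agent.GS.ClosureW.NoTriv
import Fermat.Agent.GZ.LocR.ConstOrdPlug
import Fermat.Agent.GZ.LocR.FlatSub.Eval

set_option autoImplicit false
set_option linter.unusedSectionVars false

namespace Fermat.Agent.GZ.LocR.ConstOrd

open Fermat.Agent.GZ.LocR Fermat.Agent.GZ.LocR.FlatSub Fermat.Agent.GH.N0 Fermat.Agent.GS.ClosureW

section Val

variable {K : Type*} [Field K]

/-- the maximal ideal of a valuation subring, as an additive subgroup of the field. -/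
def nonunitsAddSubgroup (V : ValuationSubring K) : AddSubgroup K where
  carrier := {x | x ∈ V.nonunits}
  zero_mem' := by
    show (0 : K) ∈ V.nonunits
    rw [V.mem_nonunits_iff, map_zero]
    exact zero_lt_one
  add_mem' := by
    intro a b ha hb
    have ha' : V.valuation a < 1 := V.mem_nonunits_iff.mp ha
    have hb' : V.valuation b < 1 := V.mem_nonunits_iff.mp hb
    show a + b ∈ V.nonunits
    rw [V.mem_nonunits_iff]
    exact lt_of_le_of_lt (V.valuation.map_add a b) (max_lt ha' hb')
  neg_mem' := by
    intro a ha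
    have ha' : V.valuation a < 1 := V.mem_nonunits_iff.mp ha
    show -a ∈ V.nonunits
    rw [V.mem_nonunits_iff, Valuation.map_neg]
    exact ha'

theorem mem_nonunitsAddSubgroup {V : ValuationSubring K} {x : K} :
    x ∈ nonunitsAddSubgroup V ↔ x ∈ V.nonunits := Iff.rfl

variable {R : Type*} [CommRing R] [Algebra R K]

/-- a valuation subring containing the scalars, with its maximal ideal, is an `IsPrimeAt` pair. -/
theorem isPrimeAt_valuationSubring (V : ValuationSubring K)
    (hRV : ∀ a : R, algebraMap R K a ∈ V) :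
    IsPrimeAt R V.toSubring (nonunitsAddSubgroup V) where
  int_mem := fun _ hc => RankOne.mem_of_isIntegral V hRV hc
  mul_mem := by
    intro a ha c hc
    have ha' : V.valuation a ≤ 1 := (V.valuation_le_one_iff _).mpr ha
    have hc' : V.valuation c < 1 := V.mem_nonunits_iff.mp hc
    show a * c ∈ V.nonunits
    rw [V.mem_nonunits_iff, map_mul, mul_comm]
    exact mul_lt_one_of_lt_of_le hc' ha'
  prime := by
    intro a ha b hb hab
    have ha' : V.valuation a ≤ 1 := (V.valuation_le_one_iff _).mpr ha
    have hb' : V.valuation b ≤ 1 := (V.valuation_le_one_iff _).mpr hb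
    have hab' : V.valuation (a * b) < 1 := V.mem_nonunits_iff.mp hab
    by_contra hcon
    push Not at hcon
    have h1 : V.valuation a = 1 :=
      le_antisymm ha' (not_lt.mp fun hlt => hcon.1 (V.mem_nonunits_iff.mpr hlt))
    have h2 : V.valuation b = 1 :=
      le_antisymm hb' (not_lt.mp fun hlt => hcon.2 (V.mem_nonunits_iff.mpr hlt))
    rw [map_mul, h1, h2, one_mul] at hab'
    exact lt_irrefl _ hab'
  one_notMem := by
    intro h1
    have : V.valuation (1 : K) < 1 := V.mem_nonunits_iff.mp h1
    rw [map_one] at this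
    exact lt_irrefl _ this

end Val

variable {R : Type*} [CommRing R] [IsDomain R] [IsPrincipalIdealRing R]
variable {F : Type*} [Field F] [Algebra R F] [IsFractionRing R F]
variable {K : Type*} [Field K] [Algebra F K] [Algebra R K] [IsScalarTower R F K]
variable {G : Type*} [Group G] [MulSemiringAction G K]
variable {P : Type*} [AddCommGroup P] [Finite P]
variable {act : G → P → P} {HP : Subalgebra R (P → K)}

/-- the order of a piece of prime order is local or étale at `𝔪_V`. -/
theorem isLocalAt_or_isEtaleAt_piece (h : IsStableOrder F act HP) (V : ValuationSubring K)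
    (hRV : ∀ a : R, algebraMap R K a ∈ V) (hcard : (Nat.card P).Prime) :
    IsLocalAt (nonunitsAddSubgroup V : Set K) HP ∨ IsEtaleAt (nonunitsAddSubgroup V) HP :=
  isLocalAt_or_etale ((isPrimeAt_valuationSubring V hRV).frame h) hcard

/-- **`r` odd, trivial action ⟹ the order of the piece is étale.** -/
theorem isEtaleAt_of_trivial (h : IsStableOrder F act HP) (V : ValuationSubring K)
    (hRV : ∀ a : R, algebraMap R K a ∈ V) {r : ℕ} (hr : r.Prime) (hcard : Nat.card P = r)
    (hprime : Prime (r : R)) (hodd : ¬ (r : R) ∣ 2)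
    (hRn : ∀ a : R, algebraMap R K a ∈ V.nonunits → (r : R) ∣ a)
    (htriv : ∀ σ w, act σ w = w) : IsEtaleAt (nonunitsAddSubgroup V) HP := by
  rcases isLocalAt_or_isEtaleAt_piece h V hRV (hcard ▸ hr) with hloc | het
  · exfalso
    have hM : ∀ x : P, r • x = 0 := fun x => by rw [← hcard]; exact card_nsmul_eq_zero'
    have hsub := subsingleton_of_trivial_of_local h htriv r hprime hodd hM
      (nonunitsAddSubgroup V : Set K) hloc hRn
    have h1 : Nat.card P ≤ 1 := Finite.card_le_one_iff_subsingleton.mpr hsub
    rw [hcard] at h1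
    exact absurd hr.one_lt (not_lt.mpr h1)
  · exact het

/-- **an inertia element moving a point ⟹ the order of the piece is local.** -/
theorem isLocalAt_of_inertia_ne (h : IsStableOrder F act HP) (V : ValuationSubring K)
    (hRV : ∀ a : R, algebraMap R K a ∈ V) (hcard : (Nat.card P).Prime)
    (σ : G) (hσ : ∀ a ∈ V, σ • a - a ∈ V.nonunits) (w : P) (hw : act σ w ≠ w) :
    IsLocalAt (nonunitsAddSubgroup V : Set K) HP := by
  rcases isLocalAt_or_isEtaleAt_piece h V hRV hcard with hloc | het
  · exact hloc
  · exact absurd (act_eq_of_etale ((isPrimeAt_valuationSubring V hRV).frame h) act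
      h.equivariant het σ hσ w) hw

/-- **étale + rational points ⟹ a flat cochain vanishes on the inertia.** -/
theorem flat_apply_eq_zero_of_etale (h : IsStableOrder F act HP) (V : ValuationSubring K)
    (hRV : ∀ a : R, algebraMap R K a ∈ V) (het : IsEtaleAt (nonunitsAddSubgroup V) HP)
    (hval : ∀ f ∈ HP, ∀ x : P, ∃ a : R, algebraMap R K a = f x)
    (hunit : ∀ a : R, algebraMap R K a ∉ V.nonunits → IsUnit a)
    {y : G → P} (hy : IsFlat act HP y) (σ : G) (hσ : ∀ a ∈ V, σ • a - a ∈ V.nonunits) :
    y σ = 0 := by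
  classical
  refine hy.apply_eq_zero_of_indicator_mem h.act_zero V hRV (fun j => ?_) σ hσ
  convert exists_indicator het hval hunit j using 2

/-- **`r` odd, trivial action ⟹ a flat cochain vanishes on the inertia** (the class is unramified
at `r`). -/
theorem flat_apply_eq_zero_of_trivial (h : IsStableOrder F act HP) (V : ValuationSubring K)
    (hRV : ∀ a : R, algebraMap R K a ∈ V) {r : ℕ} (hr : r.Prime) (hcard : Nat.card P = r)
    (hprime : Prime (r : R)) (hodd : ¬ (r : R) ∣ 2)
    (hRn : ∀ a : R, algebraMap R K a ∈ V.nonunits → (r : R) ∣ a)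
    (hunit : ∀ a : R, algebraMap R K a ∉ V.nonunits → IsUnit a)
    (htriv : ∀ σ w, act σ w = w)
    {y : G → P} (hy : IsFlat act HP y) (σ : G) (hσ : ∀ a ∈ V, σ • a - a ∈ V.nonunits) :
    y σ = 0 :=
  flat_apply_eq_zero_of_etale h V hRV
    (isEtaleAt_of_trivial h V hRV hr hcard hprime hodd hRn htriv)
    (fun _ hf x => exists_algebraMap_eq_apply_of_trivial h htriv hf x) hunit hy σ hσ

/-- **local + faithful equivariant character ⟹ the Kummer class of a flat cochain is a unit
class.** -/
theorem flat_exists_unit_class_of_local [CharZero K] {r : ℕ} [hrF : Fact r.Prime]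
    (h : IsStableOrder F act HP) (V : ValuationSubring K)
    (hRV : ∀ a : R, algebraMap R K a ∈ V)
    (hloc : IsLocalAt (nonunitsAddSubgroup V : Set K) HP) (hcard : Nat.card P = r)
    (hRn : ∀ a : R, algebraMap R K a ∈ V.nonunits → (r : R) ∣ a)
    (χ : Multiplicative P →* K) (m₀ : P)
    (hζ : IsPrimitiveRoot (χ (Multiplicative.ofAdd m₀)) r)
    (hχ : ∀ (σ : G) (m : P), χ (Multiplicative.ofAdd (act σ m)) = σ • χ (Multiplicative.ofAdd m))
    {y : G → P} (hy : IsFlat act HP y)
    (β : K) (hβ : β ≠ 0) (hβy : ∀ σ : G, χ (Multiplicative.ofAdd (y σ)) * β = σ • β) :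
    ∃ c : K, c ≠ 0 ∧ (∀ σ : G, σ • c = c) ∧ (c * β) ^ r ∈ V ∧ ((c * β) ^ r)⁻¹ ∈ V := by
  obtain ⟨hχH, hHM⟩ := mu_shape h (isPrimeAt_valuationSubring V hRV) hloc hcard hRn χ m₀ hζ hχ
  have hM : ∀ m : P, r • m = 0 := fun m => by rw [← hcard]; exact card_nsmul_eq_zero'
  exact hy.exists_unit_class V hRV χ r hrF.out.two_le hM m₀ hζ hHM hχH hχ β hβ hβy

/-- on a group of order two every `act σ` is the identity. -/
theorem act_eq_of_card_two (h : IsStableOrder F act HP) (hcard : Nat.card P = 2) (σ : G) (w : P) :
    act σ w = w := by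
  by_cases hw : w = 0
  · rw [hw, h.act_zero]
  · have hne : act σ w ≠ 0 := by
      intro h0
      rw [← h.act_zero σ] at h0
      exact hw (h.act_injective σ h0)
    by_contra hcon
    -- three distinct elements `0`, `w`, `act σ w`
    have h3 : 2 < Nat.card P := by
      classical
      have := Fintype.ofFinite P
      rw [Nat.card_eq_fintype_card]
      have hsub : ({0, w, act σ w} : Finset P) ⊆ Finset.univ := Finset.subset_univ _
      have hc : ({0, w, act σ w} : Finset P).card = 3 := by
        rw [Finset.card_insert_of_notMem, Finset.card_insert_of_notMem, Finset.card_singleton]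
        · rw [Finset.mem_singleton]
          exact fun h' => hcon h'.symm
        · rw [Finset.mem_insert, Finset.mem_singleton]
          rintro (h' | h')
          · exact hw h'.symm
          · exact hne h'.symm
      have := Finset.card_le_card hsub
      rw [hc, Finset.card_univ] at this
      omega
    omega

/-- **`r = 2`, local order ⟹ the Kummer class of a flat cochain is a unit class** (`χ` the sign
character of the piece; its equivariance is automatic). -/
theorem flat_exists_unit_class_of_local_two [CharZero K]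
    (h : IsStableOrder F act HP) (V : ValuationSubring K)
    (hRV : ∀ a : R, algebraMap R K a ∈ V)
    (hloc : IsLocalAt (nonunitsAddSubgroup V : Set K) HP) (hcard : Nat.card P = 2)
    (hRn : ∀ a : R, algebraMap R K a ∈ V.nonunits → (2 : R) ∣ a)
    (χ : Multiplicative P →* K) (m₀ : P)
    (hζ : χ (Multiplicative.ofAdd m₀) = -1)
    {y : G → P} (hy : IsFlat act HP y)
    (β : K) (hβ : β ≠ 0) (hβy : ∀ σ : G, χ (Multiplicative.ofAdd (y σ)) * β = σ • β) :
    ∃ c : K, c ≠ 0 ∧ (∀ σ : G, σ • c = c) ∧ (c * β) ^ 2 ∈ V ∧ ((c * β) ^ 2)⁻¹ ∈ V := by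
  have : Fact (Nat.Prime 2) := ⟨Nat.prime_two⟩
  have hprim : IsPrimitiveRoot (χ (Multiplicative.ofAdd m₀)) 2 := by
    rw [hζ]
    exact IsPrimitiveRoot.neg_one 0 (by norm_num)
  have hM : ∀ m : P, 2 • m = 0 := fun m => by rw [← hcard]; exact card_nsmul_eq_zero'
  have hχ : ∀ (σ : G) (m : P),
      χ (Multiplicative.ofAdd (act σ m)) = σ • χ (Multiplicative.ofAdd m) := by
    intro σ m
    rw [act_eq_of_card_two h hcard]
    have hsq : χ (Multiplicative.ofAdd m) ^ 2 = 1 := by
      rw [← map_pow, ← ofAdd_nsmul, hM, ofAdd_zero, map_one]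
    rcases sq_eq_one_iff.mp hsq with h1 | h1
    · rw [h1, smul_one]
    · rw [h1, smul_neg, smul_one]
  have hRn' : ∀ a : R, algebraMap R K a ∈ V.nonunits → ((2 : ℕ) : R) ∣ a := by
    intro a ha
    have := hRn a ha
    simpa using this
  exact flat_exists_unit_class_of_local (r := 2) h V hRV hloc hcard hRn' χ m₀ hprim hχ hy β hβ hβy

end Fermat.Agent.GZ.LocR.ConstOrd
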