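/-
GATE-Z / S15, (LOC-r) order-side PLUG, INSTANCE on `G_ℚ` (helper5): `GZ/LocR/PieceType` at
`R = ℤ_(r) = GaloisRep.ratLocalizedAt r`, `F = ℚ`, `K = ℚ̄`, `G = G_ℚ`, `V | r` a valuation subring of
`ℚ̄` (`(r : ℚ̄) ∈ V.nonunits`), inertia = `V.inertiaSubgroupIn ℚ`.

* `algebraMap_mem_of_ratLocalizedAt`, `prime_natCast_ratLocalizedAt`, `dvd_of_algebraMap_mem_nonunits`,
  `isUnit_of_algebraMap_notMem_nonunits`, `inertia_sub_mem_nonunits` : the binders `hRV hprime hRn
  hunit hσ` of `PieceType`;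
* `flat_apply_eq_zero_of_trivial_Q` : **(LOCR-ét)** `r` odd, trivial action on a piece of order `r`:
  a flat cochain vanishes on `I_V`;
* `isLocalAt_of_cyclotomic_Q` : `r` odd, a faithful equivariant character on the piece ⟹ LOCAL
  (the mod-`r` cyclotomic character is nontrivial on `I_V`: `GL/Local/TameZeta`);
* `flat_exists_unit_class_of_cyclotomic_Q` : **(LOCR-u)** `r` odd, faithful equivariant character:
  the Kummer class of a flat cochain is a unit class at `V`, with the constant `c ∈ ℚ`;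
* `flat_two_Q` : `r = 2`: a flat cochain on a piece of order two either vanishes on `I_V` or its Kummer
  class is a unit class at `V`.
-/
import Mathlib
import Fermat.Agent.S28.RatLocal
import Fermat.Agent.GH.N1Inst.WRing
import Fermat.Agent.GL.Local.TameZeta
import Fermat.Agent.GZ.LocR.PieceType

set_option autoImplicit false
set_option linter.unusedSectionVars false

namespace Fermat.Agent.GZ.LocR.ConstOrd

open Fermat.Agent.Common_helper32 Fermat.Agent.GL.Local.InertiaField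
open Fermat.Agent.GZ.LocR.FlatSub Fermat.Agent.GH.N0 Fermat.Agent.GS.ClosureW

section Base

variable {r : ℕ} [hrF : Fact r.Prime] (V : ValuationSubring Qb) (hV : (r : Qb) ∈ V.nonunits)

include hV in
theorem algebraMap_mem_of_ratLocalizedAt (a : GaloisRep.ratLocalizedAt r) :
    algebraMap (GaloisRep.ratLocalizedAt r) Qb a ∈ V := by
  have h := ((Fermat.Agent.GH.N1Inst.wRing_W1 V hrF.out hV (a : ℚ)).2 a.2).1
  exact h

theorem prime_natCast_ratLocalizedAt : Prime ((r : ℕ) : GaloisRep.ratLocalizedAt r) :=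
  (Fermat.Agent.S28.irreducible_ell r).prime

include hV in
theorem isUnit_of_algebraMap_notMem_nonunits (a : GaloisRep.ratLocalizedAt r)
    (ha : algebraMap (GaloisRep.ratLocalizedAt r) Qb a ∉ V.nonunits) : IsUnit a := by
  by_contra hna
  apply ha
  have hmem : a ∈ IsLocalRing.maximalIdeal (GaloisRep.ratLocalizedAt r) :=
    (IsLocalRing.mem_maximalIdeal a).mpr hna
  rw [Fermat.Agent.S28.maximalIdeal_ratLocalizedAt, Ideal.mem_span_singleton] at hmem
  obtain ⟨b, rfl⟩ := hmem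
  rw [map_mul, map_natCast]
  exact Fermat.Agent.S05.mul_mem_nonunits_of_mem hV (algebraMap_mem_of_ratLocalizedAt V hV b)

include hV in
theorem dvd_of_algebraMap_mem_nonunits (a : GaloisRep.ratLocalizedAt r)
    (ha : algebraMap (GaloisRep.ratLocalizedAt r) Qb a ∈ V.nonunits) :
    ((r : ℕ) : GaloisRep.ratLocalizedAt r) ∣ a := by
  by_contra hnd
  have hu : IsUnit a := by
    by_contra hna
    have hmem : a ∈ IsLocalRing.maximalIdeal (GaloisRep.ratLocalizedAt r) :=
      (IsLocalRing.mem_maximalIdeal a).mpr hna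
    rw [Fermat.Agent.S28.maximalIdeal_ratLocalizedAt, Ideal.mem_span_singleton] at hmem
    exact hnd hmem
  obtain ⟨u, rfl⟩ := hu
  -- the image of a unit of `ℤ_(r)` is a unit of `V`
  have h1 : algebraMap (GaloisRep.ratLocalizedAt r) Qb (u : GaloisRep.ratLocalizedAt r) *
      algebraMap (GaloisRep.ratLocalizedAt r) Qb ((u⁻¹ : (GaloisRep.ratLocalizedAt r)ˣ) :
        GaloisRep.ratLocalizedAt r) = 1 := by
    rw [← map_mul, Units.mul_inv, map_one]
  have h2 := Fermat.Agent.S05.mul_mem_nonunits_of_mem ha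
    (algebraMap_mem_of_ratLocalizedAt V hV ((u⁻¹ : (GaloisRep.ratLocalizedAt r)ˣ) :
      GaloisRep.ratLocalizedAt r))
  rw [h1, V.mem_nonunits_iff, map_one] at h2
  exact lt_irrefl _ h2

theorem inertia_sub_mem_nonunits {σ : GQ} (hσ : σ ∈ V.inertiaSubgroupIn ℚ) :
    ∀ a ∈ V, σ • a - a ∈ V.nonunits :=
  ((mem_inertiaSubgroupIn_iff_forall V σ).mp hσ).2

theorem not_dvd_two_ratLocalizedAt (hodd : r ≠ 2) :
    ¬ ((r : ℕ) : GaloisRep.ratLocalizedAt r) ∣ 2 :=
  not_dvd_two_of_odd prime_natCast_ratLocalizedAt (hrF.out.odd_of_ne_two hodd)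

end Base

section Piece

variable {r : ℕ} [hrF : Fact r.Prime] (V : ValuationSubring Qb) (hV : (r : Qb) ∈ V.nonunits)
variable {P : Type*} [AddCommGroup P] [Finite P]
variable {act : GQ → P → P} {HP : Subalgebra (GaloisRep.ratLocalizedAt r) (P → Qb)}

include hV

/-- **(LOCR-ét)** `r` odd, trivial action: a flat cochain vanishes on the inertia group at `r`. -/
theorem flat_apply_eq_zero_of_trivial_Q (h : IsStableOrder ℚ act HP) (hodd : r ≠ 2)
    (hcard : Nat.card P = r) (htriv : ∀ σ w, act σ w = w) {y : GQ → P} (hy : IsFlat act HP y)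
    {σ : GQ} (hσ : σ ∈ V.inertiaSubgroupIn ℚ) : y σ = 0 :=
  flat_apply_eq_zero_of_trivial h V (algebraMap_mem_of_ratLocalizedAt V hV) hrF.out hcard
    prime_natCast_ratLocalizedAt (not_dvd_two_ratLocalizedAt hodd)
    (dvd_of_algebraMap_mem_nonunits V hV) (isUnit_of_algebraMap_notMem_nonunits V hV) htriv hy σ
    (inertia_sub_mem_nonunits V hσ)

/-- `r` odd: a piece of order `r` carrying a faithful equivariant character has a LOCAL order. -/
theorem isLocalAt_of_cyclotomic_Q (h : IsStableOrder ℚ act HP) (hodd : r ≠ 2)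
    (hcard : Nat.card P = r) (χ : Multiplicative P →* Qb) (m₀ : P)
    (hζ : IsPrimitiveRoot (χ (Multiplicative.ofAdd m₀)) r)
    (hχ : ∀ (σ : GQ) (m : P),
      χ (Multiplicative.ofAdd (act σ m)) = σ • χ (Multiplicative.ofAdd m)) :
    IsLocalAt (nonunitsAddSubgroup V : Set Qb) HP := by
  have hr := hrF.out
  have h2 : ¬ r ∣ 2 := by
    intro hdvd
    exact hodd ((Nat.prime_dvd_prime_iff_eq hr Nat.prime_two).mp hdvd)
  obtain ⟨σ, hσ, hσζ⟩ := exists_mem_inertia_apply_zeta V hr hV hζ h2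
  refine isLocalAt_of_inertia_ne h V (algebraMap_mem_of_ratLocalizedAt V hV) (hcard ▸ hr) σ
    (inertia_sub_mem_nonunits V hσ) m₀ ?_
  intro heq
  have h3 := hχ σ m₀
  rw [heq] at h3
  have h4 : χ (Multiplicative.ofAdd m₀) ^ 2 = χ (Multiplicative.ofAdd m₀) ^ 1 := by
    rw [pow_one, ← hσζ]
    exact h3.symm
  have hr3 : 2 < r := lt_of_le_of_ne hr.two_le (Ne.symm hodd)
  have h5 := hζ.pow_inj hr3 (by omega : 1 < r) h4
  omega

/-- **(LOCR-u)** `r` odd, faithful equivariant character: the Kummer class of a flat cochain is a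
unit class at `V`, the constant being rational. -/
theorem flat_exists_unit_class_of_cyclotomic_Q (h : IsStableOrder ℚ act HP) (hodd : r ≠ 2)
    (hcard : Nat.card P = r) (χ : Multiplicative P →* Qb) (m₀ : P)
    (hζ : IsPrimitiveRoot (χ (Multiplicative.ofAdd m₀)) r)
    (hχ : ∀ (σ : GQ) (m : P),
      χ (Multiplicative.ofAdd (act σ m)) = σ • χ (Multiplicative.ofAdd m))
    {y : GQ → P} (hy : IsFlat act HP y) (β : Qb) (hβ : β ≠ 0)
    (hβy : ∀ σ : GQ, χ (Multiplicative.ofAdd (y σ)) * β = σ • β) :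
    ∃ c : ℚ, c ≠ 0 ∧ (algebraMap ℚ Qb c * β) ^ r ∈ V ∧ ((algebraMap ℚ Qb c * β) ^ r)⁻¹ ∈ V := by
  have hloc := isLocalAt_of_cyclotomic_Q V hV h hodd hcard χ m₀ hζ hχ
  obtain ⟨c, hc, hfix, h1, h2⟩ := flat_exists_unit_class_of_local h V
    (algebraMap_mem_of_ratLocalizedAt V hV) hloc hcard (dvd_of_algebraMap_mem_nonunits V hV)
    χ m₀ hζ hχ hy β hβ hβy
  obtain ⟨q, rfl⟩ := Fermat.Agent.GH.N1Inst.hfix_Qb c hfix
  refine ⟨q, ?_, h1, h2⟩
  rintro rfl
  exact hc (map_zero _)

end Piece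

section Two

variable (V : ValuationSubring Qb) (hV : ((2 : ℕ) : Qb) ∈ V.nonunits)
variable {P : Type*} [AddCommGroup P] [Finite P]
variable {act : GQ → P → P} {HP : Subalgebra (GaloisRep.ratLocalizedAt 2) (P → Qb)}

include hV in
/-- **`r = 2`**: a flat cochain on a piece of order two either vanishes on the inertia group at `2`
(ÉTALE order) or its Kummer class is a unit class at `V` (LOCAL = multiplicative order). -/
theorem flat_two_Q (h : IsStableOrder ℚ act HP) (hcard : Nat.card P = 2)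
    (χ : Multiplicative P →* Qb) (m₀ : P) (hζ : χ (Multiplicative.ofAdd m₀) = -1)
    {y : GQ → P} (hy : IsFlat act HP y) (β : Qb) (hβ : β ≠ 0)
    (hβy : ∀ σ : GQ, χ (Multiplicative.ofAdd (y σ)) * β = σ • β) :
    (∀ σ ∈ V.inertiaSubgroupIn ℚ, y σ = 0) ∨
      ∃ c : ℚ, c ≠ 0 ∧ (algebraMap ℚ Qb c * β) ^ 2 ∈ V ∧ ((algebraMap ℚ Qb c * β) ^ 2)⁻¹ ∈ V := by
  have : Fact (Nat.Prime 2) := ⟨Nat.prime_two⟩
  have hRV := algebraMap_mem_of_ratLocalizedAt (r := 2) V hV
  have htriv : ∀ σ w, act σ w = w := fun σ w => act_eq_of_card_two h hcard σ w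
  rcases isLocalAt_or_isEtaleAt_piece h V hRV (hcard ▸ Nat.prime_two) with hloc | het
  · right
    have hRn : ∀ a : GaloisRep.ratLocalizedAt 2,
        algebraMap (GaloisRep.ratLocalizedAt 2) Qb a ∈ V.nonunits →
          (2 : GaloisRep.ratLocalizedAt 2) ∣ a := by
      intro a ha
      have := dvd_of_algebraMap_mem_nonunits (r := 2) V hV a ha
      simpa using this
    obtain ⟨c, hc, hfix, h1, h2⟩ := flat_exists_unit_class_of_local_two h V hRV hloc hcard hRn
      χ m₀ hζ hy β hβ hβy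
    obtain ⟨q, rfl⟩ := Fermat.Agent.GH.N1Inst.hfix_Qb c hfix
    refine ⟨q, ?_, h1, h2⟩
    rintro rfl
    exact hc (map_zero _)
  · left
    intro σ hσ
    exact flat_apply_eq_zero_of_etale h V hRV het
      (fun _ hf x => exists_algebraMap_eq_apply_of_trivial h htriv hf x)
      (isUnit_of_algebraMap_notMem_nonunits (r := 2) V hV) hy σ (inertia_sub_mem_nonunits V hσ)

end Two

end Fermat.Agent.GZ.LocR.ConstOrd
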