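/-
GATE-Z / S15, (LOC-r) → count WIRING (helper5): **the `l = r` clause of helper90's `Arith.MuLoc Ψ x`
for a FLAT cochain on a rank-one piece.**

`P` a finite `G_ℚ`-module of prime order `r` with a stable order `HP` over `ℤ_(r)`
(`IsStableOrder ℚ (smulAct GQ P) HP`; application `HP = FlatSub.pieceOrder HW T S`), `Ψ : MuChar P r`
(`GZ/Dev/Arith/Mu`), `x` a flat cochain (`FlatSub.IsFlat (smulAct GQ P) HP x`), `V | r`.

* `chiOf Ψ` : the character of `PieceType` built from `Ψ`;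
* `muLoc_clause_odd` : `r` odd ⟹ every Hilbert 90 datum of `x` is a unit class at `V`
  (second alternative of `MuLoc` at `l = r`);
* `muLoc_clause_two` : `r = 2` ⟹ `x` vanishes on `I_V` (first alternative, `w₀ = 0`) or every
  Hilbert 90 datum of `x` is a unit class at `V` (second alternative).
-/
import Mathlib
import Fermat.Agent.GZ.Dev.Arith.Mu
import Fermat.Agent.GZ.LocR.FlatSub.Smul
import Fermat.Agent.GZ.LocR.PieceTypeQ

set_option autoImplicit false
set_option linter.unusedSectionVars false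

namespace Fermat.Agent.GZ.LocR.ConstOrd

open Fermat.Agent.Common_helper32 Fermat.Agent.GL.Local.InertiaField
open Fermat.Agent.GZ.LocR.FlatSub Fermat.Agent.GH.N0 Fermat.Agent.GS.ClosureW
open Fermat.Agent.GZ.Dev.Arith

variable {P : Type*} [AddCommGroup P] [Finite P] [DistribMulAction GQ P] {r : ℕ}

/-- the multiplicative character attached to a `MuChar`. -/
def chiOf (Ψ : MuChar P r) : Multiplicative P →* Qb where
  toFun m := Ψ.ψ (Multiplicative.toAdd m)
  map_one' := Ψ.map_zero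
  map_mul' _ _ := Ψ.map_add _ _

theorem chiOf_ofAdd (Ψ : MuChar P r) (w : P) : chiOf Ψ (Multiplicative.ofAdd w) = Ψ.ψ w := rfl

theorem chiOf_equivariant (Ψ : MuChar P r) (σ : GQ) (m : P) :
    chiOf Ψ (Multiplicative.ofAdd (smulAct GQ P σ m)) = σ • chiOf Ψ (Multiplicative.ofAdd m) :=
  Ψ.equivariant σ m

/-- a nonzero point of a piece of prime order is sent to a primitive root of unity. -/
theorem exists_primitive (Ψ : MuChar P r) (hr : r.Prime) (hcard : Nat.card P = r) :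
    ∃ m₀ : P, IsPrimitiveRoot (chiOf Ψ (Multiplicative.ofAdd m₀)) r := by
  have hnt : Nontrivial P := Finite.one_lt_card_iff_nontrivial.mp (hcard ▸ hr.one_lt)
  obtain ⟨m₀, hm₀⟩ := exists_ne (0 : P)
  refine ⟨m₀, _root_.isPrimitiveRoot_of_mem_nthRootsFinset hr
    ((Polynomial.mem_nthRootsFinset hr.pos 1).mpr (Ψ.pow_eq_one m₀)) ?_⟩
  intro h1
  apply hm₀
  apply Ψ.injective
  rw [Ψ.map_zero]
  exact h1

variable {HP : Subalgebra (GaloisRep.ratLocalizedAt r) (P → Qb)}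

/-- **the `l = r` clause of `MuLoc`, `r` odd**: every Hilbert 90 datum of a flat cochain is a unit
class at `V | r`. -/
theorem muLoc_clause_odd [hrF : Fact r.Prime] (hodd : r ≠ 2) (Ψ : MuChar P r)
    (V : ValuationSubring Qb) (hV : (r : Qb) ∈ V.nonunits)
    (h : IsStableOrder ℚ (smulAct GQ P) HP) (hcard : Nat.card P = r)
    {x : GQ → P} (hx : IsFlat (smulAct GQ P) HP x) :
    ∀ β : Qb, β ≠ 0 → (∀ σ : GQ, Ψ.ψ (x σ) * β = σ β) →
      ∃ c : ℚ, c ≠ 0 ∧ (((c : ℚ) : Qb) * β) ^ r ∈ V ∧ ((((c : ℚ) : Qb) * β) ^ r)⁻¹ ∈ V := by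
  intro β hβ hβx
  obtain ⟨m₀, hζ⟩ := exists_primitive Ψ hrF.out hcard
  obtain ⟨c, hc, h1, h2⟩ := flat_exists_unit_class_of_cyclotomic_Q V hV h hodd hcard (chiOf Ψ) m₀
    hζ (chiOf_equivariant Ψ) hx β hβ hβx
  rw [eq_ratCast] at h1 h2
  exact ⟨c, hc, h1, h2⟩

/-- **the `l = 2` clause of `MuLoc`, `r = 2`**: a flat cochain on a piece of order two vanishes on the
inertia group at `2`, or every Hilbert 90 datum of it is a unit class at `V | 2`. -/
theorem muLoc_clause_two {HP : Subalgebra (GaloisRep.ratLocalizedAt 2) (P → Qb)}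
    (Ψ : MuChar P 2) (V : ValuationSubring Qb) (hV : ((2 : ℕ) : Qb) ∈ V.nonunits)
    (h : IsStableOrder ℚ (smulAct GQ P) HP) (hcard : Nat.card P = 2)
    {x : GQ → P} (hx : IsFlat (smulAct GQ P) HP x) :
    (∃ w₀ : P, ∀ σ ∈ V.inertiaSubgroupIn ℚ, x σ = σ • w₀ - w₀) ∨
      (∀ β : Qb, β ≠ 0 → (∀ σ : GQ, Ψ.ψ (x σ) * β = σ β) →
        ∃ c : ℚ, c ≠ 0 ∧ (((c : ℚ) : Qb) * β) ^ 2 ∈ V ∧ ((((c : ℚ) : Qb) * β) ^ 2)⁻¹ ∈ V) := by
  have : Fact (Nat.Prime 2) := ⟨Nat.prime_two⟩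
  have hRV := algebraMap_mem_of_ratLocalizedAt (r := 2) V hV
  have htriv : ∀ σ w, smulAct GQ P σ w = w := fun σ w => act_eq_of_card_two h hcard σ w
  rcases isLocalAt_or_isEtaleAt_piece h V hRV (hcard ▸ Nat.prime_two) with hloc | het
  · right
    intro β hβ hβx
    obtain ⟨m₀, hζ⟩ := exists_primitive Ψ Nat.prime_two hcard
    have hζ' : chiOf Ψ (Multiplicative.ofAdd m₀) = -1 := hζ.eq_neg_one_of_two_right
    have hRn : ∀ a : GaloisRep.ratLocalizedAt 2,
        algebraMap (GaloisRep.ratLocalizedAt 2) Qb a ∈ V.nonunits →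
          (2 : GaloisRep.ratLocalizedAt 2) ∣ a := by
      intro a ha
      have := dvd_of_algebraMap_mem_nonunits (r := 2) V hV a ha
      simpa using this
    obtain ⟨c, hc, hfix, h1, h2⟩ := flat_exists_unit_class_of_local_two h V hRV hloc hcard hRn
      (chiOf Ψ) m₀ hζ' hx β hβ hβx
    obtain ⟨q, rfl⟩ := Fermat.Agent.GH.N1Inst.hfix_Qb c hfix
    rw [eq_ratCast] at h1 h2
    refine ⟨q, ?_, h1, h2⟩
    rintro rfl
    apply hc
    rw [eq_ratCast, Rat.cast_zero]
  · left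
    refine ⟨0, fun σ hσ => ?_⟩
    rw [smul_zero, sub_zero]
    exact flat_apply_eq_zero_of_etale h V hRV het
      (fun _ hf w => exists_algebraMap_eq_apply_of_trivial h htriv hf w)
      (isUnit_of_algebraMap_notMem_nonunits (r := 2) V hV) hx σ (inertia_sub_mem_nonunits V hσ)

end Fermat.Agent.GZ.LocR.ConstOrd
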