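/-
GATE-Z (S15) / (LOC-r), node TORS-ORD, part 1 (helper92): the TWO-SET "tensor image" subalgebra.
Mathlib only.  Two-set twin of helper32's `GH/Ord/Tens.lean`.

For subalgebras `𝓗₁ ⊆ (X₁ → K)` and `𝓗₂ ⊆ (X₂ → K)` of functions, `tens2 𝓗₁ 𝓗₂` is the subalgebra of
functions on `X₁ × X₂` of the form `(x, y) ↦ Σ a_i x * b_i y` with `a_i ∈ 𝓗₁`, `b_i ∈ 𝓗₂` (the image of
`𝓗₁ ⊗ 𝓗₂`).  The COACTION of a torsor order is `f ∘ (+ᵥ) ∈ tens2 𝓗_M 𝓗_X`, the DIFFERENCE is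
`f ∘ (-ᵥ) ∈ tens2 𝓗_X 𝓗_X`; both may be checked on algebra generators
(`comp_mem_tens2_of_generators`).
-/
import Mathlib

set_option autoImplicit false

namespace Fermat.Agent.GZ.LocR

variable {A : Type*} [CommRing A] {K : Type*} [CommRing K] [Algebra A K] {X₁ X₂ Y : Type*}

/-- `φ (x, y) = Σ a_i x * b_i y` with `a_i ∈ 𝓗₁`, `b_i ∈ 𝓗₂`. -/
def IsTens2 (𝓗₁ : Subalgebra A (X₁ → K)) (𝓗₂ : Subalgebra A (X₂ → K)) (φ : X₁ × X₂ → K) : Prop :=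
  ∃ (ι : Type) (_ : Fintype ι) (a : ι → (X₁ → K)) (b : ι → (X₂ → K)),
    (∀ i, a i ∈ 𝓗₁) ∧ (∀ i, b i ∈ 𝓗₂) ∧ ∀ x y, φ (x, y) = ∑ i, a i x * b i y

theorem IsTens2.of_algebraMap (𝓗₁ : Subalgebra A (X₁ → K)) (𝓗₂ : Subalgebra A (X₂ → K)) (r : A) :
    IsTens2 𝓗₁ 𝓗₂ (algebraMap A (X₁ × X₂ → K) r) :=
  ⟨PUnit, inferInstance, fun _ => algebraMap A (X₁ → K) r, fun _ => 1,
    fun _ => 𝓗₁.algebraMap_mem r, fun _ => 𝓗₂.one_mem, fun _ _ => by simp [Pi.algebraMap_apply]⟩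

theorem IsTens2.add {𝓗₁ : Subalgebra A (X₁ → K)} {𝓗₂ : Subalgebra A (X₂ → K)}
    {φ ψ : X₁ × X₂ → K} (hφ : IsTens2 𝓗₁ 𝓗₂ φ) (hψ : IsTens2 𝓗₁ 𝓗₂ ψ) :
    IsTens2 𝓗₁ 𝓗₂ (φ + ψ) := by
  obtain ⟨ι, _, a, b, ha, hb, h⟩ := hφ
  obtain ⟨ι', _, a', b', ha', hb', h'⟩ := hψ
  refine ⟨ι ⊕ ι', inferInstance, Sum.elim a a', Sum.elim b b', ?_, ?_, fun x y => ?_⟩
  · rintro (i | i)
    · exact ha i
    · exact ha' i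
  · rintro (i | i)
    · exact hb i
    · exact hb' i
  · rw [Pi.add_apply, h, h', Fintype.sum_sum_type]
    rfl

theorem IsTens2.mul {𝓗₁ : Subalgebra A (X₁ → K)} {𝓗₂ : Subalgebra A (X₂ → K)}
    {φ ψ : X₁ × X₂ → K} (hφ : IsTens2 𝓗₁ 𝓗₂ φ) (hψ : IsTens2 𝓗₁ 𝓗₂ ψ) :
    IsTens2 𝓗₁ 𝓗₂ (φ * ψ) := by
  obtain ⟨ι, _, a, b, ha, hb, h⟩ := hφ
  obtain ⟨ι', _, a', b', ha', hb', h'⟩ := hψ
  refine ⟨ι × ι', inferInstance, fun p => a p.1 * a' p.2, fun p => b p.1 * b' p.2,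
    fun p => 𝓗₁.mul_mem (ha p.1) (ha' p.2), fun p => 𝓗₂.mul_mem (hb p.1) (hb' p.2), fun x y => ?_⟩
  rw [Pi.mul_apply, h, h', Finset.sum_mul_sum, Fintype.sum_prod_type]
  refine Finset.sum_congr rfl fun i _ => Finset.sum_congr rfl fun j _ => ?_
  simp only [Pi.mul_apply]
  ring

/-- the image of `𝓗₁ ⊗ 𝓗₂` in the functions on `X₁ × X₂`. -/
def tens2 (𝓗₁ : Subalgebra A (X₁ → K)) (𝓗₂ : Subalgebra A (X₂ → K)) :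
    Subalgebra A (X₁ × X₂ → K) where
  carrier := {φ | IsTens2 𝓗₁ 𝓗₂ φ}
  mul_mem' := IsTens2.mul
  add_mem' := IsTens2.add
  algebraMap_mem' := IsTens2.of_algebraMap 𝓗₁ 𝓗₂

theorem mem_tens2 {𝓗₁ : Subalgebra A (X₁ → K)} {𝓗₂ : Subalgebra A (X₂ → K)} {φ : X₁ × X₂ → K} :
    φ ∈ tens2 𝓗₁ 𝓗₂ ↔ IsTens2 𝓗₁ 𝓗₂ φ := Iff.rfl

theorem comp_fst_mem_tens2 {𝓗₁ : Subalgebra A (X₁ → K)} (𝓗₂ : Subalgebra A (X₂ → K))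
    {f : X₁ → K} (hf : f ∈ 𝓗₁) : (fun p : X₁ × X₂ => f p.1) ∈ tens2 𝓗₁ 𝓗₂ :=
  ⟨PUnit, inferInstance, fun _ => f, fun _ => 1, fun _ => hf, fun _ => 𝓗₂.one_mem,
    fun _ _ => by simp⟩

theorem comp_snd_mem_tens2 (𝓗₁ : Subalgebra A (X₁ → K)) {𝓗₂ : Subalgebra A (X₂ → K)}
    {f : X₂ → K} (hf : f ∈ 𝓗₂) : (fun p : X₁ × X₂ => f p.2) ∈ tens2 𝓗₁ 𝓗₂ :=
  ⟨PUnit, inferInstance, fun _ => 1, fun _ => f, fun _ => 𝓗₁.one_mem, fun _ => hf,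
    fun _ _ => by simp⟩

theorem tens2_mono {𝓗₁ 𝓗₁' : Subalgebra A (X₁ → K)} {𝓗₂ 𝓗₂' : Subalgebra A (X₂ → K)}
    (h₁ : 𝓗₁ ≤ 𝓗₁') (h₂ : 𝓗₂ ≤ 𝓗₂') : tens2 𝓗₁ 𝓗₂ ≤ tens2 𝓗₁' 𝓗₂' := by
  rintro φ ⟨ι, hι, a, b, ha, hb, h⟩
  exact ⟨ι, hι, a, b, fun i => h₁ (ha i), fun i => h₂ (hb i), h⟩

/-- the `Fin`-indexed form of membership in `tens2` (the shape consumed by the descent node). -/
theorem exists_fin_of_mem_tens2 {𝓗₁ : Subalgebra A (X₁ → K)} {𝓗₂ : Subalgebra A (X₂ → K)}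
    {φ : X₁ × X₂ → K} (hφ : φ ∈ tens2 𝓗₁ 𝓗₂) :
    ∃ (m : ℕ) (a : Fin m → (X₁ → K)) (b : Fin m → (X₂ → K)), (∀ i, a i ∈ 𝓗₁) ∧ (∀ i, b i ∈ 𝓗₂) ∧
      ∀ x y, φ (x, y) = ∑ i, a i x * b i y := by
  obtain ⟨ι, _, a, b, ha, hb, h⟩ := hφ
  refine ⟨Fintype.card ι, fun i => a ((Fintype.equivFin ι).symm i),
    fun i => b ((Fintype.equivFin ι).symm i), fun i => ha _, fun i => hb _, fun x y => ?_⟩
  rw [h]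
  exact (Fintype.sum_equiv (Fintype.equivFin ι).symm _ _ fun i => rfl).symm

/-- membership from a `Fin`-indexed presentation. -/
theorem mem_tens2_of_fin {𝓗₁ : Subalgebra A (X₁ → K)} {𝓗₂ : Subalgebra A (X₂ → K)}
    {φ : X₁ × X₂ → K} {m : ℕ} (a : Fin m → (X₁ → K)) (b : Fin m → (X₂ → K))
    (ha : ∀ i, a i ∈ 𝓗₁) (hb : ∀ i, b i ∈ 𝓗₂) (h : ∀ x y, φ (x, y) = ∑ i, a i x * b i y) :
    φ ∈ tens2 𝓗₁ 𝓗₂ :=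
  ⟨Fin m, inferInstance, a, b, ha, hb, h⟩

/-- **closure under a map `μ : X₁ × X₂ → Y` may be checked on generators.** -/
theorem comp_mem_tens2_of_generators (μ : X₁ × X₂ → Y) (𝓖 : Set (Y → K))
    (𝓗₁ : Subalgebra A (X₁ → K)) (𝓗₂ : Subalgebra A (X₂ → K))
    (h : ∀ f ∈ 𝓖, (fun p : X₁ × X₂ => f (μ p)) ∈ tens2 𝓗₁ 𝓗₂) :
    ∀ f ∈ Algebra.adjoin A 𝓖, (fun p : X₁ × X₂ => f (μ p)) ∈ tens2 𝓗₁ 𝓗₂ := by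
  intro f hf
  induction hf using Algebra.adjoin_induction with
  | mem f hf => exact h f hf
  | algebraMap r => exact (tens2 𝓗₁ 𝓗₂).algebraMap_mem r
  | add f f' _ _ hf hf' => exact (tens2 𝓗₁ 𝓗₂).add_mem hf hf'
  | mul f f' _ _ hf hf' => exact (tens2 𝓗₁ 𝓗₂).mul_mem hf hf'

/-- swapping the two factors. -/
theorem comp_swap_mem_tens2 {𝓗₁ : Subalgebra A (X₁ → K)} {𝓗₂ : Subalgebra A (X₂ → K)}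
    {φ : X₁ × X₂ → K} (hφ : φ ∈ tens2 𝓗₁ 𝓗₂) :
    (fun p : X₂ × X₁ => φ (p.2, p.1)) ∈ tens2 𝓗₂ 𝓗₁ := by
  obtain ⟨ι, hι, a, b, ha, hb, h⟩ := hφ
  refine ⟨ι, hι, b, a, hb, ha, fun x y => ?_⟩
  show φ (y, x) = _
  rw [h]
  exact Finset.sum_congr rfl fun i _ => mul_comm _ _

end Fermat.Agent.GZ.LocR
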