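/-
GATE-Z (S15) / (LOC-r), node N1-TWIN, part 1 (helper92): **the descent theorem for TORSOR orders**
— two-set twin of helper71's `GH/N1/Descent.lean` (`exists_comul_coeff`, `exists_order`).

Setting of `GH/N1/Descent`: `K ⊇ ℚ` a field, `G` acting on `K` with `K^G = ℚ`, `I, D ≤ G`,
`W ⊆ K` (W1)–(W5); a `W`-order `HO` of `I`-equivariant functions on a finite `G`-set
(`OrderHyp ℓ I D W HO`, no group structure needed) with `BoundHyp`.

* `exists_bimap_coeff` : for finite `G`-sets `X₁, X₂, Y`, a `G`-equivariant map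
  `μ : X₁ × X₂ → Y`, bases `h₁, h₂` of the orders on `X₁, X₂` (as delivered by
  `OrderHyp.exists_basis_of_order`) and a `G`-equivariant `f` on `Y` with
  `f ∘ μ = Σ a_i ⊗ b_i`, `a_i ∈ A'·HO₁`, `b_i ∈ A'·HO₂` (`A' ⊇ W`, `A' ∩ ℚ ⊆ ℤ_(ℓ)`):
  `f (μ (x, y)) = Σ_{j,k} C j k * h₁ j x * h₂ k y` with `C j k ∈ ℤ_(ℓ)`.
  (`μ = +` on `M` : `exists_comul_coeff`;  `μ = +ᵥ` : the COACTION;  `μ = -ᵥ` : the DIFFERENCE.)
* `descentAlgebraX hyp` : the `ℤ_(ℓ)`-algebra `HO ∩ Map_G(X, K)` for a `G`-SET `X`.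
* `isStableTorsorOrder_descent` : for a finite `G`-module `M`, a finite `M`-torsor `X` with a
  compatible `G`-action, `W`-orders `HOM`, `HOX` with coaction and difference over `A'`:
  `IsStableTorsorOrder (σ • ·) hypM.descentAlgebra (descentAlgebraX hypX)`.
-/
import Mathlib
import Fermat.Agent.GH.N1.Descent
import Fermat.Agent.GZ.LocR.TorsVocab

set_option autoImplicit false
set_option linter.unusedSectionVars false

open scoped BigOperators
open GaloisRep Fermat.Agent.GH.N1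

namespace Fermat.Agent.GZ.LocR.Descent

section BiMap

variable {K : Type*} [Field K] [Algebra ℚ K] {G : Type*} [Group G] [MulSemiringAction G K]
variable {X₁ X₂ Y : Type*} [MulAction G X₁] [MulAction G X₂] [MulAction G Y]
variable {ℓ : ℕ} {W : Subring K} {HO₁ : Subring (X₁ → K)} {HO₂ : Subring (X₂ → K)}

/-- `A'`-coefficients of the `A'`-span of an order with a `W`-basis. -/
theorem exists_coeff_of_mem_span {X : Type*} {HO : Subring (X → K)} {n : ℕ} (h : Fin n → X → K)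
    (hWgen : ∀ f ∈ HO, ∃ c : Fin n → K, (∀ i, c i ∈ W) ∧ f = ∑ i, c i • h i)
    (A' : Subring K) (hWA : W ≤ A') :
    ∀ v ∈ Submodule.span A' (HO : Set (X → K)),
      ∃ c : Fin n → K, (∀ i, c i ∈ A') ∧ v = ∑ i, c i • h i := by
  intro v hv
  induction hv using Submodule.span_induction with
  | mem v hv =>
    obtain ⟨c, hc, hvc⟩ := hWgen v hv
    exact ⟨c, fun i => hWA (hc i), hvc⟩
  | zero => exact ⟨fun _ => 0, fun _ => A'.zero_mem, by simp⟩
  | add u v _ _ hu hv =>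
    obtain ⟨c, hc, rfl⟩ := hu
    obtain ⟨d, hd, rfl⟩ := hv
    exact ⟨fun i => c i + d i, fun i => A'.add_mem (hc i) (hd i), by
      simp only [add_smul, Finset.sum_add_distrib]⟩
  | smul r v _ hv =>
    obtain ⟨c, hc, rfl⟩ := hv
    refine ⟨fun i => (r : K) * c i, fun i => A'.mul_mem r.2 (hc i), ?_⟩
    rw [Finset.smul_sum]
    refine Finset.sum_congr rfl fun i _ => ?_
    rw [mul_smul]
    rfl

/-- **the structure constants of an equivariant bi-map are in `ℤ_(ℓ)`.** -/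
theorem exists_bimap_coeff
    (hfix : ∀ a : K, (∀ σ : G, σ • a = a) → ∃ q : ℚ, algebraMap ℚ K q = a)
    {n₁ : ℕ} (h₁ : Fin n₁ → X₁ → K) (hh₁e : ∀ i, IsEquivar (⊤ : Subgroup G) (h₁ i))
    (hli₁ : LinearIndependent K h₁)
    (hWgen₁ : ∀ f ∈ HO₁, ∃ c : Fin n₁ → K, (∀ i, c i ∈ W) ∧ f = ∑ i, c i • h₁ i)
    {n₂ : ℕ} (h₂ : Fin n₂ → X₂ → K) (hh₂e : ∀ i, IsEquivar (⊤ : Subgroup G) (h₂ i))
    (hli₂ : LinearIndependent K h₂)
    (hWgen₂ : ∀ f ∈ HO₂, ∃ c : Fin n₂ → K, (∀ i, c i ∈ W) ∧ f = ∑ i, c i • h₂ i)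
    (A' : Subring K) (hWA : W ≤ A')
    (hA'ℚ : ∀ q : ℚ, algebraMap ℚ K q ∈ A' → q ∈ ratLocalizedAt ℓ)
    (μ : X₁ × X₂ → Y) (hμ : ∀ (σ : G) (x : X₁) (y : X₂), μ (σ • x, σ • y) = σ • μ (x, y))
    {f : Y → K} (hfe : IsEquivar (⊤ : Subgroup G) f) {m : ℕ} (a : Fin m → X₁ → K)
    (b : Fin m → X₂ → K)
    (ha : ∀ i, a i ∈ Submodule.span A' (HO₁ : Set (X₁ → K)))
    (hb : ∀ i, b i ∈ Submodule.span A' (HO₂ : Set (X₂ → K)))
    (hab : ∀ x y, f (μ (x, y)) = ∑ i, a i x * b i y) :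
    ∃ C : Fin n₁ → Fin n₂ → ℚ, (∀ j k, C j k ∈ ratLocalizedAt ℓ) ∧
      ∀ x y, f (μ (x, y)) = ∑ j, ∑ k, algebraMap ℚ K (C j k) * h₁ j x * h₂ k y := by
  classical
  choose α hα hαa using fun i => exists_coeff_of_mem_span h₁ hWgen₁ A' hWA (a i) (ha i)
  choose β hβ hβb using fun i => exists_coeff_of_mem_span h₂ hWgen₂ A' hWA (b i) (hb i)
  set C : Fin n₁ × Fin n₂ → K := fun q => ∑ i, α i q.1 * β i q.2 with hC
  have hCA : ∀ q, C q ∈ A' := fun q =>
    A'.sum_mem fun i _ => A'.mul_mem (hα i q.1) (hβ i q.2)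
  set T : Fin n₁ × Fin n₂ → X₁ × X₂ → K := fun q z => h₁ q.1 z.1 * h₂ q.2 z.2 with hT
  have hfC : ∀ x y, f (μ (x, y)) = ∑ q, C q * T q (x, y) := by
    intro x y
    rw [hab x y]
    simp only [hC, hT, hαa, hβb, Finset.sum_apply, Pi.smul_apply, smul_eq_mul]
    have hR : ∀ q : Fin n₁ × Fin n₂, (∑ i, α i q.1 * β i q.2) * (h₁ q.1 x * h₂ q.2 y) =
        ∑ i, α i q.1 * β i q.2 * (h₁ q.1 x * h₂ q.2 y) := fun q => Finset.sum_mul _ _ _
    rw [Finset.sum_congr rfl fun q _ => hR q, Finset.sum_comm]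
    refine Finset.sum_congr rfl fun i _ => ?_
    rw [Finset.sum_mul_sum, Fintype.sum_prod_type]
    refine Finset.sum_congr rfl fun j _ => Finset.sum_congr rfl fun k _ => ?_
    ring
  -- the coefficients are fixed by `G`
  have hTe : ∀ q, IsEquivar (⊤ : Subgroup G) (T q) := by
    intro q σ hσ z
    simp only [hT, Prod.smul_fst, Prod.smul_snd, smul_mul', hh₁e q.1 σ hσ, hh₂e q.2 σ hσ]
  have hTli : LinearIndependent K T := linearIndependent_tensor h₁ h₂ hli₁ hli₂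
  have hFe : IsEquivar (⊤ : Subgroup G) (∑ q ∈ Finset.univ, C q • T q) := by
    have h1 : (∑ q ∈ Finset.univ, C q • T q) = fun z : X₁ × X₂ => f (μ z) := by
      funext z
      rw [show z = (z.1, z.2) from rfl, hfC z.1 z.2]
      simp only [Finset.sum_apply, Pi.smul_apply, smul_eq_mul]
    rw [h1]
    intro σ hσ z
    show f (μ (σ • z.1, σ • z.2)) = σ • f (μ z)
    rw [hμ σ z.1 z.2]
    exact hfe σ hσ _
  have hCfix : ∀ q, ∀ σ : G, σ • C q = C q := fun q σ =>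
    smul_coeff_eq_of_equivariant Finset.univ T hTe hTli C hFe (Subgroup.mem_top σ)
      (Finset.mem_univ q)
  choose c hc using fun q => hfix (C q) (hCfix q)
  refine ⟨fun j k => c (j, k), fun j k => hA'ℚ _ (by rw [hc]; exact hCA _), fun x y => ?_⟩
  rw [hfC x y, Fintype.sum_prod_type]
  refine Finset.sum_congr rfl fun j _ => Finset.sum_congr rfl fun k _ => ?_
  rw [hc, mul_assoc]

end BiMap

section SetOrder

variable {K : Type*} [Field K] [Algebra ℚ K] {G : Type*} [Group G] [MulSemiringAction G K]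
variable {X : Type*} [MulAction G X]
variable {ℓ : ℕ} [hℓ : Fact ℓ.Prime] {I D : Subgroup G} {W : Subring K} {HO : Subring (X → K)}
variable [Finite X]

/-- the `ℤ_(ℓ)`-subalgebra `HO ∩ Map_G(X, K)` for a `G`-set `X`. -/
def descentAlgebraX (hyp : OrderHyp ℓ I D W HO) : Subalgebra (ratLocalizedAt ℓ) (X → K) where
  carrier := {f | f ∈ HO ∧ IsEquivar (⊤ : Subgroup G) f}
  mul_mem' := fun hf hg => ⟨HO.mul_mem hf.1 hg.1, hf.2.mul hg.2⟩
  one_mem' := ⟨HO.one_mem, isEquivar_one _⟩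
  add_mem' := fun hf hg => ⟨HO.add_mem hf.1 hg.1, hf.2.add hg.2⟩
  zero_mem' := ⟨HO.zero_mem, isEquivar_zero _⟩
  algebraMap_mem' := fun r => by
    rw [Algebra.algebraMap_eq_smul_one]
    exact hyp.descentSubmodule.smul_mem r ⟨HO.one_mem, isEquivar_one _⟩

theorem mem_descentAlgebraX (hyp : OrderHyp ℓ I D W HO) (f : X → K) :
    f ∈ descentAlgebraX hyp ↔ f ∈ HO ∧ IsEquivar (⊤ : Subgroup G) f := Iff.rfl

/-- finiteness of the descent algebra. -/
theorem descentAlgebraX_finite (hyp : OrderHyp ℓ I D W HO) (hb : BoundHyp G ℓ HO) :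
    Module.Finite (ratLocalizedAt ℓ) (descentAlgebraX hyp) := by
  obtain ⟨T, hTfg, hT⟩ := hb
  have hle : hyp.descentSubmodule ≤ T := fun f hf => hT f hf.1 hf.2
  have hfg : hyp.descentSubmodule.FG := hTfg.of_le hle
  exact Module.Finite.iff_fg.2 hfg

/-- the descent algebra separates the points. -/
theorem descentAlgebraX_separates (hyp : OrderHyp ℓ I D W HO) {n : ℕ} (h : Fin n → X → K)
    (hh : ∀ i, h i ∈ HO) (hhe : ∀ i, IsEquivar (⊤ : Subgroup G) (h i))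
    (hspan : Submodule.span K (Set.range h) = ⊤) :
    ∀ x y : X, x ≠ y → ∃ f ∈ descentAlgebraX hyp, f x ≠ f y := by
  classical
  intro x y hxy
  by_contra hcon
  have hall : ∀ j, h j x = h j y := by
    intro j
    by_contra hj
    exact hcon ⟨h j, ⟨hh j, hhe j⟩, hj⟩
  obtain ⟨c, hc⟩ := exists_coeff_of_span_eq_top h hspan (Pi.single x (1 : K))
  have h1 := congrFun hc x
  have h2 := congrFun hc y
  simp only [Finset.sum_apply, Pi.smul_apply, smul_eq_mul, Pi.single_eq_same] at h1 h2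
  rw [Pi.single_eq_of_ne (Ne.symm hxy)] at h2
  rw [Finset.sum_congr rfl fun j _ => by rw [hall j]] at h1
  rw [← h2] at h1
  exact one_ne_zero h1

end SetOrder

section Torsor

variable {K : Type*} [Field K] [Algebra ℚ K] {G : Type*} [Group G] [MulSemiringAction G K]
variable {M : Type*} [AddCommGroup M] [Finite M] [DistribMulAction G M]
variable {X : Type*} [AddTorsor M X] [Finite X] [MulAction G X]
variable {ℓ : ℕ} [hℓ : Fact ℓ.Prime] {I D : Subgroup G} {W : Subring K}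
  {HOM : Subring (M → K)} {HOX : Subring (X → K)}

omit [Finite M] [Finite X] in
/-- the difference map is equivariant. -/
theorem smul_vsub_of_smul_vadd (hvadd : ∀ (σ : G) (m : M) (x : X), σ • (m +ᵥ x) = σ • m +ᵥ σ • x)
    (σ : G) (x x' : X) : σ • (x -ᵥ x') = σ • x -ᵥ σ • x' := by
  have h := hvadd σ (x -ᵥ x') x'
  rw [vsub_vadd] at h
  rw [h, vadd_vsub]

theorem descentAlgebra_eq (hypM : OrderHyp ℓ I D W HOM) (f : M → K) :
    f ∈ hypM.descentAlgebra ↔ f ∈ HOM ∧ IsEquivar (⊤ : Subgroup G) f := Iff.rfl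

/-- **N1-TWIN (main theorem).**  `W`-orders `HOM` on the group and `HOX` on the torsor, with
COACTION and DIFFERENCE over an overring `A' ⊇ W`, `A' ∩ ℚ ⊆ ℤ_(ℓ)`: the `ℤ_(ℓ)`-algebras of
`G`-equivariant elements form a torsor order. -/
theorem isStableTorsorOrder_descent
    (hvadd : ∀ (σ : G) (m : M) (x : X), σ • (m +ᵥ x) = σ • m +ᵥ σ • x)
    (hypM : OrderHyp ℓ I D W HOM) (hbM : BoundHyp G ℓ HOM)
    (hypX : OrderHyp ℓ I D W HOX) (hbX : BoundHyp G ℓ HOX)
    (A' : Subring K) (hWA : W ≤ A')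
    (hA'ℚ : ∀ q : ℚ, algebraMap ℚ K q ∈ A' → q ∈ ratLocalizedAt ℓ)
    (hcoact : ∀ f ∈ HOX, IsEquivar (⊤ : Subgroup G) f →
      ∃ (m : ℕ) (a : Fin m → M → K) (b : Fin m → X → K),
        (∀ i, a i ∈ Submodule.span A' (HOM : Set (M → K))) ∧
        (∀ i, b i ∈ Submodule.span A' (HOX : Set (X → K))) ∧
        ∀ (y : M) (x : X), f (y +ᵥ x) = ∑ i, a i y * b i x)
    (hdiff : ∀ f ∈ HOM, IsEquivar (⊤ : Subgroup G) f →
      ∃ (m : ℕ) (a b : Fin m → X → K),
        (∀ i, a i ∈ Submodule.span A' (HOX : Set (X → K))) ∧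
        (∀ i, b i ∈ Submodule.span A' (HOX : Set (X → K))) ∧
        ∀ x x' : X, f (x -ᵥ x') = ∑ i, a i x * b i x') :
    IsStableTorsorOrder (fun (σ : G) (x : X) => σ • x) hypM.descentAlgebra
      (descentAlgebraX hypX) := by
  classical
  obtain ⟨nM, hM, hhM, hhMe, hliM, hspanM, hWgenM, hgenM⟩ := hypM.exists_basis_of_order hbM
  obtain ⟨nX, hX, hhX, hhXe, hliX, hspanX, hWgenX, hgenX⟩ := hypX.exists_basis_of_order hbX
  have hmemM : ∀ (q : ℚ), q ∈ ratLocalizedAt ℓ → ∀ j,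
      algebraMap ℚ K q • hM j ∈ hypM.descentAlgebra := fun q hq j =>
    ⟨hypM.smul_rat_mem hq (hhM j), (hhMe j).smul_fixed fun σ _ => smul_algebraMap_rat σ _⟩
  have hmemX : ∀ (q : ℚ), q ∈ ratLocalizedAt ℓ → ∀ j,
      algebraMap ℚ K q • hX j ∈ descentAlgebraX hypX := fun q hq j =>
    ⟨hypX.smul_rat_mem hq (hhX j), (hhXe j).smul_fixed fun σ _ => smul_algebraMap_rat σ _⟩
  refine ⟨?_, descentAlgebraX_finite hypX hbX,
    descentAlgebraX_separates hypX hX hhX hhXe hspanX, ?_, ?_⟩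
  · -- equivariance
    intro f hf σ x
    exact hf.2 σ (Subgroup.mem_top σ) x
  · -- coaction
    rintro f ⟨hf, hfe⟩
    obtain ⟨m, a, b, ha, hb', hab⟩ := hcoact f hf hfe
    obtain ⟨C, hC, hfC⟩ := exists_bimap_coeff hypM.hfix hM hhMe hliM hWgenM hX hhXe hliX hWgenX
      A' hWA hA'ℚ (fun p : M × X => p.1 +ᵥ p.2) (fun σ y x => (hvadd σ y x).symm) hfe a b ha hb'
      hab
    refine ⟨nM * nX,
      fun i => ⟨_, hmemM _ (hC (finProdFinEquiv.symm i).1 (finProdFinEquiv.symm i).2)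
        (finProdFinEquiv.symm i).1⟩,
      fun i => ⟨hX (finProdFinEquiv.symm i).2, hhX _, hhXe _⟩, fun y x => ?_⟩
    have := hfC y x
    simp only at this
    rw [this, ← Fintype.sum_prod_type
      (f := fun q : Fin nM × Fin nX => algebraMap ℚ K (C q.1 q.2) * hM q.1 y * hX q.2 x),
      ← finProdFinEquiv.symm.sum_comp]
    rfl
  · -- difference
    rintro f ⟨hf, hfe⟩
    obtain ⟨m, a, b, ha, hb', hab⟩ := hdiff f hf hfe
    obtain ⟨C, hC, hfC⟩ := exists_bimap_coeff hypM.hfix hX hhXe hliX hWgenX hX hhXe hliX hWgenX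
      A' hWA hA'ℚ (fun p : X × X => p.1 -ᵥ p.2)
      (fun σ x x' => (smul_vsub_of_smul_vadd hvadd σ x x').symm) hfe a b ha hb' hab
    refine ⟨nX * nX,
      fun i => ⟨_, hmemX _ (hC (finProdFinEquiv.symm i).1 (finProdFinEquiv.symm i).2)
        (finProdFinEquiv.symm i).1⟩,
      fun i => ⟨hX (finProdFinEquiv.symm i).2, hhX _, hhXe _⟩, fun x x' => ?_⟩
    have := hfC x x'
    simp only at this
    rw [this, ← Fintype.sum_prod_type
      (f := fun q : Fin nX × Fin nX => algebraMap ℚ K (C q.1 q.2) * hX q.1 x * hX q.2 x'),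
      ← finProdFinEquiv.symm.sum_comp]
    rfl

end Torsor

end Fermat.Agent.GZ.LocR.Descent
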