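/-
GATE-Z (S15) / (LOC-r), node N1-TWIN, part 2 (helper92): **the descent node for TORSORS in the frozen
frame** — two-set twin of helper24's `GH/N1Inst/Main.exists_order_of_generators`.

Input = the conclusion of `GZ/LocR/TorsPlug.tors_core_asm` (+ `GH.core_asm` for the group side):
generator families `𝓖M` on a finite `G_ℚ`-module `M` and `𝓖X` on a finite `M`-torsor `X` with a
compatible `G_ℚ`-action, both `A`-valued, `I_A`-equivariant, `D_A`-stable, separating, with `Δ` on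
`𝓖M`, COACTION on `𝓖X` and DIFFERENCE on `𝓖M`, all with coefficients in `A[𝓖M]`, `A[𝓖X]`; finite level
of both actions.  Output: `HM := W[𝓖M] ∩ Map_{G_ℚ}(M, ℚ̄)`, `HX := W[𝓖X] ∩ Map_{G_ℚ}(X, ℚ̄)`
(`W = A ∩ ℚ̄^{I_A}`) form an `IsTorsorOrderPair ℚ actM actX HM HX` over `ℤ_(ℓ)`.

* `orderHyp_of_generators` : `OrderHyp` + `BoundHyp` for a generator family on a finite `G_ℚ`-SET
  (no group structure) — the first half of `exists_order_of_generators`, exported;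
* `exists_torsor_order_of_generators` : the theorem above.
-/
import Mathlib
import Fermat.Agent.GH.N1Inst.Main
import Fermat.Agent.GH.N0.OrderQb
import Fermat.Agent.GZ.LocR.TorsDescent
import Fermat.Agent.GZ.LocR.Tens2

set_option autoImplicit false
set_option linter.unusedSectionVars false
set_option linter.style.haveILetI false

open scoped Pointwise
open Fermat.Agent.Common_helper32 Fermat.Agent.GH.N1 Fermat.Agent.GH.N1Inst Fermat.Agent.GH
  Fermat.Agent.GZ.LocR.Descent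

namespace Fermat.Agent.GZ.LocR.N1Inst

/-- the `MulAction` given by an action by maps. -/
@[reducible] def maOfAct {X : Type*} (act : GQ → X → X) (hone : ∀ x, act 1 x = x)
    (hmul : ∀ σ τ x, act (σ * τ) x = act σ (act τ x)) : MulAction GQ X where
  smul σ x := act σ x
  one_smul := hone
  mul_smul := hmul

section SetHyp

variable {X : Type*} [Finite X] (A : ValuationSubring Qb) (𝓖 : Set (X → Qb))
variable {ℓ : ℕ} [hℓ : Fact ℓ.Prime]

/-- **`OrderHyp` and `BoundHyp` for a generator family on a finite `G_ℚ`-set.** -/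
theorem orderHyp_of_generators (act : GQ → X → X) (hone : ∀ x, act 1 x = x)
    (hmul : ∀ σ τ x, act (σ * τ) x = act σ (act τ x))
    (hlev : ∃ U : Subgroup GQ, IsOpen (U : Set GQ) ∧ ∀ σ ∈ U, ∀ x, act σ x = x)
    (hA : (ℓ : Qb) ∈ A.nonunits)
    (hval : ∀ f ∈ 𝓖, ∀ x, f x ∈ A)
    (hI : ∀ f ∈ 𝓖, ∀ τ ∈ A.inertiaSubgroupIn ℚ, ∀ x, f (act τ x) = τ (f x))
    (hD : ∀ f ∈ 𝓖, ∀ σ ∈ A.decompositionSubgroup ℚ, (fun x => σ (f (act σ⁻¹ x))) ∈ 𝓖)
    (hsep : ∀ x y : X, x ≠ y → ∃ f ∈ 𝓖, f x ≠ f y) :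
    letI : MulAction GQ X := maOfAct act hone hmul
    OrderHyp (G := GQ) ℓ (A.inertiaSubgroupIn ℚ) (A.decompositionSubgroup ℚ) (wRing A)
      (orderW A 𝓖) ∧ BoundHyp GQ ℓ (orderW A 𝓖) := by
  classical
  letI : MulAction GQ X := maOfAct act hone hmul
  have hℓp : ℓ.Prime := hℓ.out
  set I := A.inertiaSubgroupIn ℚ with hIdef
  set D := A.decompositionSubgroup ℚ with hDdef
  have hH3 : ∀ f ∈ orderW A 𝓖, IsEquivar I f := by
    intro f hf
    rw [mem_orderW_iff] at hf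
    induction hf using Algebra.adjoin_induction with
    | mem f hf => exact fun τ hτ x => hI f hf τ hτ x
    | algebraMap r =>
      intro τ hτ x
      exact (wRing_W2 A r.2 hτ).symm
    | add f g _ _ hf hg => exact hf.add hg
    | mul f g _ _ hf hg => exact hf.mul hg
  have hH4 : ∀ f ∈ orderW A 𝓖, ∀ σ ∈ D, conjFun σ f ∈ orderW A 𝓖 := by
    intro f hf σ hσ
    rw [mem_orderW_iff] at hf ⊢
    induction hf using Algebra.adjoin_induction with
    | mem f hf => exact Algebra.subset_adjoin (hD f hf σ hσ)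
    | algebraMap r =>
      have h1 : conjFun σ (algebraMap (wRing A) (X → Qb) r) =
          algebraMap (wRing A) (X → Qb) ⟨σ (r : Qb), wRing_W4 A hσ r.2⟩ := by
        funext x
        rfl
      rw [h1]
      exact Subalgebra.algebraMap_mem _ _
    | add f g _ _ hf hg =>
      have h1 : conjFun σ (f + g) = conjFun σ f + conjFun σ g := by
        funext x
        simp only [conjFun, Pi.add_apply, smul_add]
      rw [h1]
      exact Subalgebra.add_mem _ hf hg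
    | mul f g _ _ hf hg =>
      have h1 : conjFun σ (f * g) = conjFun σ f * conjFun σ g := by
        funext x
        simp only [conjFun, Pi.mul_apply, smul_mul']
      rw [h1]
      exact Subalgebra.mul_mem _ hf hg
  have hyp : OrderHyp (G := GQ) ℓ I D (wRing A) (orderW A 𝓖) :=
    { hfix := fun a h => hfix_Qb a h
      hW1 := fun q => wRing_W1 A hℓp hA q
      hW2 := fun a h => wRing_W2' A hℓp hA a h
      hW3 := fun w hw hnd => wRing_W3 A hℓp hA hw hnd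
      hW4 := fun σ hσ w hw => wRing_W4 A hσ hw
      hW5 := fun w hw h => wRing_W5 A hℓp hA hw h
      hH1 := by
        intro w hw f hf
        rw [mem_orderW_iff] at hf ⊢
        exact Subalgebra.smul_mem _ hf (⟨w, hw⟩ : wRing A)
      hH3 := hH3
      hH4 := hH4
      hH5 := fun x y hxy => by
        obtain ⟨f, hf, hfxy⟩ := hsep x y hxy
        exact ⟨f, subset_orderW A 𝓖 hf, hfxy⟩
      hSEP := fun x y hxy => by
        obtain ⟨f, hfe, hfxy⟩ := exists_equivariant_sep act hone hmul hlev hxy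
        exact ⟨f, fun σ _ z => hfe σ z, hfxy⟩ }
  have hAQ : ∀ q : ℚ, algebraMap ℚ Qb q ∈ A.toSubring → q ∈ GaloisRep.ratLocalizedAt ℓ := by
    intro q hq
    exact (wRing_W1 A hℓp hA q).1 ⟨hq, fun σ _ => algebraMap_rat_fixed q σ⟩
  have hpole : ∀ a : Qb, ∃ c : ℕ, (ℓ : Qb) ^ c * a ∈ A.toSubring := by
    intro a
    by_cases ha : a = 0
    · exact ⟨0, by rw [ha, mul_zero]; exact A.zero_mem⟩
    obtain ⟨n, hn⟩ := Fermat.Agent.GJ.AuxL.RankOneA.exists_pow_div_mem A hℓp hA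
      ((A.mem_nonunits_iff).1 hA) (inv_ne_zero ha)
    refine ⟨n, ?_⟩
    rw [div_inv_eq_mul] at hn
    exact hn
  have hb : BoundHyp GQ ℓ (orderW A 𝓖) :=
    hyp.boundHyp_of_values A.toSubring hAQ hpole
      (fun f hf _ x => orderW_val A 𝓖 hval f hf x)
  exact ⟨hyp, hb⟩

end SetHyp

section Torsor

variable {M : Type*} [AddCommGroup M] [Finite M] {X : Type*} [AddTorsor M X] [Finite X]
variable (A : ValuationSubring Qb) {ℓ : ℕ} [hℓ : Fact ℓ.Prime]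

/-- `A`-rational facts used twice. -/
theorem hAQ_of_nonunits (hA : (ℓ : Qb) ∈ A.nonunits) :
    ∀ q : ℚ, algebraMap ℚ Qb q ∈ A.toSubring → q ∈ GaloisRep.ratLocalizedAt ℓ := by
  intro q hq
  exact (wRing_W1 A hℓ.out hA q).1 ⟨hq, fun σ _ => algebraMap_rat_fixed q σ⟩

/-- **N1-TWIN in the frozen frame.** -/
theorem exists_torsor_order_of_generators
    (actM : GQ → M →+ M) (honeM : ∀ x, actM 1 x = x)
    (hmulM : ∀ σ τ x, actM (σ * τ) x = actM σ (actM τ x))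
    (hlevM : ∃ U : Subgroup GQ, IsOpen (U : Set GQ) ∧ ∀ σ ∈ U, ∀ x, actM σ x = x)
    (actX : GQ → X → X) (honeX : ∀ x, actX 1 x = x)
    (hmulX : ∀ σ τ x, actX (σ * τ) x = actX σ (actX τ x))
    (hlevX : ∃ U : Subgroup GQ, IsOpen (U : Set GQ) ∧ ∀ σ ∈ U, ∀ x, actX σ x = x)
    (hvadd : ∀ (σ : GQ) (m : M) (x : X), actX σ (m +ᵥ x) = actM σ m +ᵥ actX σ x)
    (hA : (ℓ : Qb) ∈ A.nonunits)
    (𝓖M : Set (M → Qb))
    (hvalM : ∀ f ∈ 𝓖M, ∀ x, f x ∈ A)
    (hIM : ∀ f ∈ 𝓖M, ∀ τ ∈ A.inertiaSubgroupIn ℚ, ∀ x, f (actM τ x) = τ (f x))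
    (hDM : ∀ f ∈ 𝓖M, ∀ σ ∈ A.decompositionSubgroup ℚ, (fun x => σ (f (actM σ⁻¹ x))) ∈ 𝓖M)
    (hsepM : ∀ x y : M, x ≠ y → ∃ f ∈ 𝓖M, f x ≠ f y)
    (hΔM : ∀ f ∈ 𝓖M, ∃ (m : ℕ) (a b : Fin m → (M → Qb)),
      (∀ i, a i ∈ Algebra.adjoin A 𝓖M) ∧ (∀ i, b i ∈ Algebra.adjoin A 𝓖M) ∧
      ∀ x y, f (x + y) = ∑ i, a i x * b i y)
    (𝓖X : Set (X → Qb))
    (hvalX : ∀ f ∈ 𝓖X, ∀ x, f x ∈ A)
    (hIX : ∀ f ∈ 𝓖X, ∀ τ ∈ A.inertiaSubgroupIn ℚ, ∀ x, f (actX τ x) = τ (f x))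
    (hDX : ∀ f ∈ 𝓖X, ∀ σ ∈ A.decompositionSubgroup ℚ, (fun x => σ (f (actX σ⁻¹ x))) ∈ 𝓖X)
    (hsepX : ∀ x y : X, x ≠ y → ∃ f ∈ 𝓖X, f x ≠ f y)
    (hcoact : ∀ f ∈ 𝓖X, ∃ (m : ℕ) (a : Fin m → (M → Qb)) (b : Fin m → (X → Qb)),
      (∀ i, a i ∈ Algebra.adjoin A 𝓖M) ∧ (∀ i, b i ∈ Algebra.adjoin A 𝓖X) ∧
      ∀ (y : M) (x : X), f (y +ᵥ x) = ∑ i, a i y * b i x)
    (hdiff : ∀ f ∈ 𝓖M, ∃ (m : ℕ) (a b : Fin m → (X → Qb)),
      (∀ i, a i ∈ Algebra.adjoin A 𝓖X) ∧ (∀ i, b i ∈ Algebra.adjoin A 𝓖X) ∧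
      ∀ x x' : X, f (x -ᵥ x') = ∑ i, a i x * b i x') :
    ∃ (HM : Subalgebra (GaloisRep.ratLocalizedAt ℓ) (M → Qb))
      (HX : Subalgebra (GaloisRep.ratLocalizedAt ℓ) (X → Qb)),
      (∀ f, f ∈ HM ↔ f ∈ Algebra.adjoin (wRing A) 𝓖M ∧ ∀ (σ : GQ) (x : M), f (actM σ x) = σ (f x)) ∧
      (∀ f, f ∈ HX ↔ f ∈ Algebra.adjoin (wRing A) 𝓖X ∧ ∀ (σ : GQ) (x : X), f (actX σ x) = σ (f x)) ∧
      IsTorsorOrderPair ℚ (fun σ x => actM σ x) actX HM HX := by
  classical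
  letI : DistribMulAction GQ M := dmaOfAct actM honeM hmulM
  letI : MulAction GQ X := maOfAct actX honeX hmulX
  obtain ⟨hypM, hbM⟩ := orderHyp_of_generators A 𝓖M (fun σ => (actM σ : M → M)) honeM hmulM hlevM
    hA hvalM hIM hDM hsepM
  obtain ⟨hypX, hbX⟩ := orderHyp_of_generators A 𝓖X actX honeX hmulX hlevX hA hvalX hIX hDX hsepX
  have hAQ := hAQ_of_nonunits A hA
  have hWA : wRing A ≤ A.toSubring := fun x hx => hx.1
  -- closure of the three maps on the `A`-algebras, in `tens2`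
  have hallΔ : ∀ f ∈ Algebra.adjoin A 𝓖M, (fun p : M × M => f (p.1 + p.2)) ∈
      tens2 (Algebra.adjoin A 𝓖M) (Algebra.adjoin A 𝓖M) :=
    comp_mem_tens2_of_generators (fun p : M × M => p.1 + p.2) 𝓖M _ _ fun f hf => by
      obtain ⟨m, a, b, ha, hb, hab⟩ := hΔM f hf
      exact mem_tens2_of_fin a b ha hb hab
  have hallco : ∀ f ∈ Algebra.adjoin A 𝓖X, (fun p : M × X => f (p.1 +ᵥ p.2)) ∈
      tens2 (Algebra.adjoin A 𝓖M) (Algebra.adjoin A 𝓖X) :=
    comp_mem_tens2_of_generators (fun p : M × X => p.1 +ᵥ p.2) 𝓖X _ _ fun f hf => by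
      obtain ⟨m, a, b, ha, hb, hab⟩ := hcoact f hf
      exact mem_tens2_of_fin a b ha hb hab
  have halldiff : ∀ f ∈ Algebra.adjoin A 𝓖M, (fun p : X × X => f (p.1 -ᵥ p.2)) ∈
      tens2 (Algebra.adjoin A 𝓖X) (Algebra.adjoin A 𝓖X) :=
    comp_mem_tens2_of_generators (fun p : X × X => p.1 -ᵥ p.2) 𝓖M _ _ fun f hf => by
      obtain ⟨m, a, b, ha, hb, hab⟩ := hdiff f hf
      exact mem_tens2_of_fin a b ha hb hab
  -- the group side
  have hΔ' : ∀ f ∈ orderW A 𝓖M, IsEquivar (⊤ : Subgroup GQ) f →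
      ∃ (m : ℕ) (a b : Fin m → M → Qb),
        (∀ i, a i ∈ Submodule.span A.toSubring (orderW A 𝓖M : Set (M → Qb))) ∧
        (∀ i, b i ∈ Submodule.span A.toSubring (orderW A 𝓖M : Set (M → Qb))) ∧
        ∀ x y, f (x + y) = ∑ i, a i x * b i y := by
    intro f hf _
    obtain ⟨m, a, b, ha, hb', hab⟩ :=
      exists_fin_of_mem_tens2 (hallΔ f (orderW_le_adjoin A 𝓖M f hf))
    exact ⟨m, a, b, fun i => adjoin_le_span A 𝓖M _ (ha i), fun i => adjoin_le_span A 𝓖M _ (hb' i),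
      fun x y => hab x y⟩
  obtain ⟨HM, hHMmem, hHMfin, hHMsep, hHMΔ⟩ := hypM.exists_order hbM A.toSubring hWA hAQ hΔ'
  have hHMeq : HM = hypM.descentAlgebra := by
    ext f
    exact hHMmem f
  -- the torsor side
  have hco' : ∀ f ∈ orderW A 𝓖X, IsEquivar (⊤ : Subgroup GQ) f →
      ∃ (m : ℕ) (a : Fin m → M → Qb) (b : Fin m → X → Qb),
        (∀ i, a i ∈ Submodule.span A.toSubring (orderW A 𝓖M : Set (M → Qb))) ∧
        (∀ i, b i ∈ Submodule.span A.toSubring (orderW A 𝓖X : Set (X → Qb))) ∧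
        ∀ (y : M) (x : X), f (y +ᵥ x) = ∑ i, a i y * b i x := by
    intro f hf _
    obtain ⟨m, a, b, ha, hb', hab⟩ :=
      exists_fin_of_mem_tens2 (hallco f (orderW_le_adjoin A 𝓖X f hf))
    exact ⟨m, a, b, fun i => adjoin_le_span A 𝓖M _ (ha i), fun i => adjoin_le_span A 𝓖X _ (hb' i),
      fun y x => hab y x⟩
  have hdiff' : ∀ f ∈ orderW A 𝓖M, IsEquivar (⊤ : Subgroup GQ) f →
      ∃ (m : ℕ) (a b : Fin m → X → Qb),
        (∀ i, a i ∈ Submodule.span A.toSubring (orderW A 𝓖X : Set (X → Qb))) ∧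
        (∀ i, b i ∈ Submodule.span A.toSubring (orderW A 𝓖X : Set (X → Qb))) ∧
        ∀ x x' : X, f (x -ᵥ x') = ∑ i, a i x * b i x' := by
    intro f hf _
    obtain ⟨m, a, b, ha, hb', hab⟩ :=
      exists_fin_of_mem_tens2 (halldiff f (orderW_le_adjoin A 𝓖M f hf))
    exact ⟨m, a, b, fun i => adjoin_le_span A 𝓖X _ (ha i), fun i => adjoin_le_span A 𝓖X _ (hb' i),
      fun x x' => hab x x'⟩
  have htors := isStableTorsorOrder_descent (G := GQ) (M := M) (X := X)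
    (fun σ m x => hvadd σ m x) hypM hbM hypX hbX A.toSubring hWA hAQ hco' hdiff'
  refine ⟨HM, descentAlgebraX hypX, ?_, ?_, ?_⟩
  · intro f
    refine (hHMmem f).trans ?_
    exact ⟨fun h => ⟨h.1, fun σ x => h.2 σ (Subgroup.mem_top σ) x⟩,
      fun h => ⟨h.1, fun σ _ x => h.2 σ x⟩⟩
  · intro f
    refine (mem_descentAlgebraX hypX f).trans ?_
    exact ⟨fun h => ⟨h.1, fun σ x => h.2 σ (Subgroup.mem_top σ) x⟩,
      fun h => ⟨h.1, fun σ _ x => h.2 σ x⟩⟩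
  · refine ⟨?_, ?_, hvadd⟩
    · refine N0.isStableOrder_of_interface (fun σ x => actM σ x) (fun σ => map_zero (actM σ)) HM
        (fun f hf σ x => ((hHMmem f).1 hf).2 σ (Subgroup.mem_top σ) x) hHMfin hHMsep hHMΔ
    · rw [hHMeq]
      exact htors

end Torsor

end Fermat.Agent.GZ.LocR.N1Inst
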