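/-
GATE-Z (S15) / (LOC-r), node NEG/SUB (helper92): the algebra-membership contracts for NEGATION,
SUBTRACTION and CHANGE OF CHART over the abstract disc frame `Φ : DiscData K F k Sp 𝒬`
(`GS/Frame/Vocab.lean`), next to `AddSpec`.

`AddSpec` (node ADD) says: on a finite index set `Z`, the coordinates of `ξ z + η z` lie in the
`A`-algebra of functions on `Z` generated by the coordinates of `ξ z` and `η z`.  The STEP lemma
(`GS/Frame/Gen/Step.lean`, contract `Asm.StepSpec`) computes the coordinates of `-ξ` in ONE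
application, so the same holds for `-ξ`, for `ξ - η` and for the change of chart.  Nothing here uses
torsion or a group structure on the index set: this is what makes the orders of TORSORS (GATE-Z,
(T1)(T1')) available.

* `NegSpec Φ n`        : coordinates of `-ξ z` in a disjoint chart lie in the algebra of the
                         coordinates of `ξ z`;
* `negSpecInj_of_step`, `negSpec_of_injective`, `negSpec_of_step` : `NegSpec` from STEP
  (first half of `Asm.addSpecInj_of_step` + the (R0) quotient trick);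
* `ChangeSpec Φ n`     : change of chart (ANY two charts);  `changeSpec_of_neg`;
* `AddSpecAny`, `NegSpecAny`, `SubSpecAny` : the three operations WITHOUT disjointness hypotheses
  on the charts;
* `specs_main` : everything from `DiscFacts Φ`, `(n : ℤ) = Φ.g`, `harch`, `ChartSupply Φ n`;
* `Specs Φ n`  : the bundle consumed by TORS-ORD.
-/
import Mathlib
import Fermat.Agent.GS.Frame.Gen.CoordGroup

set_option autoImplicit false
set_option linter.unusedSectionVars false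

noncomputable section

open AlgebraicCurve

namespace Fermat.Agent.GZ.LocR.NegSub

open Fermat.Agent.RRh45 Fermat.Agent.GH Fermat.Agent.GS.Frame Fermat.Agent.GS.Frame.PicLine
  Fermat.Agent.GS.Frame.Asm Fermat.Agent.GS.Frame.R0 Fermat.Agent.GS.Frame.CoordGroup

open scoped Classical

variable {K F k Sp 𝒬 : Type*} [Field K] [Field F] [Algebra K F] [Field k]
  [CommRing Sp] [Algebra k Sp]

/-! ### the contracts -/

/-- the set of coordinate functions `z ↦ τ z i` of a family of coordinate vectors. -/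
def coordFns {K : Type*} {n : ℕ} {Z : Type} (τ : Z → Fin n → K) : Set (Z → K) :=
  {f | ∃ i, f = fun z => τ z i}

theorem mem_coordFns {K : Type*} {n : ℕ} {Z : Type} (τ : Z → Fin n → K) (i : Fin n) :
    (fun z => τ z i) ∈ coordFns τ := ⟨i, rfl⟩

variable (Φ : DiscData K F k Sp 𝒬) (n : ℕ)

/-- **NEG**: for two charts with disjoint supports, on any finite family of classes the coordinates
of the opposite in the second chart lie in the `A`-algebra generated by the coordinates. -/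
def NegSpec : Prop :=
  ∀ (𝔞 𝔠 : Chart Φ n), Disjoint 𝔞.supp 𝔠.supp →
    ∀ (Z : Type) [Finite Z] (ξ : Z → Pic0 K F) (τ μ : Z → Fin n → K),
      (∀ z, IsCoord 𝔞 (ξ z) (τ z)) → (∀ z, IsCoord 𝔠 (-ξ z) (μ z)) →
      ∀ j, (fun z => μ z j) ∈ Algebra.adjoin Φ.A (coordFns τ)

/-- `NegSpec` for families whose coordinate vectors separate the index set. -/
def NegSpecInj : Prop :=
  ∀ (𝔞 𝔠 : Chart Φ n), Disjoint 𝔞.supp 𝔠.supp →
    ∀ (Z : Type) [Finite Z] (ξ : Z → Pic0 K F) (τ μ : Z → Fin n → K),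
      Function.Injective τ →
      (∀ z, IsCoord 𝔞 (ξ z) (τ z)) → (∀ z, IsCoord 𝔠 (-ξ z) (μ z)) →
      ∀ j, (fun z => μ z j) ∈ Algebra.adjoin Φ.A (coordFns τ)

/-- **CHANGE OF CHART** (any two charts): the coordinates in the second chart lie in the
`A`-algebra generated by the coordinates in the first. -/
def ChangeSpec : Prop :=
  ∀ (𝔞 𝔠 : Chart Φ n) (Z : Type) [Finite Z] (ξ : Z → Pic0 K F) (τ μ : Z → Fin n → K),
      (∀ z, IsCoord 𝔞 (ξ z) (τ z)) → (∀ z, IsCoord 𝔠 (ξ z) (μ z)) →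
      ∀ j, (fun z => μ z j) ∈ Algebra.adjoin Φ.A (coordFns τ)

/-- **NEG** for any two charts. -/
def NegSpecAny : Prop :=
  ∀ (𝔞 𝔠 : Chart Φ n) (Z : Type) [Finite Z] (ξ : Z → Pic0 K F) (τ μ : Z → Fin n → K),
      (∀ z, IsCoord 𝔞 (ξ z) (τ z)) → (∀ z, IsCoord 𝔠 (-ξ z) (μ z)) →
      ∀ j, (fun z => μ z j) ∈ Algebra.adjoin Φ.A (coordFns τ)

/-- **ADD** for any three charts. -/
def AddSpecAny : Prop :=
  ∀ (𝔞 𝔟 𝔠 : Chart Φ n) (Z : Type) [Finite Z] (ξ η : Z → Pic0 K F) (τ σ μ : Z → Fin n → K),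
      (∀ z, IsCoord 𝔞 (ξ z) (τ z)) → (∀ z, IsCoord 𝔟 (η z) (σ z)) →
      (∀ z, IsCoord 𝔠 (ξ z + η z) (μ z)) →
      ∀ j, (fun z => μ z j) ∈ Algebra.adjoin Φ.A (coordFns τ ∪ coordFns σ)

/-- **SUB** for any three charts. -/
def SubSpecAny : Prop :=
  ∀ (𝔞 𝔟 𝔠 : Chart Φ n) (Z : Type) [Finite Z] (ξ η : Z → Pic0 K F) (τ σ μ : Z → Fin n → K),
      (∀ z, IsCoord 𝔞 (ξ z) (τ z)) → (∀ z, IsCoord 𝔟 (η z) (σ z)) →
      (∀ z, IsCoord 𝔠 (ξ z - η z) (μ z)) →
      ∀ j, (fun z => μ z j) ∈ Algebra.adjoin Φ.A (coordFns τ ∪ coordFns σ)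

variable {Φ} {n}

/-! ### NEG from STEP -/

/-- **NEG, separating families**, from the STEP contract: one STEP. -/
theorem negSpecInj_of_step (hdeg : ∀ P : Place K F, P.deg = 1) (hstep : StepSpec Φ n)
    (hU : CoordUnique Φ n) (hSm : CoordSmall Φ n) : NegSpecInj Φ n := by
  intro 𝔞 𝔠 hac Z _ ξ τ μ hinj hξ hμ j
  classical
  choose Pa hPa hVa hξa using fun z => IsCoord.exists_chartClass hdeg (hξ z)
  set B : Subalgebra Φ.A (Z → K) := Algebra.adjoin Φ.A (coordFns τ) with hB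
  have hτA : ∀ z i, τ z i ∈ Φ.A := fun z i =>
    (Φ.A.valuation_le_one_iff _).mp (hSm 𝔞 (ξ z) (τ z) (hξ z) i).le
  have hvalB : ∀ f ∈ B, ∀ z, f z ∈ Φ.A := by
    refine adjoin_valued Φ.A (coordFns τ) ?_
    rintro f ⟨i, rfl⟩ z
    exact hτA z i
  have hτB : ∀ i, (fun z => τ z i) ∈ B := fun i => Algebra.subset_adjoin (mem_coordFns τ i)
  have hsepB : ∀ z z' : Z, z ≠ z' → ∃ f ∈ B, f z ≠ f z' := by
    intro z z' hzz'
    have hne : τ z ≠ τ z' := fun h => hzz' (hinj h)
    obtain ⟨i, hi⟩ := Function.ne_iff.mp hne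
    exact ⟨_, hτB i, hi⟩
  obtain ⟨E, ε, hE, hVε, hεB, hpr⟩ := hstep (Fin n) 𝔞.Q 𝔞.pt 𝔠 𝔞.hQ (chartQ_ne hac) Z B hvalB
    hsepB Pa τ hPa hVa hτB
  have hco : ∀ z, IsCoord 𝔠 (-ξ z) (ε z) := fun z => by
    rw [hξa z, ← chartClass_eq_neg_of_principal hdeg (𝔞 := 𝔞) (𝔬 := 𝔠) (Pa z) (E z) (hpr z)]
    exact isCoord_chartClass hdeg 𝔠 (E z) (ε z) (hE z) (hVε z)
  have hμε : ∀ z, μ z = ε z := fun z => hU 𝔠 (-ξ z) _ _ (hμ z) (hco z)
  have : (fun z => μ z j) = fun z => ε z j := funext fun z => by rw [hμε z]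
  rw [this]
  exact hεB j

/-- **(R0) for NEG**: `NegSpec` follows from its restriction to separating families. -/
theorem negSpec_of_injective (hcls : CoordInj Φ n) (hU : CoordUnique Φ n)
    (hA : NegSpecInj Φ n) : NegSpec Φ n := by
  intro 𝔞 𝔠 hac Z _ ξ τ μ hξ hμ j
  classical
  let S : Setoid Z := Setoid.ker τ
  let Z' : Type := Quotient S
  let π : Z → Z' := Quotient.mk S
  let s : Z' → Z := Quotient.out
  have hτs : ∀ z, τ (s (π z)) = τ z := fun z => by
    have : s (π z) ≈ z := Quotient.exact (Quotient.out_eq (π z))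
    exact this
  have hinj' : Function.Injective (fun z' : Z' => τ (s z')) := by
    intro a b hab'
    have h1 : s a ≈ s b := hab'
    have h2 : π (s a) = π (s b) := Quotient.sound h1
    have ha : π (s a) = a := Quotient.out_eq a
    have hb : π (s b) = b := Quotient.out_eq b
    rw [ha, hb] at h2
    exact h2
  have hξs : ∀ z, ξ (s (π z)) = ξ z := fun z =>
    hcls 𝔞 _ _ (τ z) (by rw [← hτs z]; exact hξ (s (π z))) (hξ z)
  have hμs : ∀ z, μ (s (π z)) = μ z := fun z => by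
    have h1 : IsCoord 𝔠 (-ξ z) (μ (s (π z))) := by
      rw [← hξs z]; exact hμ (s (π z))
    exact hU 𝔠 (-ξ z) _ _ h1 (hμ z)
  have key := hA 𝔞 𝔠 hac Z' (fun z' => ξ (s z')) (fun z' => τ (s z')) (fun z' => μ (s z')) hinj'
    (fun z' => hξ (s z')) (fun z' => hμ (s z')) j
  have hmem : pullAlg Φ.A π (fun z' => μ (s z') j) ∈
      (Algebra.adjoin Φ.A (coordFns fun z' => τ (s z'))).map (pullAlg Φ.A π) :=
    Subalgebra.mem_map.mpr ⟨_, key, rfl⟩
  rw [AlgHom.map_adjoin] at hmem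
  have hfun : pullAlg Φ.A π (fun z' => μ (s z') j) = fun z => μ z j :=
    funext fun z => by rw [pullAlg_apply, hμs z]
  rw [hfun] at hmem
  refine Algebra.adjoin_mono ?_ hmem
  rintro _ ⟨f', ⟨i, rfl⟩, rfl⟩
  exact ⟨i, funext fun z => by
    rw [pullAlg_apply]
    exact congrFun (hτs z) i⟩

/-- **NEG** from the STEP contract and the three coordinate contracts. -/
theorem negSpec_of_step (hdeg : ∀ P : Place K F, P.deg = 1) (hstep : StepSpec Φ n)
    (hU : CoordUnique Φ n) (hSm : CoordSmall Φ n) (hI : CoordInj Φ n) : NegSpec Φ n :=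
  negSpec_of_injective hI hU (negSpecInj_of_step hdeg hstep hU hSm)

/-! ### generated algebras -/

/-- an algebra generated by a set contained in another generated algebra. -/
theorem adjoin_le_of_subset {A : ValuationSubring K} {Z : Type} {S T : Set (Z → K)}
    (h : ∀ f ∈ S, f ∈ Algebra.adjoin A T) : Algebra.adjoin A S ≤ Algebra.adjoin A T :=
  Algebra.adjoin_le h

theorem coordFns_subset_adjoin {A : ValuationSubring K} {Z : Type} {T : Set (Z → K)}
    {σ : Z → Fin n → K} (h : ∀ j, (fun z => σ z j) ∈ Algebra.adjoin A T) :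
    ∀ f ∈ coordFns σ, f ∈ Algebra.adjoin A T := by
  rintro _ ⟨j, rfl⟩
  exact h j

/-! ### change of chart, and the any-chart forms -/

section Any

variable (hdeg : ∀ P : Place K F, P.deg = 1) (hstep : StepSpec Φ n) (hSm : CoordSmall Φ n)
  (hS : ChartSupply Φ n)

include hdeg hstep hSm hS

/-- **CHANGE OF CHART** from NEG twice through a chart off both. -/
theorem changeSpec_of_neg (hN : NegSpec Φ n) : ChangeSpec Φ n := by
  intro 𝔞 𝔠 Z _ ξ τ μ hξ hμ j
  obtain ⟨𝔡, had, hdc⟩ := exists_chart_off₂ hS 𝔞 𝔠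
  choose ς hς using fun z => exists_isCoord_neg hdeg hstep hSm had (hξ z)
  have h1 : ∀ i, (fun z => ς z i) ∈ Algebra.adjoin Φ.A (coordFns τ) :=
    hN 𝔞 𝔡 had Z ξ τ ς hξ hς
  have hμ' : ∀ z, IsCoord 𝔠 (-(-ξ z)) (μ z) := fun z => by rw [neg_neg]; exact hμ z
  have h2 := hN 𝔡 𝔠 hdc Z (fun z => -ξ z) ς μ hς hμ' j
  exact adjoin_le_of_subset (coordFns_subset_adjoin h1) h2

/-- **NEG for any two charts.** -/
theorem negSpecAny_of_neg (hN : NegSpec Φ n) : NegSpecAny Φ n := by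
  intro 𝔞 𝔠 Z _ ξ τ μ hξ hμ j
  obtain ⟨𝔡, had⟩ := exists_chart_off₁ hS 𝔞
  choose ς hς using fun z => exists_isCoord_neg hdeg hstep hSm had (hξ z)
  have h1 : ∀ i, (fun z => ς z i) ∈ Algebra.adjoin Φ.A (coordFns τ) :=
    hN 𝔞 𝔡 had Z ξ τ ς hξ hς
  have h2 := changeSpec_of_neg hdeg hstep hSm hS hN 𝔡 𝔠 Z (fun z => -ξ z) ς μ hς hμ j
  exact adjoin_le_of_subset (coordFns_subset_adjoin h1) h2

/-- **ADD for any three charts.** -/
theorem addSpecAny_of_add (hN : NegSpec Φ n) (hA : AddSpec Φ n) : AddSpecAny Φ n := by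
  intro 𝔞 𝔟 𝔠 Z _ ξ η τ σ μ hξ hη hμ j
  have hC := changeSpec_of_neg hdeg hstep hSm hS hN
  obtain ⟨𝔟', hab'⟩ := exists_chart_off₁ hS 𝔞
  obtain ⟨𝔠', hac', hcb'⟩ := exists_chart_off₂ hS 𝔞 𝔟'
  choose σ' hσ' using fun z => exists_isCoord_any hdeg hstep hSm hS 𝔟' (hη z)
  choose μ' hμ' using fun z =>
    exists_isCoord_add hdeg hstep hSm hS (𝔠 := 𝔠') hab' (hξ z) (hσ' z)
  have h1 : ∀ i, (fun z => σ' z i) ∈ Algebra.adjoin Φ.A (coordFns τ ∪ coordFns σ) := fun i =>
    Algebra.adjoin_mono Set.subset_union_right (hC 𝔟 𝔟' Z η σ σ' hη hσ' i)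
  have h2 : ∀ i, (fun z => μ' z i) ∈ Algebra.adjoin Φ.A (coordFns τ ∪ coordFns σ) := by
    intro i
    have h := hA 𝔞 𝔟' 𝔠' hab' hac' hcb'.symm Z ξ η τ σ' μ' hξ hσ' hμ' i
    refine adjoin_le_of_subset ?_ h
    rintro f (hf | hf)
    · exact Algebra.subset_adjoin (Or.inl hf)
    · exact coordFns_subset_adjoin h1 f hf
  have h3 := hC 𝔠' 𝔠 Z (fun z => ξ z + η z) μ' μ hμ' hμ j
  exact adjoin_le_of_subset (coordFns_subset_adjoin h2) h3

/-- **SUB for any three charts.** -/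
theorem subSpecAny_of_add (hN : NegSpec Φ n) (hA : AddSpec Φ n) : SubSpecAny Φ n := by
  intro 𝔞 𝔟 𝔠 Z _ ξ η τ σ μ hξ hη hμ j
  choose ς hς using fun z => exists_isCoord_neg_any hdeg hstep hSm hS 𝔟 (hη z)
  have h1 : ∀ i, (fun z => ς z i) ∈ Algebra.adjoin Φ.A (coordFns τ ∪ coordFns σ) := fun i =>
    Algebra.adjoin_mono Set.subset_union_right
      (negSpecAny_of_neg hdeg hstep hSm hS hN 𝔟 𝔟 Z η σ ς hη hς i)
  have hμ' : ∀ z, IsCoord 𝔠 (ξ z + -η z) (μ z) := fun z => by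
    rw [← sub_eq_add_neg]; exact hμ z
  have h2 := addSpecAny_of_add hdeg hstep hSm hS hN hA 𝔞 𝔟 𝔠 Z ξ (fun z => -η z) τ ς μ hξ hς hμ' j
  refine adjoin_le_of_subset ?_ h2
  rintro f (hf | hf)
  · exact Algebra.subset_adjoin (Or.inl hf)
  · exact coordFns_subset_adjoin h1 f hf

end Any

/-! ### the bundle -/

/-- **the bundle of coordinate facts consumed by TORS-ORD**: uniqueness, smallness, injectivity,
existence on a subgroup `𝒦` (closed under the group operations by construction), and the three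
algebra-membership contracts for any charts. -/
structure Specs (Φ : DiscData K F k Sp 𝒬) (n : ℕ) (𝒦 : AddSubgroup (Pic0 K F)) : Prop where
  unique : CoordUnique Φ n
  small : CoordSmall Φ n
  inj : CoordInj Φ n
  exists_coord : CoordExists Φ n (𝒦 : Set (Pic0 K F))
  mem_of_coord : ∀ (𝔠 : Chart Φ n) (ξ : Pic0 K F) (τ : Fin n → K), IsCoord 𝔠 ξ τ → ξ ∈ 𝒦
  change : ChangeSpec Φ n
  neg : NegSpecAny Φ n
  add : AddSpecAny Φ n
  sub : SubSpecAny Φ n

section Main

variable (hΦ : DiscFacts Φ) (hn : (n : ℤ) = Φ.g)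
  (harch : ∀ x y : K, Φ.A.valuation x < 1 → y ≠ 0 →
    ∃ m : ℕ, Φ.A.valuation x ^ m ≤ Φ.A.valuation y)
  (hS : ChartSupply Φ n)

include hΦ hn harch in
/-- **NEG** over a frame of genus `n`. -/
theorem negSpec_main : NegSpec Φ n :=
  negSpec_of_step hΦ.degF (stepSpec_main hΦ hn harch) (coordUnique hΦ n) (coordSmall hΦ n)
    (coordInj hΦ n)

/-- **the bundle** from the facts of the frame, for the full coordinate group. -/
theorem specs_main : Specs Φ n (coordGroup_main hΦ hn harch hS) where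
  unique := coordUnique hΦ n
  small := coordSmall hΦ n
  inj := coordInj hΦ n
  exists_coord := coordExists_main hΦ hn harch hS
  mem_of_coord := fun 𝔠 _ τ h => ⟨𝔠, τ, h⟩
  change := changeSpec_of_neg hΦ.degF (stepSpec_main hΦ hn harch) (coordSmall hΦ n) hS
    (negSpec_main hΦ hn harch)
  neg := negSpecAny_of_neg hΦ.degF (stepSpec_main hΦ hn harch) (coordSmall hΦ n) hS
    (negSpec_main hΦ hn harch)
  add := addSpecAny_of_add hΦ.degF (stepSpec_main hΦ hn harch) (coordSmall hΦ n) hS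
    (negSpec_main hΦ hn harch) (addSpec_main hΦ hn harch hS)
  sub := subSpecAny_of_add hΦ.degF (stepSpec_main hΦ hn harch) (coordSmall hΦ n) hS
    (negSpec_main hΦ hn harch) (addSpec_main hΦ hn harch hS)

end Main

end Fermat.Agent.GZ.LocR.NegSub
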