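/-
GATE-Z (S15) / (LOC-r), node TORS-ORD, part 2 (helper92): **the generator families of GROUP orders and
TORSOR orders in ONE theorem** — abstract chart-system form.  Mathlib + `GZ/LocR/Tens2` only.

This is the multi-set port of helper32's `GH/Ord/Main.ord_main` in the frame-free style of helper71's
`GS/Loc2/Charts.lean`.  A *chart system* is a type `Ch` of charts and a predicate `IsCo 𝔠 ξ τ`
("`τ : Fin n → K` are the coordinates of the class `ξ : P` in the chart `𝔠`") on an abelian group `P`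
with a subgroup `Ker` (the classes having coordinates = the kernel of reduction), satisfying
`ChartSys`: existence / uniqueness / `A`-values / injectivity of coordinates and the two
algebra-membership contracts `add`, `sub` for ANY three charts (`GZ/LocR/NegSub`: `AddSpecAny`,
`SubSpecAny`).  No torsion, no group structure on index sets.

A *`P`-set* `𝒮 : PSet Ker X Ω` is a set `X` with a map `ι : X → P` and a labelling `q : X → Ω` of the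
cosets of `X` modulo `Ker` (`q x = q x' ↔ ι x - ι x' ∈ Ker`).  Its generator family for a datum
(chart `𝔠₀`, shifts `s : Ω → P`, coordinate functions `T i x` of `ι x - s (q x)`) is
`𝒮.gens T = range T ∪ range 𝒮.ind` — for `X = M` a finite subgroup of `Pic0` and
`q = QuotientAddGroup.mk` this is `GH.gens H M T` VERBATIM.

* `PSet.gens_valued`, `PSet.gens_separate`;
* `comp_mem_tens2_of_op` : for three `P`-sets with data and a map `μ : X₁ × X₂ → Y` with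
  `ι_Y (μ p) = ι₁ p.1 ± ι₂ p.2`, every `f ∈ A[gens_Y]` has `f ∘ μ ∈ tens2 A[gens₁] A[gens₂]`;
  `comp_add_mem_tens2`, `comp_sub_mem_tens2`.
  (`X₁ = X₂ = Y = M`, `+` : the comultiplication Δ;  `X₁ = M`, `X₂ = Y = X`, `+` : the COACTION of a
  torsor;  `X₁ = X₂ = X`, `Y = M`, `-` : the DIFFERENCE map.)
-/
import Mathlib
import Fermat.Agent.GZ.LocR.Tens2

set_option autoImplicit false
set_option linter.unusedSectionVars false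

noncomputable section

namespace Fermat.Agent.GZ.LocR

open scoped Classical

/-- the coordinate functions `z ↦ τ z i` of a family of coordinate vectors. -/
def cfns {K : Type*} {n : ℕ} {Z : Type*} (τ : Z → Fin n → K) : Set (Z → K) :=
  {f | ∃ i, f = fun z => τ z i}

theorem mem_cfns {K : Type*} {n : ℕ} {Z : Type*} (τ : Z → Fin n → K) (i : Fin n) :
    (fun z => τ z i) ∈ cfns τ := ⟨i, rfl⟩

section Sys

variable {P : Type} [AddCommGroup P] {K : Type} [Field K] (A : ValuationSubring K) {n : ℕ}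
  {Ch : Type} (IsCo : Ch → P → (Fin n → K) → Prop) (Ker : AddSubgroup P)

/-- **a chart system**: the coordinate contracts, with the algebra-membership contracts for sums and
differences in ANY three charts. -/
structure ChartSys : Prop where
  exists_coord : ∀ (𝔠 : Ch), ∀ ξ ∈ Ker, ∃ τ, IsCo 𝔠 ξ τ
  unique : ∀ (𝔠 : Ch) (ξ : P) (τ τ' : Fin n → K), IsCo 𝔠 ξ τ → IsCo 𝔠 ξ τ' → τ = τ'
  valued : ∀ (𝔠 : Ch) (ξ : P) (τ : Fin n → K), IsCo 𝔠 ξ τ → ∀ i, τ i ∈ A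
  inj : ∀ (𝔠 : Ch) (ξ ξ' : P) (τ : Fin n → K), IsCo 𝔠 ξ τ → IsCo 𝔠 ξ' τ → ξ = ξ'
  add : ∀ (𝔞 𝔟 𝔠 : Ch) (Z : Type) [Finite Z] (ξ η : Z → P) (τ σ μ : Z → Fin n → K),
    (∀ z, IsCo 𝔞 (ξ z) (τ z)) → (∀ z, IsCo 𝔟 (η z) (σ z)) → (∀ z, IsCo 𝔠 (ξ z + η z) (μ z)) →
    ∀ j, (fun z => μ z j) ∈ Algebra.adjoin A (cfns τ ∪ cfns σ)
  sub : ∀ (𝔞 𝔟 𝔠 : Ch) (Z : Type) [Finite Z] (ξ η : Z → P) (τ σ μ : Z → Fin n → K),
    (∀ z, IsCo 𝔞 (ξ z) (τ z)) → (∀ z, IsCo 𝔟 (η z) (σ z)) → (∀ z, IsCo 𝔠 (ξ z - η z) (μ z)) →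
    ∀ j, (fun z => μ z j) ∈ Algebra.adjoin A (cfns τ ∪ cfns σ)

end Sys

/-! ### `P`-sets -/

/-- **a `P`-set**: a set `X` mapped to `P`, with a labelling `q : X → Ω` of its cosets modulo
`Ker`. -/
structure PSet {P : Type} [AddCommGroup P] (Ker : AddSubgroup P) (X Ω : Type) where
  ι : X → P
  q : X → Ω
  q_surj : Function.Surjective q
  q_eq_iff : ∀ x x', q x = q x' ↔ ι x - ι x' ∈ Ker

namespace PSet

variable {P : Type} [AddCommGroup P] {Ker : AddSubgroup P} {X Ω : Type} (𝒮 : PSet Ker X Ω)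

/-- a chosen representative of a coset. -/
def rep (ω : Ω) : X := Function.surjInv 𝒮.q_surj ω

@[simp] theorem q_rep (ω : Ω) : 𝒮.q (𝒮.rep ω) = ω := Function.surjInv_eq 𝒮.q_surj ω

theorem sub_rep_mem (x : X) : 𝒮.ι x - 𝒮.ι (𝒮.rep (𝒮.q x)) ∈ Ker :=
  (𝒮.q_eq_iff _ _).1 (𝒮.q_rep (𝒮.q x)).symm

include 𝒮 in
theorem finite_labels [Finite X] : Finite Ω := Finite.of_surjective 𝒮.q 𝒮.q_surj

variable (K : Type) [Field K]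

/-- the indicator of a coset. -/
def ind (ω : Ω) (x : X) : K := if 𝒮.q x = ω then 1 else 0

variable {K} {n : ℕ}

/-- the generator family: coordinate functions and coset indicators. -/
def gens (T : Fin n → X → K) : Set (X → K) := Set.range T ∪ Set.range (𝒮.ind K)

theorem T_mem_gens (T : Fin n → X → K) (i : Fin n) : T i ∈ 𝒮.gens T := Or.inl ⟨i, rfl⟩

theorem ind_mem_gens (T : Fin n → X → K) (ω : Ω) : 𝒮.ind K ω ∈ 𝒮.gens T := Or.inr ⟨ω, rfl⟩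

/-- a double sum against coset indicators picks one term. -/
theorem sum_ind_ind {X' Ω' : Type} (𝒮' : PSet Ker X' Ω') [Fintype Ω] [Fintype Ω']
    (cst : Ω → Ω' → K) (x : X) (y : X') :
    ∑ ω₁, ∑ ω₂, cst ω₁ ω₂ * 𝒮.ind K ω₁ x * 𝒮'.ind K ω₂ y = cst (𝒮.q x) (𝒮'.q y) := by
  rw [Finset.sum_eq_single (𝒮.q x)]
  · rw [Finset.sum_eq_single (𝒮'.q y)]
    · simp [ind]
    · intro ω _ hω
      simp [ind, hω.symm]
    · intro h; exact absurd (Finset.mem_univ _) h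
  · intro ω _ hω
    refine Finset.sum_eq_zero fun ω₂ _ => ?_
    simp [ind, hω.symm]
  · intro h; exact absurd (Finset.mem_univ _) h

/-- **a function of the pair of coset labels with `A`-values lies in the tensor image** of any two
algebras containing the coset indicators. -/
theorem labels_mem_tens2 {A : ValuationSubring K} {X' Ω' : Type} (𝒮' : PSet Ker X' Ω')
    [Finite X] [Finite X'] (𝓗 : Subalgebra A (X → K)) (𝓗' : Subalgebra A (X' → K))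
    (h𝓗 : ∀ ω, 𝒮.ind K ω ∈ 𝓗) (h𝓗' : ∀ ω, 𝒮'.ind K ω ∈ 𝓗')
    (cst : Ω → Ω' → K) (hcst : ∀ ω ω', cst ω ω' ∈ A) :
    (fun p : X × X' => cst (𝒮.q p.1) (𝒮'.q p.2)) ∈ tens2 𝓗 𝓗' := by
  have := 𝒮.finite_labels
  have := 𝒮'.finite_labels
  have : Fintype Ω := Fintype.ofFinite _
  have : Fintype Ω' := Fintype.ofFinite _
  have hfun : (fun p : X × X' => cst (𝒮.q p.1) (𝒮'.q p.2)) =
      ∑ ω₁, ∑ ω₂, (algebraMap A (X × X' → K) ⟨cst ω₁ ω₂, hcst ω₁ ω₂⟩ *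
        (fun p : X × X' => 𝒮.ind K ω₁ p.1)) * (fun p : X × X' => 𝒮'.ind K ω₂ p.2) := by
    funext p
    rw [Finset.sum_apply]
    simp only [Finset.sum_apply, Pi.mul_apply, Pi.algebraMap_apply]
    exact (sum_ind_ind 𝒮 𝒮' cst p.1 p.2).symm
  rw [hfun]
  refine Subalgebra.sum_mem _ fun ω₁ _ => Subalgebra.sum_mem _ fun ω₂ _ => ?_
  exact (tens2 𝓗 𝓗').mul_mem ((tens2 𝓗 𝓗').mul_mem ((tens2 𝓗 𝓗').algebraMap_mem _)
    (comp_fst_mem_tens2 𝓗' (h𝓗 ω₁))) (comp_snd_mem_tens2 𝓗 (h𝓗' ω₂))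

variable {Ch : Type} (IsCo : Ch → P → (Fin n → K) → Prop)

/-- **a datum** for the generator family: a chart, shifts (one per coset) and the coordinate
functions of the shifted classes. -/
structure IsDatum (𝔠₀ : Ch) (s : Ω → P) (T : Fin n → X → K) : Prop where
  hs : ∀ x, 𝒮.ι x - s (𝒮.q x) ∈ Ker
  hT : ∀ x, IsCo 𝔠₀ (𝒮.ι x - s (𝒮.q x)) (fun i => T i x)

variable {𝒮 IsCo} {A : ValuationSubring K}

/-- the generators are `A`-valued. -/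
theorem gens_valued (hsys : ChartSys A IsCo Ker) {𝔠₀ : Ch} {s : Ω → P} {T : Fin n → X → K}
    (hd : 𝒮.IsDatum IsCo 𝔠₀ s T) : ∀ f ∈ 𝒮.gens T, ∀ x, f x ∈ A := by
  rintro f (⟨i, rfl⟩ | ⟨ω, rfl⟩) x
  · exact hsys.valued 𝔠₀ _ _ (hd.hT x) i
  · unfold ind
    split_ifs
    · exact A.one_mem
    · exact A.zero_mem

/-- the generators separate the points (if `ι` is injective). -/
theorem gens_separate (hsys : ChartSys A IsCo Ker) (hι : Function.Injective 𝒮.ι) {𝔠₀ : Ch}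
    {s : Ω → P} {T : Fin n → X → K} (hd : 𝒮.IsDatum IsCo 𝔠₀ s T) :
    ∀ x y : X, x ≠ y → ∃ f ∈ 𝒮.gens T, f x ≠ f y := by
  intro x y hxy
  by_cases hq : 𝒮.q x = 𝒮.q y
  · by_contra hno
    push Not at hno
    have hTeq : (fun i => T i x) = fun i => T i y :=
      funext fun i => hno (T i) (𝒮.T_mem_gens T i)
    have h1 := hd.hT x
    have h2 := hd.hT y
    rw [hTeq, hq] at h1
    have h3 := hsys.inj 𝔠₀ _ _ _ h1 h2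
    exact hxy (hι (sub_left_injective h3))
  · refine ⟨𝒮.ind K (𝒮.q x), 𝒮.ind_mem_gens T _, ?_⟩
    simp [ind, Ne.symm hq]

end PSet

/-! ### the bi-map theorem -/

section BiMap

variable {P : Type} [AddCommGroup P] {K : Type} [Field K] {A : ValuationSubring K} {n : ℕ}
  {Ch : Type} {IsCo : Ch → P → (Fin n → K) → Prop} {Ker : AddSubgroup P}
variable {X₁ Ω₁ X₂ Ω₂ Y ΩY : Type} [Finite X₁] [Finite X₂]
  {𝒮₁ : PSet Ker X₁ Ω₁} {𝒮₂ : PSet Ker X₂ Ω₂} {𝒮Y : PSet Ker Y ΩY}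
  {𝔠₁ 𝔠₂ 𝔠Y : Ch} {s₁ : Ω₁ → P} {s₂ : Ω₂ → P} {sY : ΩY → P}
  {T₁ : Fin n → X₁ → K} {T₂ : Fin n → X₂ → K} {TY : Fin n → Y → K}

/-- **the core**: `op` is `+` or `-`. -/
theorem comp_mem_tens2_of_op (hsys : ChartSys A IsCo Ker)
    (op : P → P → P) (hopK : ∀ a b, a ∈ Ker → b ∈ Ker → op a b ∈ Ker)
    (hop : ∀ a b a' b', op (a - a') (b - b') = op a b - op a' b')
    (hspec : ∀ (𝔞 𝔟 𝔠 : Ch) (Z : Type) [Finite Z] (ξ η : Z → P) (τ σ μ : Z → Fin n → K),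
      (∀ z, IsCo 𝔞 (ξ z) (τ z)) → (∀ z, IsCo 𝔟 (η z) (σ z)) →
      (∀ z, IsCo 𝔠 (op (ξ z) (η z)) (μ z)) →
      ∀ j, (fun z => μ z j) ∈ Algebra.adjoin A (cfns τ ∪ cfns σ))
    (h₁ : 𝒮₁.IsDatum IsCo 𝔠₁ s₁ T₁) (h₂ : 𝒮₂.IsDatum IsCo 𝔠₂ s₂ T₂)
    (hY : 𝒮Y.IsDatum IsCo 𝔠Y sY TY) (μ : X₁ × X₂ → Y)
    (hμ : ∀ p, 𝒮Y.ι (μ p) = op (𝒮₁.ι p.1) (𝒮₂.ι p.2)) :
    ∀ f ∈ Algebra.adjoin A (𝒮Y.gens TY), (fun p : X₁ × X₂ => f (μ p)) ∈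
      tens2 (Algebra.adjoin A (𝒮₁.gens T₁)) (Algebra.adjoin A (𝒮₂.gens T₂)) := by
  set 𝓗₁ := Algebra.adjoin A (𝒮₁.gens T₁) with h𝓗₁
  set 𝓗₂ := Algebra.adjoin A (𝒮₂.gens T₂) with h𝓗₂
  have hT₁mem : ∀ i, T₁ i ∈ 𝓗₁ := fun i => Algebra.subset_adjoin (𝒮₁.T_mem_gens T₁ i)
  have hT₂mem : ∀ i, T₂ i ∈ 𝓗₂ := fun i => Algebra.subset_adjoin (𝒮₂.T_mem_gens T₂ i)
  have hind₁ : ∀ ω, 𝒮₁.ind K ω ∈ 𝓗₁ := fun ω => Algebra.subset_adjoin (𝒮₁.ind_mem_gens T₁ ω)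
  have hind₂ : ∀ ω, 𝒮₂.ind K ω ∈ 𝓗₂ := fun ω => Algebra.subset_adjoin (𝒮₂.ind_mem_gens T₂ ω)
  -- the induced map on coset labels
  set μq : Ω₁ → Ω₂ → ΩY := fun ω₁ ω₂ => 𝒮Y.q (μ (𝒮₁.rep ω₁, 𝒮₂.rep ω₂)) with hμq
  have hμq' : ∀ p : X₁ × X₂, 𝒮Y.q (μ p) = μq (𝒮₁.q p.1) (𝒮₂.q p.2) := by
    intro p
    rw [hμq, 𝒮Y.q_eq_iff, hμ, hμ, ← hop]
    exact hopK _ _ (𝒮₁.sub_rep_mem p.1) (𝒮₂.sub_rep_mem p.2)
  refine comp_mem_tens2_of_generators μ (𝒮Y.gens TY) 𝓗₁ 𝓗₂ ?_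
  rintro f (⟨j, rfl⟩ | ⟨ω, rfl⟩)
  · -- a coordinate function
    set ξ : X₁ × X₂ → P := fun p => 𝒮₁.ι p.1 - s₁ (𝒮₁.q p.1) with hξd
    set η : X₁ × X₂ → P := fun p => 𝒮₂.ι p.2 - s₂ (𝒮₂.q p.2) with hηd
    set δ : Ω₁ → Ω₂ → P := fun ω₁ ω₂ => op (s₁ ω₁) (s₂ ω₂) - sY (μq ω₁ ω₂) with hδd
    have hξ : ∀ p, ξ p ∈ Ker := fun p => h₁.hs p.1
    have hη : ∀ p, η p ∈ Ker := fun p => h₂.hs p.2
    have hkey : ∀ p : X₁ × X₂, op (ξ p) (η p) + δ (𝒮₁.q p.1) (𝒮₂.q p.2) =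
        𝒮Y.ι (μ p) - sY (𝒮Y.q (μ p)) := by
      intro p
      rw [hξd, hηd, hδd]
      simp only
      rw [hop, hμ, hμq' p]
      abel
    have hδ : ∀ ω₁ ω₂, δ ω₁ ω₂ ∈ Ker := by
      intro ω₁ ω₂
      have h := hkey (𝒮₁.rep ω₁, 𝒮₂.rep ω₂)
      simp only [PSet.q_rep] at h
      have h2 : δ ω₁ ω₂ = (𝒮Y.ι (μ (𝒮₁.rep ω₁, 𝒮₂.rep ω₂)) -
          sY (𝒮Y.q (μ (𝒮₁.rep ω₁, 𝒮₂.rep ω₂)))) -
          op (ξ (𝒮₁.rep ω₁, 𝒮₂.rep ω₂)) (η (𝒮₁.rep ω₁, 𝒮₂.rep ω₂)) := by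
        rw [← h]; abel
      rw [h2]
      exact Ker.sub_mem (hY.hs _) (hopK _ _ (hξ _) (hη _))
    choose ε hε using fun p => hsys.exists_coord 𝔠Y (op (ξ p) (η p)) (hopK _ _ (hξ p) (hη p))
    choose d hd using fun ω₁ ω₂ => hsys.exists_coord 𝔠Y (δ ω₁ ω₂) (hδ ω₁ ω₂)
    have hdA : ∀ ω₁ ω₂ i, d ω₁ ω₂ i ∈ A := fun ω₁ ω₂ i => hsys.valued 𝔠Y _ _ (hd ω₁ ω₂) i
    have hε𝒯 : ∀ i, (fun p : X₁ × X₂ => ε p i) ∈ tens2 𝓗₁ 𝓗₂ := by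
      intro i
      have := hspec 𝔠₁ 𝔠₂ 𝔠Y (X₁ × X₂) ξ η (fun p i => T₁ i p.1) (fun p i => T₂ i p.2) ε
        (fun p => h₁.hT p.1) (fun p => h₂.hT p.2) hε i
      refine (Algebra.adjoin_le ?_ : Algebra.adjoin A _ ≤ tens2 𝓗₁ 𝓗₂) this
      rintro f (⟨i, rfl⟩ | ⟨i, rfl⟩)
      · exact comp_fst_mem_tens2 𝓗₂ (hT₁mem i)
      · exact comp_snd_mem_tens2 𝓗₁ (hT₂mem i)
    have hd𝒯 : ∀ i, (fun p : X₁ × X₂ => d (𝒮₁.q p.1) (𝒮₂.q p.2) i) ∈ tens2 𝓗₁ 𝓗₂ := fun i =>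
      PSet.labels_mem_tens2 𝒮₁ 𝒮₂ 𝓗₁ 𝓗₂ hind₁ hind₂ (fun ω₁ ω₂ => d ω₁ ω₂ i)
        (fun ω₁ ω₂ => hdA ω₁ ω₂ i)
    have := hsys.add 𝔠Y 𝔠Y 𝔠Y (X₁ × X₂) (fun p => op (ξ p) (η p))
      (fun p => δ (𝒮₁.q p.1) (𝒮₂.q p.2)) ε (fun p => d (𝒮₁.q p.1) (𝒮₂.q p.2))
      (fun p i => TY i (μ p)) hε (fun p => hd _ _)
      (fun p => by rw [hkey p]; exact hY.hT (μ p)) j
    refine (Algebra.adjoin_le ?_ : Algebra.adjoin A _ ≤ tens2 𝓗₁ 𝓗₂) this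
    rintro f (⟨i, rfl⟩ | ⟨i, rfl⟩)
    · exact hε𝒯 i
    · exact hd𝒯 i
  · -- a coset indicator
    have hfun : (fun p : X₁ × X₂ => 𝒮Y.ind K ω (μ p)) =
        fun p : X₁ × X₂ => (fun ω₁ ω₂ => if μq ω₁ ω₂ = ω then (1 : K) else 0)
          (𝒮₁.q p.1) (𝒮₂.q p.2) := by
      funext p
      simp only [PSet.ind, hμq' p]
    rw [hfun]
    refine PSet.labels_mem_tens2 𝒮₁ 𝒮₂ 𝓗₁ 𝓗₂ hind₁ hind₂
      (fun ω₁ ω₂ => if μq ω₁ ω₂ = ω then (1 : K) else 0) fun ω₁ ω₂ => ?_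
    show (if μq ω₁ ω₂ = ω then (1 : K) else 0) ∈ A
    split_ifs
    · exact A.one_mem
    · exact A.zero_mem

/-- **sums**: `ι_Y (μ p) = ι₁ p.1 + ι₂ p.2` (comultiplication of a group order, coaction of a
torsor order). -/
theorem comp_add_mem_tens2 (hsys : ChartSys A IsCo Ker)
    (h₁ : 𝒮₁.IsDatum IsCo 𝔠₁ s₁ T₁) (h₂ : 𝒮₂.IsDatum IsCo 𝔠₂ s₂ T₂)
    (hY : 𝒮Y.IsDatum IsCo 𝔠Y sY TY) (μ : X₁ × X₂ → Y)
    (hμ : ∀ p, 𝒮Y.ι (μ p) = 𝒮₁.ι p.1 + 𝒮₂.ι p.2) :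
    ∀ f ∈ Algebra.adjoin A (𝒮Y.gens TY), (fun p : X₁ × X₂ => f (μ p)) ∈
      tens2 (Algebra.adjoin A (𝒮₁.gens T₁)) (Algebra.adjoin A (𝒮₂.gens T₂)) :=
  comp_mem_tens2_of_op hsys (fun a b => a + b) (fun _ _ ha hb => Ker.add_mem ha hb)
    (fun a b a' b' => by abel) (fun 𝔞 𝔟 𝔠 Z _ ξ η τ σ μ' h1 h2 h3 j =>
      hsys.add 𝔞 𝔟 𝔠 Z ξ η τ σ μ' h1 h2 h3 j) h₁ h₂ hY μ hμ

/-- **differences**: `ι_Y (μ p) = ι₁ p.1 - ι₂ p.2` (difference map of a torsor order, `x - y` and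
antipode of a group order). -/
theorem comp_sub_mem_tens2 (hsys : ChartSys A IsCo Ker)
    (h₁ : 𝒮₁.IsDatum IsCo 𝔠₁ s₁ T₁) (h₂ : 𝒮₂.IsDatum IsCo 𝔠₂ s₂ T₂)
    (hY : 𝒮Y.IsDatum IsCo 𝔠Y sY TY) (μ : X₁ × X₂ → Y)
    (hμ : ∀ p, 𝒮Y.ι (μ p) = 𝒮₁.ι p.1 - 𝒮₂.ι p.2) :
    ∀ f ∈ Algebra.adjoin A (𝒮Y.gens TY), (fun p : X₁ × X₂ => f (μ p)) ∈
      tens2 (Algebra.adjoin A (𝒮₁.gens T₁)) (Algebra.adjoin A (𝒮₂.gens T₂)) :=
  comp_mem_tens2_of_op hsys (fun a b => a - b) (fun _ _ ha hb => Ker.sub_mem ha hb)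
    (fun a b a' b' => by abel) (fun 𝔞 𝔟 𝔠 Z _ ξ η τ σ μ' h1 h2 h3 j =>
      hsys.sub 𝔞 𝔟 𝔠 Z ξ η τ σ μ' h1 h2 h3 j) h₁ h₂ hY μ hμ

end BiMap

end Fermat.Agent.GZ.LocR
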