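/-
GATE-Z (S15) / (LOC-r), node TORS-ORD, part 3 (helper92): **the Galois part** — abstract twin of
helper32's `GH/CoreAsm/{GalFrame,Main}.lean` for `P`-sets (groups AND torsors).  Mathlib +
`GZ/LocR/{Tens2,TorsOrd}` only.

`GalSys IsCo Ker D I` is the GAL contract `GH.GalFrame` verbatim on an abstract chart system.  For a
`P`-set `𝒮 : PSet Ker X Ω` with an action `act : Γ → X → X` compatible with `ι`, the family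
`coreGens G 𝒮` (all `𝒮.gens T` for an `I`-fixed chart and `I`-fixed shifts; for `X = M` a finite
subgroup of `Pic0` and `q = QuotientAddGroup.mk` this is `GH.coreGens G M` VERBATIM) is

* `coreGens_valued`    : `A`-valued;
* `coreGens_inertia`   : `I`-equivariant, `f (act τ x) = τ • f x`;
* `coreGens_decomp`    : `D`-stable as a set, `(x ↦ σ • f (act σ⁻¹ x)) ∈ coreGens`;
* `coreGens_separate`  : separating (if `ι` is injective);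
* `coreGens_comp_add`, `coreGens_comp_sub` : for a map `μ : X₁ × X₂ → Y` with
  `ι_Y (μ p) = ι₁ p.1 ± ι₂ p.2` and `f ∈ coreGens G 𝒮Y`,
  `f ∘ μ ∈ tens2 A[coreGens G 𝒮₁] A[coreGens G 𝒮₂]` (Fin-indexed form: `…_fin`).
-/
import Mathlib
import Fermat.Agent.GZ.LocR.TorsOrd

set_option autoImplicit false
set_option linter.unusedSectionVars false

noncomputable section

namespace Fermat.Agent.GZ.LocR

open scoped Classical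

variable {P : Type} [AddCommGroup P] {K : Type} [Field K] {A : ValuationSubring K} {n : ℕ}
  {Ch : Type}

/-- **the GAL contract** on an abstract chart system (`GH.GalFrame` verbatim). -/
structure GalSys {Γ : Type} [Group Γ] [DistribMulAction Γ P] [MulSemiringAction Γ K]
    (IsCo : Ch → P → (Fin n → K) → Prop) (Ker : AddSubgroup P) (D I : Subgroup Γ) where
  hID : I ≤ D
  hnorm : ∀ σ ∈ D, ∀ τ ∈ I, σ⁻¹ * τ * σ ∈ I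
  ker_smul : ∀ σ ∈ D, ∀ ξ ∈ Ker, σ • ξ ∈ Ker
  inertia_sub : ∀ τ ∈ I, ∀ ξ : P, τ • ξ - ξ ∈ Ker
  actC : Γ → Ch → Ch
  isCo_smul : ∀ σ ∈ D, ∀ (𝔠 : Ch) (ξ : P) (τ : Fin n → K),
    IsCo 𝔠 ξ τ → IsCo (actC σ 𝔠) (σ • ξ) (fun i => σ • τ i)
  Fix : Ch → Prop
  exists_fix : ∃ 𝔠, Fix 𝔠
  fix_inertia : ∀ 𝔠, Fix 𝔠 → ∀ τ ∈ I, actC τ 𝔠 = 𝔠
  fix_smul : ∀ 𝔠, Fix 𝔠 → ∀ σ ∈ D, Fix (actC σ 𝔠)
  exists_fixed_shift : ∀ ξ : P, ∃ s : P, (∀ τ ∈ I, τ • s = s) ∧ ξ - s ∈ Ker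

variable {Γ : Type} [Group Γ] [DistribMulAction Γ P] [MulSemiringAction Γ K]
  {IsCo : Ch → P → (Fin n → K) → Prop} {Ker : AddSubgroup P} {D I : Subgroup Γ}

section Family

variable (G : GalSys IsCo Ker D I) {X Ω : Type} (𝒮 : PSet Ker X Ω)

/-- the generator family: all `gens` for an `I`-fixed chart and `I`-fixed shifts. -/
def coreGens : Set (X → K) :=
  {f | ∃ (𝔠₀ : Ch) (s : Ω → P) (T : Fin n → X → K),
      G.Fix 𝔠₀ ∧ (∀ ω, ∀ τ ∈ I, τ • s ω = s ω) ∧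
      (∀ x : X, 𝒮.ι x - s (𝒮.q x) ∈ Ker) ∧
      (∀ x : X, IsCo 𝔠₀ (𝒮.ι x - s (𝒮.q x)) (fun i => T i x)) ∧
      f ∈ 𝒮.gens T}

variable {G 𝒮}

theorem gens_subset_coreGens {𝔠₀ : Ch} {s : Ω → P} {T : Fin n → X → K} (h1 : G.Fix 𝔠₀)
    (h2 : ∀ ω, ∀ τ ∈ I, τ • s ω = s ω) (hd : 𝒮.IsDatum IsCo 𝔠₀ s T) :
    𝒮.gens T ⊆ coreGens G 𝒮 :=
  fun _ hf => ⟨𝔠₀, s, T, h1, h2, hd.hs, hd.hT, hf⟩

variable (G 𝒮)

/-- existence of one datum with an `I`-fixed chart and `I`-fixed shifts. -/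
theorem exists_datum (hsys : ChartSys A IsCo Ker) :
    ∃ (𝔠₀ : Ch) (s : Ω → P) (T : Fin n → X → K),
      G.Fix 𝔠₀ ∧ (∀ ω, ∀ τ ∈ I, τ • s ω = s ω) ∧ 𝒮.IsDatum IsCo 𝔠₀ s T := by
  obtain ⟨𝔠₀, h𝔠₀⟩ := G.exists_fix
  choose s hsfix hsker using fun ω : Ω => G.exists_fixed_shift (𝒮.ι (𝒮.rep ω))
  have hs : ∀ x : X, 𝒮.ι x - s (𝒮.q x) ∈ Ker := by
    intro x
    have h3 := Ker.add_mem (𝒮.sub_rep_mem x) (hsker (𝒮.q x))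
    have h4 : 𝒮.ι x - 𝒮.ι (𝒮.rep (𝒮.q x)) + (𝒮.ι (𝒮.rep (𝒮.q x)) - s (𝒮.q x)) =
        𝒮.ι x - s (𝒮.q x) := by abel
    rwa [h4] at h3
  choose T hT using fun x : X => hsys.exists_coord 𝔠₀ _ (hs x)
  exact ⟨𝔠₀, s, fun i x => T x i, h𝔠₀, hsfix, ⟨hs, hT⟩⟩

end Family

section Core

variable (G : GalSys IsCo Ker D I) {X Ω : Type} (𝒮 : PSet Ker X Ω)
  (act : Γ → X → X) (hact : ∀ σ x, 𝒮.ι (act σ x) = σ • 𝒮.ι x)

/-- the generators are `A`-valued. -/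
theorem coreGens_valued (hsys : ChartSys A IsCo Ker) :
    ∀ f ∈ coreGens G 𝒮, ∀ x, f x ∈ A := by
  rintro f ⟨𝔠₀, s, T, -, -, hs, hT, hf⟩ x
  exact PSet.gens_valued hsys ⟨hs, hT⟩ f hf x

/-- the generators separate the points. -/
theorem coreGens_separate (hsys : ChartSys A IsCo Ker) (hι : Function.Injective 𝒮.ι) :
    ∀ x y : X, x ≠ y → ∃ f ∈ coreGens G 𝒮, f x ≠ f y := by
  intro x y hxy
  obtain ⟨𝔠₀, s, T, h1, h2, hd⟩ := exists_datum G 𝒮 hsys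
  obtain ⟨f, hf, hne⟩ := PSet.gens_separate hsys hι hd x y hxy
  exact ⟨f, gens_subset_coreGens h1 h2 hd hf, hne⟩

include hact

include G in
/-- inertia fixes every coset label. -/
theorem q_act_inertia (τ : Γ) (hτ : τ ∈ I) (x : X) : 𝒮.q (act τ x) = 𝒮.q x := by
  rw [𝒮.q_eq_iff, hact]
  exact G.inertia_sub τ hτ _

/-- the induced map on coset labels. -/
def qmap (σ : Γ) : Ω → Ω := fun ω => 𝒮.q (act σ (𝒮.rep ω))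

omit hact in
theorem qmap_def (σ : Γ) (ω : Ω) : qmap 𝒮 act σ ω = 𝒮.q (act σ (𝒮.rep ω)) := rfl

include G in
theorem q_act (σ : Γ) (hσ : σ ∈ D) (x : X) : 𝒮.q (act σ x) = qmap 𝒮 act σ (𝒮.q x) := by
  rw [qmap_def, 𝒮.q_eq_iff, hact, hact, ← smul_sub]
  exact G.ker_smul σ hσ _ (𝒮.sub_rep_mem x)

theorem q_act_act_inv (σ : Γ) (x : X) : 𝒮.q (act σ (act σ⁻¹ x)) = 𝒮.q x := by
  rw [𝒮.q_eq_iff, hact, hact, smul_inv_smul, sub_self]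
  exact Ker.zero_mem

theorem q_act_inv_act (σ : Γ) (x : X) : 𝒮.q (act σ⁻¹ (act σ x)) = 𝒮.q x := by
  rw [𝒮.q_eq_iff, hact, hact, inv_smul_smul, sub_self]
  exact Ker.zero_mem

/-- **inertia-equivariance.** -/
theorem coreGens_inertia (hsys : ChartSys A IsCo Ker) :
    ∀ f ∈ coreGens G 𝒮, ∀ τ ∈ I, ∀ x, f (act τ x) = τ • f x := by
  rintro f ⟨𝔠₀, s, T, hfix, hsfix, hs, hT, hf⟩ τ hτ x
  have hq := q_act_inertia G 𝒮 act hact τ hτ x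
  rcases hf with ⟨i, rfl⟩ | ⟨ω, rfl⟩
  · have h1 := hT (act τ x)
    rw [hq, hact] at h1
    have h2 := G.isCo_smul τ (G.hID hτ) 𝔠₀ _ _ (hT x)
    rw [G.fix_inertia 𝔠₀ hfix τ hτ, smul_sub, hsfix _ τ hτ] at h2
    exact congrFun (hsys.unique 𝔠₀ _ _ _ h1 h2) i
  · unfold PSet.ind
    rw [hq]
    split_ifs
    · rw [smul_one]
    · rw [smul_zero]

/-- **`D`-stability.** -/
theorem coreGens_decomp :
    ∀ f ∈ coreGens G 𝒮, ∀ σ ∈ D, (fun x => σ • f (act σ⁻¹ x)) ∈ coreGens G 𝒮 := by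
  rintro f ⟨𝔠₀, s, T, hfix, hsfix, hs, hT, hf⟩ σ hσ
  have hσi : σ⁻¹ ∈ D := D.inv_mem hσ
  set s' : Ω → P := fun ω => σ • s (qmap 𝒮 act σ⁻¹ ω) with hs'd
  set T' : Fin n → X → K := fun i x => σ • T i (act σ⁻¹ x) with hT'd
  have hcls : ∀ x : X, 𝒮.ι x - s' (𝒮.q x) =
      σ • (𝒮.ι (act σ⁻¹ x) - s (𝒮.q (act σ⁻¹ x))) := by
    intro x
    rw [hs'd]
    simp only
    rw [smul_sub, hact, smul_inv_smul, q_act G 𝒮 act hact σ⁻¹ hσi x]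
  have hs'fix : ∀ ω, ∀ τ ∈ I, τ • s' ω = s' ω := by
    intro ω τ hτ
    rw [hs'd]
    simp only
    have h1 := hsfix (qmap 𝒮 act σ⁻¹ ω) (σ⁻¹ * τ * σ) (G.hnorm σ hσ τ hτ)
    calc τ • σ • s (qmap 𝒮 act σ⁻¹ ω)
        = σ • ((σ⁻¹ * τ * σ) • s (qmap 𝒮 act σ⁻¹ ω)) := by
          rw [← mul_smul, ← mul_smul, ← mul_assoc, ← mul_assoc, mul_inv_cancel, one_mul]
      _ = σ • s (qmap 𝒮 act σ⁻¹ ω) := by rw [h1]
  have hs' : ∀ x : X, 𝒮.ι x - s' (𝒮.q x) ∈ Ker := by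
    intro x
    rw [hcls x]
    exact G.ker_smul σ hσ _ (hs _)
  have hT' : ∀ x : X, IsCo (G.actC σ 𝔠₀) (𝒮.ι x - s' (𝒮.q x)) (fun i => T' i x) := by
    intro x
    rw [hcls x]
    exact G.isCo_smul σ hσ 𝔠₀ _ _ (hT (act σ⁻¹ x))
  refine ⟨G.actC σ 𝔠₀, s', T', G.fix_smul 𝔠₀ hfix σ hσ, hs'fix, hs', hT', ?_⟩
  rcases hf with ⟨i, rfl⟩ | ⟨ω, rfl⟩
  · exact Or.inl ⟨i, rfl⟩
  · refine Or.inr ⟨qmap 𝒮 act σ ω, ?_⟩
    funext x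
    unfold PSet.ind
    have hiff : 𝒮.q x = qmap 𝒮 act σ ω ↔ 𝒮.q (act σ⁻¹ x) = ω := by
      constructor
      · intro h
        obtain ⟨y, rfl⟩ := 𝒮.q_surj ω
        rw [← q_act G 𝒮 act hact σ hσ y] at h
        rw [q_act G 𝒮 act hact σ⁻¹ hσi x, h, ← q_act G 𝒮 act hact σ⁻¹ hσi]
        exact q_act_inv_act 𝒮 act hact σ y
      · intro h
        rw [← h, ← q_act G 𝒮 act hact σ hσ]
        exact (q_act_act_inv 𝒮 act hact σ x).symm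
    by_cases hx : 𝒮.q (act σ⁻¹ x) = ω
    · rw [if_pos (hiff.2 hx), if_pos hx, smul_one]
    · rw [if_neg (fun h => hx (hiff.1 h)), if_neg hx, smul_zero]

end Core

/-! ### closure under sums and differences -/

section BiMap

variable (G : GalSys IsCo Ker D I)
variable {X₁ Ω₁ X₂ Ω₂ Y ΩY : Type} [Finite X₁] [Finite X₂]
  (𝒮₁ : PSet Ker X₁ Ω₁) (𝒮₂ : PSet Ker X₂ Ω₂) (𝒮Y : PSet Ker Y ΩY)

/-- **sums** (`Δ` of a group order, coaction of a torsor order). -/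
theorem coreGens_comp_add (hsys : ChartSys A IsCo Ker) (μ : X₁ × X₂ → Y)
    (hμ : ∀ p, 𝒮Y.ι (μ p) = 𝒮₁.ι p.1 + 𝒮₂.ι p.2) :
    ∀ f ∈ coreGens G 𝒮Y, (fun p : X₁ × X₂ => f (μ p)) ∈
      tens2 (Algebra.adjoin A (coreGens G 𝒮₁)) (Algebra.adjoin A (coreGens G 𝒮₂)) := by
  rintro f ⟨𝔠Y, sY, TY, hfix, hsfix, hs, hT, hf⟩
  obtain ⟨𝔠₁, s₁, T₁, h11, h12, hd₁⟩ := exists_datum G 𝒮₁ hsys
  obtain ⟨𝔠₂, s₂, T₂, h21, h22, hd₂⟩ := exists_datum G 𝒮₂ hsys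
  exact tens2_mono (Algebra.adjoin_mono (gens_subset_coreGens h11 h12 hd₁))
    (Algebra.adjoin_mono (gens_subset_coreGens h21 h22 hd₂))
    (comp_add_mem_tens2 hsys hd₁ hd₂ ⟨hs, hT⟩ μ hμ f (Algebra.subset_adjoin hf))

/-- **differences** (difference map of a torsor order). -/
theorem coreGens_comp_sub (hsys : ChartSys A IsCo Ker) (μ : X₁ × X₂ → Y)
    (hμ : ∀ p, 𝒮Y.ι (μ p) = 𝒮₁.ι p.1 - 𝒮₂.ι p.2) :
    ∀ f ∈ coreGens G 𝒮Y, (fun p : X₁ × X₂ => f (μ p)) ∈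
      tens2 (Algebra.adjoin A (coreGens G 𝒮₁)) (Algebra.adjoin A (coreGens G 𝒮₂)) := by
  rintro f ⟨𝔠Y, sY, TY, hfix, hsfix, hs, hT, hf⟩
  obtain ⟨𝔠₁, s₁, T₁, h11, h12, hd₁⟩ := exists_datum G 𝒮₁ hsys
  obtain ⟨𝔠₂, s₂, T₂, h21, h22, hd₂⟩ := exists_datum G 𝒮₂ hsys
  exact tens2_mono (Algebra.adjoin_mono (gens_subset_coreGens h11 h12 hd₁))
    (Algebra.adjoin_mono (gens_subset_coreGens h21 h22 hd₂))
    (comp_sub_mem_tens2 hsys hd₁ hd₂ ⟨hs, hT⟩ μ hμ f (Algebra.subset_adjoin hf))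

/-- `coreGens_comp_add` in the `Fin`-indexed shape of the descent node. -/
theorem coreGens_comp_add_fin (hsys : ChartSys A IsCo Ker) (μ : X₁ × X₂ → Y)
    (hμ : ∀ p, 𝒮Y.ι (μ p) = 𝒮₁.ι p.1 + 𝒮₂.ι p.2) :
    ∀ f ∈ coreGens G 𝒮Y, ∃ (m : ℕ) (a : Fin m → (X₁ → K)) (b : Fin m → (X₂ → K)),
      (∀ i, a i ∈ Algebra.adjoin A (coreGens G 𝒮₁)) ∧
      (∀ i, b i ∈ Algebra.adjoin A (coreGens G 𝒮₂)) ∧
      ∀ x y, f (μ (x, y)) = ∑ i, a i x * b i y := fun f hf =>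
  exists_fin_of_mem_tens2 (coreGens_comp_add G 𝒮₁ 𝒮₂ 𝒮Y hsys μ hμ f hf)

/-- `coreGens_comp_sub` in the `Fin`-indexed shape of the descent node. -/
theorem coreGens_comp_sub_fin (hsys : ChartSys A IsCo Ker) (μ : X₁ × X₂ → Y)
    (hμ : ∀ p, 𝒮Y.ι (μ p) = 𝒮₁.ι p.1 - 𝒮₂.ι p.2) :
    ∀ f ∈ coreGens G 𝒮Y, ∃ (m : ℕ) (a : Fin m → (X₁ → K)) (b : Fin m → (X₂ → K)),
      (∀ i, a i ∈ Algebra.adjoin A (coreGens G 𝒮₁)) ∧
      (∀ i, b i ∈ Algebra.adjoin A (coreGens G 𝒮₂)) ∧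
      ∀ x y, f (μ (x, y)) = ∑ i, a i x * b i y := fun f hf =>
  exists_fin_of_mem_tens2 (coreGens_comp_sub G 𝒮₁ 𝒮₂ 𝒮Y hsys μ hμ f hf)

end BiMap

end Fermat.Agent.GZ.LocR
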