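/-
GATE-Z (S15) / (LOC-r), node TORS-ORD, part 4 (helper92): **the adapter to the GATE-H frame** — the
generator families of GROUP orders and TORSOR orders on the smooth frame `H : LSpaceHyp R g c` with
the GAL contract `G : GH.GalFrame H n D I`.

* `kerRedSub H`      : the kernel of reduction as a subgroup of `Pic0`;
* `chartSys_smooth`  : `ChartSys R.A GH.IsCoord (kerRedSub H)` from `GH/L/Final.coordSpec_main`,
                       `GH/L/Inj.isCoord_class_unique` and `GZ/LocR/NegSub.specs_main` on the smooth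
                       disc frame (`GS/Frame/PlugSmooth*`);
* `galSys_of_galFrame G` : the abstract GAL contract from `GH.GalFrame`;
* `psetM H M`        : a subgroup `M ≤ Pic0` as a `P`-set with labels `M ⧸ kerRedOf H M`;
                       `gens_psetM : (psetM H M).gens T = GH.gens H M T`,
                       `coreGens_psetM : coreGens (galSys_of_galFrame G) (psetM H M) = GH.coreGens G M`;
* `psetX H X`, `coreGensX G X` : a subset `X ⊆ Pic0` as a `P`-set, and its generator family;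
* **`tors_core_asm`** : for a finite `Γ`-stable subgroup `M` and a finite `Γ`-stable subset `X` with
  `M + X ⊆ X`, `X - X ⊆ M`: `coreGensX G X` is `R.A`-valued, `I`-equivariant, `D`-stable, separating,
  with COACTION `f (m + x) = Σ a_i m * b_i x` (`a_i ∈ A[GH.coreGens G M]`, `b_i ∈ A[coreGensX G X]`)
  and DIFFERENCE `f (x - x') = Σ a_i x * b_i x'` for `f ∈ GH.coreGens G M` (`a_i, b_i ∈ A[coreGensX]`).
  The `M`-side family is the one of the S19 chain (`GH.core_asm`) VERBATIM.
-/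
import Mathlib
import Fermat.Agent.GZ.LocR.NegSub
import Fermat.Agent.GZ.LocR.TorsCore
import Fermat.Agent.GS.Frame.PlugSmoothContracts
import Fermat.Agent.GH.CoreAsm.Main

set_option autoImplicit false
set_option linter.unusedSectionVars false

noncomputable section

open AlgebraicCurve

namespace Fermat.Agent.GZ.LocR.Plug

open Fermat.Agent.RRh45 Fermat.Agent.GJ.S37MinDiv Fermat.Agent.GJ.J1 Fermat.Agent.GJ.S37LSpace
  Fermat.Agent.GJ.S37ROfSurj Fermat.Agent.GH Fermat.Agent.GZ.LocR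
  Fermat.Agent.GS.Frame.PlugSmooth

open scoped Classical

variable {K F k Ft : Type} [Field K] [Field F] [Algebra K F] [Field k] [Field Ft] [Algebra k Ft]
variable {R : RedData K F k Ft} {g c : ℤ}
variable [FiniteResidues K F] [HasPrincipalDivisors K F] [Nonempty (Place K F)]
variable [FiniteResidues k Ft] [HasPrincipalDivisors k Ft] [Nonempty (Place k Ft)]
variable [Infinite k]

/-- the kernel of reduction as a subgroup. -/
def kerRedSub (H : LSpaceHyp R g c) : AddSubgroup (Pic0 K F) where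
  carrier := KerRed H
  zero_mem' := zero_mem_KerRed H
  add_mem' := fun hx hy => add_mem_KerRed H hx hy
  neg_mem' := fun hx => neg_mem_KerRed H hx

@[simp] theorem mem_kerRedSub (H : LSpaceHyp R g c) (ξ : Pic0 K F) :
    ξ ∈ kerRedSub H ↔ ξ ∈ KerRed H := Iff.rfl

variable (H : LSpaceHyp R g c) {n : ℕ}

/-- **the chart system of the smooth frame.** -/
theorem chartSys_smooth (hn : (n : ℤ) = g)
    (harch : ∀ x y : K, R.A.valuation x < 1 → y ≠ 0 →
      ∃ m : ℕ, R.A.valuation x ^ m ≤ R.A.valuation y) :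
    ChartSys R.A (fun (𝔠 : GH.Chart H n) ξ τ => GH.IsCoord 𝔠 ξ τ) (kerRedSub H) := by
  have hsp := NegSub.specs_main (Φ := smoothDiscData H) (n := n) (smoothDiscFacts H) hn harch
    (chartSupply_smooth H hn.le)
  refine ⟨?_, ?_, ?_, ?_, ?_, ?_⟩
  · intro 𝔠 ξ hξ
    exact (GH.L.coordSpec_main H hn 𝔠 ξ hξ).1
  · intro 𝔠 ξ τ τ' h h'
    exact (GH.L.coordSpec_main H hn 𝔠 ξ h.mem_KerRed).2.1 τ τ' h h'
  · intro 𝔠 ξ τ h i
    exact (R.A.valuation_le_one_iff _).1 ((GH.L.coordSpec_main H hn 𝔠 ξ h.mem_KerRed).2.2 τ h i).le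
  · intro 𝔠 ξ ξ' τ h h'
    exact GH.L.isCoord_class_unique H 𝔠 h h'
  · intro 𝔞 𝔟 𝔠 Z _ ξ η τ σ μ hτ hσ hμ j
    exact hsp.add (chartOfGH H 𝔞) (chartOfGH H 𝔟) (chartOfGH H 𝔠) Z ξ η τ σ μ hτ hσ hμ j
  · intro 𝔞 𝔟 𝔠 Z _ ξ η τ σ μ hτ hσ hμ j
    exact hsp.sub (chartOfGH H 𝔞) (chartOfGH H 𝔟) (chartOfGH H 𝔠) Z ξ η τ σ μ hτ hσ hμ j

variable {H}
variable {Γ : Type} [Group Γ] [DistribMulAction Γ (Pic0 K F)] [MulSemiringAction Γ K]
  {D I : Subgroup Γ}

/-- the abstract GAL contract from `GH.GalFrame`. -/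
def galSys_of_galFrame (G : GalFrame H n D I) :
    GalSys (fun (𝔠 : GH.Chart H n) ξ τ => GH.IsCoord 𝔠 ξ τ) (kerRedSub H) D I where
  hID := G.hID
  hnorm := G.hnorm
  ker_smul := G.ker_smul
  inertia_sub := G.inertia_sub
  actC := G.actC
  isCo_smul := G.isCoord_smul
  Fix := G.Fix
  exists_fix := G.exists_fix
  fix_inertia := G.fix_inertia
  fix_smul := G.fix_smul
  exists_fixed_shift := G.exists_fixed_shift

/-! ### the `P`-sets -/

variable (H)

/-- a subgroup of `Pic0` as a `P`-set, with the labels of `GH/Ord/Main`. -/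
def psetM (M : AddSubgroup (Pic0 K F)) : PSet (kerRedSub H) M (M ⧸ kerRedOf H M) where
  ι := fun x => (x : Pic0 K F)
  q := QuotientAddGroup.mk
  q_surj := QuotientAddGroup.mk_surjective
  q_eq_iff := fun _ _ => mk_eq_mk_iff

/-- the coset relation on a subset of `Pic0`. -/
def cosetSetoid (X : Set (Pic0 K F)) : Setoid X where
  r x x' := (x : Pic0 K F) - x' ∈ KerRed H
  iseqv := by
    refine ⟨fun x => ?_, fun {x y} h => ?_, fun {x y z} h1 h2 => ?_⟩
    · rw [sub_self]; exact zero_mem_KerRed H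
    · have := neg_mem_KerRed H h
      rwa [neg_sub] at this
    · have := add_mem_KerRed H h1 h2
      rwa [sub_add_sub_cancel] at this

/-- a subset of `Pic0` as a `P`-set. -/
def psetX (X : Set (Pic0 K F)) : PSet (kerRedSub H) X (Quotient (cosetSetoid H X)) where
  ι := fun x => (x : Pic0 K F)
  q := Quotient.mk (cosetSetoid H X)
  q_surj := Quotient.mk_surjective
  q_eq_iff := fun _ _ => Quotient.eq (r := cosetSetoid H X)

variable {H}

theorem ind_psetM (M : AddSubgroup (Pic0 K F)) :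
    (psetM H M).ind K = GH.indQ H M := by
  funext ω x
  unfold PSet.ind GH.indQ
  by_cases h : (QuotientAddGroup.mk x : M ⧸ kerRedOf H M) = ω
  · rw [if_pos h, if_pos (show (psetM H M).q x = ω from h)]
  · rw [if_neg h, if_neg (show ¬ (psetM H M).q x = ω from h)]

theorem gens_psetM (M : AddSubgroup (Pic0 K F)) (T : Fin n → M → K) :
    (psetM H M).gens T = GH.gens H M T := by
  unfold PSet.gens GH.gens
  rw [ind_psetM]

theorem coreGens_psetM (G : GalFrame H n D I) (M : AddSubgroup (Pic0 K F)) :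
    LocR.coreGens (galSys_of_galFrame G) (psetM H M) = GH.coreGens G M := by
  ext f
  unfold LocR.coreGens GH.coreGens
  simp only [gens_psetM]
  rfl

/-- the generator family of a subset of `Pic0`. -/
def coreGensX (G : GalFrame H n D I) (X : Set (Pic0 K F)) : Set (X → K) :=
  LocR.coreGens (galSys_of_galFrame G) (psetX H X)

/-! ### the main theorem -/

section Main

variable (G : GalFrame H n D I) {M : AddSubgroup (Pic0 K F)} {X : Set (Pic0 K F)}
  (hX : ∀ (σ : Γ), ∀ x ∈ X, σ • x ∈ X)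

/-- the restricted action on a stable subset. -/
def actX (σ : Γ) (x : X) : X := ⟨σ • (x : Pic0 K F), hX σ x x.2⟩

@[simp] theorem coe_actX (σ : Γ) (x : X) : ((actX hX σ x : X) : Pic0 K F) = σ • (x : Pic0 K F) :=
  rfl

variable (hadd : ∀ m ∈ M, ∀ x ∈ X, m + x ∈ X) (hsub : ∀ x ∈ X, ∀ x' ∈ X, x - x' ∈ M)

/-- translation of the torsor by the group. -/
def vaddX (m : M) (x : X) : X := ⟨(m : Pic0 K F) + x, hadd m m.2 x x.2⟩

/-- the difference map of the torsor. -/
def vsubX (x x' : X) : M := ⟨(x : Pic0 K F) - x', hsub x x.2 x' x'.2⟩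

/-- **TORS-ORD on the GATE-H frame.** -/
theorem tors_core_asm (hn : (n : ℤ) = g)
    (harch : ∀ x y : K, R.A.valuation x < 1 → y ≠ 0 →
      ∃ m : ℕ, R.A.valuation x ^ m ≤ R.A.valuation y) [Finite M] [Finite X] :
    (∀ f ∈ coreGensX G X, ∀ x, f x ∈ R.A) ∧
    (∀ f ∈ coreGensX G X, ∀ τ ∈ I, ∀ x, f (actX hX τ x) = τ • f x) ∧
    (∀ f ∈ coreGensX G X, ∀ σ ∈ D, (fun x => σ • f (actX hX σ⁻¹ x)) ∈ coreGensX G X) ∧
    (∀ x y : X, x ≠ y → ∃ f ∈ coreGensX G X, f x ≠ f y) ∧
    (∀ f ∈ coreGensX G X, ∃ (m : ℕ) (a : Fin m → (M → K)) (b : Fin m → (X → K)),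
      (∀ i, a i ∈ Algebra.adjoin R.A (GH.coreGens G M)) ∧
      (∀ i, b i ∈ Algebra.adjoin R.A (coreGensX G X)) ∧
      ∀ (y : M) (x : X), f (vaddX hadd y x) = ∑ i, a i y * b i x) ∧
    (∀ f ∈ GH.coreGens G M, ∃ (m : ℕ) (a b : Fin m → (X → K)),
      (∀ i, a i ∈ Algebra.adjoin R.A (coreGensX G X)) ∧
      (∀ i, b i ∈ Algebra.adjoin R.A (coreGensX G X)) ∧
      ∀ x x' : X, f (vsubX hsub x x') = ∑ i, a i x * b i x') := by
  have hsys := chartSys_smooth H (n := n) hn harch
  refine ⟨?_, ?_, ?_, ?_, ?_, ?_⟩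
  · exact coreGens_valued (galSys_of_galFrame G) (psetX H X) hsys
  · exact coreGens_inertia (galSys_of_galFrame G) (psetX H X) (actX hX) (fun _ _ => rfl) hsys
  · exact coreGens_decomp (galSys_of_galFrame G) (psetX H X) (actX hX) (fun _ _ => rfl)
  · exact coreGens_separate (galSys_of_galFrame G) (psetX H X) hsys Subtype.val_injective
  · intro f hf
    have h := coreGens_comp_add_fin (galSys_of_galFrame G) (psetM H M) (psetX H X) (psetX H X) hsys
      (fun p : M × X => vaddX hadd p.1 p.2) (fun _ => rfl) f hf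
    rw [coreGens_psetM] at h
    exact h
  · intro f hf
    have hf' : f ∈ LocR.coreGens (galSys_of_galFrame G) (psetM H M) := by
      rw [coreGens_psetM]; exact hf
    exact coreGens_comp_sub_fin (galSys_of_galFrame G) (psetX H X) (psetX H X) (psetM H M) hsys
      (fun p : X × X => vsubX hsub p.1 p.2) (fun _ => rfl) f hf'

end Main

end Fermat.Agent.GZ.LocR.Plug
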