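/-
GATE-Z (S15) / (LOC-r), node (FL) (helper92): **Kummer cocycles of rational classes are FLAT at `ℓ`**
— admissible levels (`ℓ ∤ N`, `ℓ = 2 → 3 ∣ N`, `ℓ = 3 → 2 ∣ N`: the levels at which the GATE-H frame
exists).

COCYCLE FORM.  For `R₀ : JZero N` with `ℓ^k • R₀` rational, `c σ := σ • R₀ - R₀ ∈ J₀(N)[ℓ^k] =: M` is the
Kummer cocycle of `z = ℓ^k • R₀`, and the Kummer torsor `{x | ℓ^k • x = z} = R₀ + M` is `M` itself (as a
torsor over itself) with the TWISTED action `kumAct σ x = σ • x + c σ`.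

* `PSet.ofMap`      : the `P`-set of a map `ι : X → P` (labels = the quotient of `X`);
* `twist_core_asm`  : FRAME level — for a `Γ`-stable finite subgroup `M ≤ Pic0` and `R₀` with
  `σ • R₀ - R₀ ∈ M`, the generator family `coreGensTw G M R₀` of the `P`-set `x ↦ R₀ + x` on `M` is
  `A`-valued, `I`-equivariant and `D`-stable for the twisted action, separating, with COACTION and
  DIFFERENCE relative to `GH.coreGens G M`;
* **`flat_kummer_admissible`** : LEVEL `N` — there is ONE function order `HM` on `J₀(N)[ℓ^k]`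
  (`IsStableOrder ℚ actM HM`, the order of the S19 chain: `W[GH.coreGens] ∩ Map_{G_ℚ}`) such that for
  EVERY `R₀` with `ℓ^k • R₀` rational the twisted torsor has a torsor order relative to `HM`:
  `IsTorsorOrderPair ℚ actM (kumAct N k R₀ hR₀) HM HX`, in particular
  `HasTorsorOrder (kumAct N k R₀ hR₀) HM`.
-/
import Mathlib
import Fermat.Agent.GZ.LocR.TorsPlug
import Fermat.Agent.GZ.LocR.TorsN1Inst
import Fermat.Agent.GH.Top.AddPlug
import Fermat.Agent.GH.Gal.Node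
import Fermat.Agent.GR.W.KummerUnr

set_option autoImplicit false
set_option linter.unusedSectionVars false
set_option linter.unusedVariables false
set_option linter.style.haveILetI false
set_option synthInstance.maxHeartbeats 400000
set_option maxHeartbeats 1000000

noncomputable section

open AlgebraicCurve

namespace Fermat.Agent.GZ.LocR

/-! ### the `P`-set of a map -/

section OfMap

variable {P : Type} [AddCommGroup P] (Ker : AddSubgroup P) {X : Type} (ι : X → P)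

/-- the coset relation of a map `ι : X → P`. -/
def kerSetoid : Setoid X where
  r x x' := ι x - ι x' ∈ Ker
  iseqv := by
    refine ⟨fun x => ?_, fun {x y} h => ?_, fun {x y z} h1 h2 => ?_⟩
    · rw [sub_self]; exact Ker.zero_mem
    · have := Ker.neg_mem h
      rwa [neg_sub] at this
    · have := Ker.add_mem h1 h2
      rwa [sub_add_sub_cancel] at this

/-- the `P`-set of a map, labelled by the quotient. -/
def PSet.ofMap : PSet Ker X (Quotient (kerSetoid Ker ι)) where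
  ι := ι
  q := Quotient.mk (kerSetoid Ker ι)
  q_surj := Quotient.mk_surjective
  q_eq_iff := fun _ _ => Quotient.eq (r := kerSetoid Ker ι)

@[simp] theorem PSet.ofMap_ι : (PSet.ofMap Ker ι).ι = ι := rfl

end OfMap

namespace Plug

open Fermat.Agent.RRh45 Fermat.Agent.GJ.S37MinDiv Fermat.Agent.GJ.J1 Fermat.Agent.GJ.S37LSpace
  Fermat.Agent.GJ.S37ROfSurj Fermat.Agent.GH

open scoped Classical

variable {K F k Ft : Type} [Field K] [Field F] [Algebra K F] [Field k] [Field Ft] [Algebra k Ft]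
variable {R : RedData K F k Ft} {g c : ℤ}
variable [FiniteResidues K F] [HasPrincipalDivisors K F] [Nonempty (Place K F)]
variable [FiniteResidues k Ft] [HasPrincipalDivisors k Ft] [Nonempty (Place k Ft)]
variable [Infinite k]
variable {H : LSpaceHyp R g c} {n : ℕ}
variable {Γ : Type} [Group Γ] [DistribMulAction Γ (Pic0 K F)] [MulSemiringAction Γ K]
  {D I : Subgroup Γ}

section Twist

variable {M : AddSubgroup (Pic0 K F)} (hM : ∀ (σ : Γ), ∀ x ∈ M, σ • x ∈ M)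
  (R₀ : Pic0 K F) (hR₀ : ∀ σ : Γ, σ • R₀ - R₀ ∈ M)

/-- the twisted action `σ *_c x = σ • x + (σ • R₀ - R₀)` on `M`. -/
def twistAct (σ : Γ) (x : M) : M := actM hM σ x + ⟨σ • R₀ - R₀, hR₀ σ⟩

@[simp] theorem coe_twistAct (σ : Γ) (x : M) :
    ((twistAct hM R₀ hR₀ σ x : M) : Pic0 K F) = σ • (x : Pic0 K F) + (σ • R₀ - R₀) := rfl

theorem twistAct_one (x : M) : twistAct hM R₀ hR₀ 1 x = x := by
  apply Subtype.ext
  rw [coe_twistAct, one_smul, one_smul, sub_self, add_zero]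

theorem twistAct_mul (σ τ : Γ) (x : M) :
    twistAct hM R₀ hR₀ (σ * τ) x = twistAct hM R₀ hR₀ σ (twistAct hM R₀ hR₀ τ x) := by
  apply Subtype.ext
  simp only [coe_twistAct, mul_smul, smul_add, smul_sub]
  abel

theorem twistAct_vadd (σ : Γ) (y x : M) :
    twistAct hM R₀ hR₀ σ (y + x) = actM hM σ y + twistAct hM R₀ hR₀ σ x := by
  apply Subtype.ext
  simp only [coe_twistAct, AddSubgroup.coe_add, coe_actM, smul_add]
  abel

variable (H) (M)

/-- the `P`-set `x ↦ R₀ + x` on `M`. -/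
def psetTw : PSet (kerRedSub H) M
    (Quotient (kerSetoid (kerRedSub H) (fun x : M => R₀ + (x : Pic0 K F)))) :=
  PSet.ofMap (kerRedSub H) (fun x : M => R₀ + (x : Pic0 K F))

variable {H}

/-- the generator family of the twisted torsor. -/
def coreGensTw (G : GalFrame H n D I) : Set (M → K) :=
  LocR.coreGens (galSys_of_galFrame G) (psetTw H M R₀)

variable {M}

/-- **TORS-ORD, cocycle form, on the GATE-H frame.** -/
theorem twist_core_asm (G : GalFrame H n D I) (hn : (n : ℤ) = g)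
    (harch : ∀ x y : K, R.A.valuation x < 1 → y ≠ 0 →
      ∃ m : ℕ, R.A.valuation x ^ m ≤ R.A.valuation y) [Finite M] :
    (∀ f ∈ coreGensTw M R₀ G, ∀ x, f x ∈ R.A) ∧
    (∀ f ∈ coreGensTw M R₀ G, ∀ τ ∈ I, ∀ x, f (twistAct hM R₀ hR₀ τ x) = τ • f x) ∧
    (∀ f ∈ coreGensTw M R₀ G, ∀ σ ∈ D,
      (fun x => σ • f (twistAct hM R₀ hR₀ σ⁻¹ x)) ∈ coreGensTw M R₀ G) ∧
    (∀ x y : M, x ≠ y → ∃ f ∈ coreGensTw M R₀ G, f x ≠ f y) ∧
    (∀ f ∈ coreGensTw M R₀ G, ∃ (m : ℕ) (a : Fin m → (M → K)) (b : Fin m → (M → K)),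
      (∀ i, a i ∈ Algebra.adjoin R.A (GH.coreGens G M)) ∧
      (∀ i, b i ∈ Algebra.adjoin R.A (coreGensTw M R₀ G)) ∧
      ∀ (y x : M), f (y + x) = ∑ i, a i y * b i x) ∧
    (∀ f ∈ GH.coreGens G M, ∃ (m : ℕ) (a b : Fin m → (M → K)),
      (∀ i, a i ∈ Algebra.adjoin R.A (coreGensTw M R₀ G)) ∧
      (∀ i, b i ∈ Algebra.adjoin R.A (coreGensTw M R₀ G)) ∧
      ∀ x x' : M, f (x - x') = ∑ i, a i x * b i x') := by
  have hsys := chartSys_smooth H (n := n) hn harch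
  have hact : ∀ (σ : Γ) (x : M), (psetTw H M R₀).ι (twistAct hM R₀ hR₀ σ x) =
      σ • (psetTw H M R₀).ι x := by
    intro σ x
    show R₀ + (σ • (x : Pic0 K F) + (σ • R₀ - R₀)) = σ • (R₀ + (x : Pic0 K F))
    rw [smul_add]
    abel
  refine ⟨?_, ?_, ?_, ?_, ?_, ?_⟩
  · exact coreGens_valued (galSys_of_galFrame G) (psetTw H M R₀) hsys
  · exact coreGens_inertia (galSys_of_galFrame G) (psetTw H M R₀) (twistAct hM R₀ hR₀) hact hsys
  · exact coreGens_decomp (galSys_of_galFrame G) (psetTw H M R₀) (twistAct hM R₀ hR₀) hact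
  · refine coreGens_separate (galSys_of_galFrame G) (psetTw H M R₀) hsys ?_
    intro x y hxy
    exact Subtype.ext (add_left_cancel (a := R₀) hxy)
  · intro f hf
    have h := coreGens_comp_add_fin (galSys_of_galFrame G) (psetM H M) (psetTw H M R₀)
      (psetTw H M R₀) hsys (fun p : M × M => p.1 + p.2) (fun p => by
        show R₀ + ((p.1 + p.2 : M) : Pic0 K F) = (p.1 : Pic0 K F) + (R₀ + (p.2 : Pic0 K F))
        push_cast
        abel) f hf
    rw [coreGens_psetM] at h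
    exact h
  · intro f hf
    have hf' : f ∈ LocR.coreGens (galSys_of_galFrame G) (psetM H M) := by
      rw [coreGens_psetM]; exact hf
    exact coreGens_comp_sub_fin (galSys_of_galFrame G) (psetTw H M R₀) (psetTw H M R₀)
      (psetM H M) hsys (fun p : M × M => p.1 - p.2) (fun p => by
        show ((p.1 - p.2 : M) : Pic0 K F) = (R₀ + (p.1 : Pic0 K F)) - (R₀ + (p.2 : Pic0 K F))
        push_cast
        abel) f hf'

end Twist

end Plug

/-! ### level `N` -/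

namespace Flat

open ModularCurve GaloisRep Fermat.Agent.GH.Closure Fermat.Agent.GH Fermat.Agent.GH.Inst
  Fermat.Agent.GH.Top Fermat.Agent.GZ.LocR.Plug Fermat.Agent.GZ.LocR.N1Inst
open Fermat.Agent.RRh45 Fermat.Agent.GJ.S37MinDiv Fermat.Agent.GJ.J1 Fermat.Agent.GJ.J1.Val
  Fermat.Agent.GJ.S37LSpace Fermat.Agent.GJ.S37ROfSurj

local notation "Qb" => AlgebraicClosure ℚ
local notation "GQ" => (AlgebraicClosure ℚ ≃ₐ[ℚ] AlgebraicClosure ℚ)

variable (N : ℕ) [NeZero N] {ℓ : ℕ} [hℓ : Fact ℓ.Prime] (k : ℕ)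

/-- the Kummer cocycle `σ ↦ σ • R₀ - R₀` of `z = ℓ^k • R₀` has values in `J₀(N)[ℓ^k]`. -/
theorem kum_mem (R₀ : JZero N) (hR₀ : ∀ σ : GQ, σ • (((ℓ : ℤ) ^ k) • R₀) = ((ℓ : ℤ) ^ k) • R₀)
    (σ : GQ) : σ • R₀ - R₀ ∈ torsSub N ((ℓ : ℤ) ^ k) := by
  show σ • R₀ - R₀ ∈ Submodule.torsionBy ℤ (JZero N) ((ℓ : ℤ) ^ k)
  rw [Submodule.mem_torsionBy_iff, smul_sub]
  have h2 := map_zsmul (DistribSMul.toAddMonoidHom (JZero N) σ) ((ℓ : ℤ) ^ k) R₀
  simp only [DistribSMul.toAddMonoidHom_apply] at h2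
  rw [← h2, hR₀ σ, sub_self]

/-- **the twisted action on `J₀(N)[ℓ^k]`** of the Kummer cocycle of `ℓ^k • R₀`. -/
def kumAct (R₀ : JZero N) (hR₀ : ∀ σ : GQ, σ • (((ℓ : ℤ) ^ k) • R₀) = ((ℓ : ℤ) ^ k) • R₀)
    (σ : GQ) (x : torsSub N ((ℓ : ℤ) ^ k)) : torsSub N ((ℓ : ℤ) ^ k) :=
  twistAct (torsSub_stable N ((ℓ : ℤ) ^ k)) R₀ (kum_mem N k R₀ hR₀) σ x

theorem coe_kumAct (R₀ : JZero N) (hR₀ : ∀ σ : GQ, σ • (((ℓ : ℤ) ^ k) • R₀) = ((ℓ : ℤ) ^ k) • R₀)
    (σ : GQ) (x : torsSub N ((ℓ : ℤ) ^ k)) :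
    ((kumAct N k R₀ hR₀ σ x : torsSub N ((ℓ : ℤ) ^ k)) : JZero N) =
      σ • (x : JZero N) + (σ • R₀ - R₀) := rfl

/-- finite level of the twisted action. -/
theorem hlev_kumAct (R₀ : JZero N)
    (hR₀ : ∀ σ : GQ, σ • (((ℓ : ℤ) ^ k) • R₀) = ((ℓ : ℤ) ^ k) • R₀) :
    ∃ U : Subgroup GQ, IsOpen (U : Set GQ) ∧ ∀ σ ∈ U, ∀ x, kumAct N k R₀ hR₀ σ x = x := by
  obtain ⟨U, hU, hfix⟩ := hlev_torsSub (ℓ := ℓ) N k
  refine ⟨U ⊓ MulAction.stabilizer GQ R₀, ?_, ?_⟩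
  · exact IsOpen.inter hU (Fermat.Agent.GR.W.KummerUnr.isOpen_stabilizer_jzero N R₀)
  · rintro σ ⟨hσU, hσR⟩ x
    apply Subtype.ext
    rw [coe_kumAct]
    have h1 : σ • (x : JZero N) = (x : JZero N) :=
      congrArg (fun y : torsSub N ((ℓ : ℤ) ^ k) => (y : JZero N)) (hfix σ hσU x)
    have h2 : σ • R₀ = R₀ := MulAction.mem_stabilizer_iff.1 hσR
    rw [h1, h2, sub_self, add_zero]

/-- **(FL), admissible levels.** -/
theorem flat_kummer_admissible (h1 : ¬ ℓ ∣ N) (h2 : ℓ = 2 → 3 ∣ N) (h3 : ℓ = 3 → 2 ∣ N) :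
    ∃ HM : Subalgebra (ratLocalizedAt ℓ) (torsSub N ((ℓ : ℤ) ^ k) → Qb),
      N0.IsStableOrder ℚ (fun σ x => actM (torsSub_stable N ((ℓ : ℤ) ^ k)) σ x) HM ∧
      ∀ (R₀ : JZero N) (hR₀ : ∀ σ : GQ, σ • (((ℓ : ℤ) ^ k) • R₀) = ((ℓ : ℤ) ^ k) • R₀),
        ∃ HX : Subalgebra (ratLocalizedAt ℓ) (torsSub N ((ℓ : ℤ) ^ k) → Qb),
          IsTorsorOrderPair ℚ (fun σ x => actM (torsSub_stable N ((ℓ : ℤ) ^ k)) σ x)
            (kumAct N k R₀ hR₀) HM HX := by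
  have hℓp : ℓ.Prime := hℓ.out
  obtain ⟨A, hAℓ⟩ := exists_place_over hℓp
  obtain ⟨g, c, n, H, hn⟩ := exists_frame_bar N A hℓp h1 h2 h3 hAℓ
  have := finiteResidues_bar N
  have := finiteResidues_fresBar N A
  have := hasPrincipalDivisors_fresBar N A
  have := nonempty_place_fresBar N A
  have := infinite_kA A
  have := Fermat.Agent.GH.TorsionLevel.finite_torsionBy_pow N ℓ hℓp.ne_zero k
  obtain ⟨G⟩ := Fermat.Agent.GH.Gal.Node.galNode ℓ N A hAℓ h1 h2 h3 g c H n hn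
  have harch := harch_bar N A hℓp hAℓ
  have hadd : AddSpec H n := Fermat.Agent.GH.Add.addSpec_main H hn harch
  set M := torsSub N ((ℓ : ℤ) ^ k) with hMdef
  have hMst := torsSub_stable N ((ℓ : ℤ) ^ k)
  obtain ⟨c1, c2, c3, c4, c5⟩ := core_asm G (M := M) hMst
    (Fermat.Agent.GH.L.coordSpec_main H hn) (Fermat.Agent.GH.L.coordInj_main H n)
    (Fermat.Agent.GH.L.chartSupply_main H hn.le) hadd
  -- the pair for a given `R₀`
  have key : ∀ (R₀ : JZero N) (hR₀ : ∀ σ : GQ, σ • (((ℓ : ℤ) ^ k) • R₀) = ((ℓ : ℤ) ^ k) • R₀),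
      ∃ (HM : Subalgebra (ratLocalizedAt ℓ) (M → Qb)) (HX : Subalgebra (ratLocalizedAt ℓ) (M → Qb)),
        (∀ f, f ∈ HM ↔ f ∈ Algebra.adjoin (Fermat.Agent.GH.N1Inst.wRing A) (GH.coreGens G M) ∧
          ∀ (σ : GQ) (x : M), f (actM hMst σ x) = σ (f x)) ∧
        IsTorsorOrderPair ℚ (fun σ x => actM hMst σ x) (kumAct N k R₀ hR₀) HM HX := by
    intro R₀ hR₀
    obtain ⟨t1, t2, t3, t4, t5, t6⟩ := twist_core_asm hMst R₀ (kum_mem N k R₀ hR₀) G hn harch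
    obtain ⟨HM, HX, hHM, -, hpair⟩ := exists_torsor_order_of_generators (M := M) (X := M) A
      (actM hMst) (actM_one hMst) (actM_mul hMst) (hlev_torsSub N k)
      (kumAct N k R₀ hR₀) (twistAct_one hMst R₀ (kum_mem N k R₀ hR₀))
      (twistAct_mul hMst R₀ (kum_mem N k R₀ hR₀)) (hlev_kumAct N k R₀ hR₀)
      (fun σ y x => twistAct_vadd hMst R₀ (kum_mem N k R₀ hR₀) σ y x) hAℓ
      (GH.coreGens G M) c1 c2 c3 c4 c5
      (coreGensTw M R₀ G) t1 t2 t3 t4 t5 t6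
    exact ⟨HM, HX, hHM, hpair⟩
  -- the group order does not depend on `R₀`
  have h0 : ∀ σ : GQ, σ • (((ℓ : ℤ) ^ k) • (0 : JZero N)) = ((ℓ : ℤ) ^ k) • (0 : JZero N) := by
    intro σ
    rw [smul_zero]
    exact smul_zero (A := JZero N) σ
  obtain ⟨HM, HX0, hHM, hpair0⟩ := key 0 h0
  refine ⟨HM, hpair0.group, fun R₀ hR₀ => ?_⟩
  obtain ⟨HM', HX, hHM', hpair⟩ := key R₀ hR₀
  have hEq : HM' = HM := by
    ext f
    rw [hHM' f, hHM f]
  rw [hEq] at hpair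
  exact ⟨HX, hpair⟩

/-- **(FL), admissible levels, `HasTorsorOrder` form.** -/
theorem hasTorsorOrder_kummer_admissible (h1 : ¬ ℓ ∣ N) (h2 : ℓ = 2 → 3 ∣ N) (h3 : ℓ = 3 → 2 ∣ N) :
    ∃ HM : Subalgebra (ratLocalizedAt ℓ) (torsSub N ((ℓ : ℤ) ^ k) → Qb),
      N0.IsStableOrder ℚ (fun σ x => actM (torsSub_stable N ((ℓ : ℤ) ^ k)) σ x) HM ∧
      ∀ (R₀ : JZero N) (hR₀ : ∀ σ : GQ, σ • (((ℓ : ℤ) ^ k) • R₀) = ((ℓ : ℤ) ^ k) • R₀),
        HasTorsorOrder (kumAct N k R₀ hR₀) HM := by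
  obtain ⟨HM, hHM, h⟩ := flat_kummer_admissible N k h1 h2 h3
  exact ⟨HM, hHM, fun R₀ hR₀ => by
    obtain ⟨HX, hp⟩ := h R₀ hR₀
    exact ⟨HX, hp.torsor⟩⟩

end Flat

end Fermat.Agent.GZ.LocR
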