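/-
GATE-Z (S15) / (LOC-r), node (FL), AUX-LEVEL TRANSFER, abstract half (helper92): flatness of Kummer
cochains descends along a subquotient `J[ℓ^k] ↞ S ↪ J'[ℓ^(k+v)]` (the torsor form of helper72's
`GH/Aux23/Subquot.exists_subquot`).  Mathlib + helper79's `GZ/Kum/TorsModel` + helper94's
`GZ/LocR/FlatSub` + helper5's `GS/ClosureW`.

`G` acts on abelian groups `J`, `J'`; `π : J →+ J'` equivariant with kernel killed by `d ∣ ℓ^v`;
`ℓ^v : J[ℓ^(k+v)] → J[ℓ^k]` onto.  The action on `J[n] = torsSub J n` is helper79's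
`instDistribMulActionTorsSub`, as a function `smulAct G ↥(torsSub J n)` (helper94's vocabulary, so
that `flatX` applies).

* `KumFlat n HM` : every cochain `x : G → J[n]` computing `σ ↦ σ • R₀ - R₀` for a point `R₀` with
  `n • R₀` rational is flat relative to the function order `HM` on `J[n]` (this is the binder `hFL` of
  helper79's `GZ/Kum/Plug.kumHyp` / `HeckePlug.kummer_package` with `XL := flatX h`);
* **`exists_flat_of_aux`** : a stable order `H'` on `J'[ℓ^(k+v)]` with `KumFlat (ℓ^(k+v)) H'` induces a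
  stable order `H` on `J[ℓ^k]` (restriction to `S = π (J[ℓ^(k+v)])`, then quotient along
  `φ (π t) = ℓ^v • t`) such that every Kummer cochain of `ℓ^v • R₂` is flat relative to `H`, for every
  `R₂` with `ℓ^(k+v) • R₂` rational;
* `kumFlat_of_aux` : the same with the division point supplied by divisibility of `J`.
-/
import Mathlib
import Fermat.Agent.GZ.Kum.TorsModel
import Fermat.Agent.GZ.LocR.FlatSub.Smul

set_option autoImplicit false
set_option linter.unusedSectionVars false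
set_option linter.unusedVariables false

namespace Fermat.Agent.GZ.LocR.FlatAux

open Fermat.Agent.GH.N0 Fermat.Agent.GS.ClosureW Fermat.Agent.GZ.LocR.FlatSub
  Fermat.Agent.GZ.Kum.TorsModel

section Defs

variable {G : Type*} [Group G] {J : Type*} [AddCommGroup J] [DistribMulAction G J] (n : ℕ)

theorem smul_nsmul_comm (σ : G) (m : ℕ) (x : J) : σ • (m • x) = m • (σ • x) :=
  map_nsmul (DistribSMul.toAddMonoidHom J σ) m x

theorem kum_mem (R₀ : J) (hR₀ : ∀ σ : G, σ • (n • R₀) = n • R₀) (σ : G) :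
    σ • R₀ - R₀ ∈ torsSub J n := by
  rw [mem_torsSub, smul_sub, ← smul_nsmul_comm, hR₀ σ, sub_self]

/-- the Kummer cocycle of the rational point `n • R₀`. -/
def kumCoc (R₀ : J) (hR₀ : ∀ σ : G, σ • (n • R₀) = n • R₀) : G → ↥(torsSub J n) :=
  fun σ => ⟨σ • R₀ - R₀, kum_mem n R₀ hR₀ σ⟩

@[simp] theorem coe_kumCoc (R₀ : J) (hR₀ : ∀ σ : G, σ • (n • R₀) = n • R₀) (σ : G) :
    ((kumCoc n R₀ hR₀ σ : ↥(torsSub J n)) : J) = σ • R₀ - R₀ := rfl

theorem eq_kumCoc (R₀ : J) (hR₀ : ∀ σ : G, σ • (n • R₀) = n • R₀) (x : G → ↥(torsSub J n))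
    (hx : ∀ σ, torsι J n (x σ) = σ • R₀ - R₀) : x = kumCoc n R₀ hR₀ := by
  funext σ
  exact Subtype.ext (hx σ)

end Defs

section Abs

variable {R : Type*} [CommRing R] [IsDomain R] [IsPrincipalIdealRing R]
variable {F : Type*} [Field F] [Algebra R F] [IsFractionRing R F]
variable {K : Type*} [Field K] [CharZero K] [Algebra F K] [Algebra R K] [IsScalarTower R F K]
variable {G : Type*} [Group G] [MulSemiringAction G K]
variable {J J' : Type*} [AddCommGroup J] [AddCommGroup J'] [DistribMulAction G J]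
  [DistribMulAction G J']

/-- every Kummer cochain valued in `J[n]` is flat relative to `HM` (the binder `hFL`). -/
def KumFlat (G : Type*) [Group G] [MulSemiringAction G K] {J : Type*} [AddCommGroup J]
    [DistribMulAction G J] (n : ℕ) (HM : Subalgebra R (↥(torsSub J n) → K)) : Prop :=
  ∀ R₀ : J, (∀ σ : G, σ • (n • R₀) = n • R₀) → ∀ x : G → ↥(torsSub J n),
    (∀ σ, torsι J n (x σ) = σ • R₀ - R₀) → IsFlat (smulAct G ↥(torsSub J n)) HM x

/-- `KumFlat` in terms of the cocycles `kumCoc`. -/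
theorem kumFlat_iff (n : ℕ) (HM : Subalgebra R (↥(torsSub J n) → K)) :
    KumFlat G n HM ↔ ∀ (R₀ : J) (hR₀ : ∀ σ : G, σ • (n • R₀) = n • R₀),
      IsFlat (smulAct G ↥(torsSub J n)) HM (kumCoc n R₀ hR₀) := by
  constructor
  · intro h R₀ hR₀
    exact h R₀ hR₀ _ (fun σ => rfl)
  · intro h R₀ hR₀ x hx
    rw [eq_kumCoc n R₀ hR₀ x hx]
    exact h R₀ hR₀

/-- the `hFL` binder in `flatX` form. -/
theorem KumFlat.mem_flatX {n : ℕ} {HM : Subalgebra R (↥(torsSub J n) → K)} [Finite ↥(torsSub J n)]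
    (hfl : KumFlat G n HM) (h : IsStableOrder F (smulAct G ↥(torsSub J n)) HM) (R₀ : J)
    (hR₀ : ∀ σ : G, σ • (n • R₀) = n • R₀) (x : G → ↥(torsSub J n))
    (hx : ∀ σ, torsι J n (x σ) = σ • R₀ - R₀) : x ∈ flatX h :=
  hfl R₀ hR₀ x hx

section Maps

variable (π : J →+ J') (ℓ v k : ℕ)

/-- `π` on `ℓ^(k+v)`-torsion. -/
def πT : ↥(torsSub J (ℓ ^ (k + v))) →+ ↥(torsSub J' (ℓ ^ (k + v))) where
  toFun t := ⟨π (t : J), by
    rw [mem_torsSub, ← map_nsmul, mem_torsSub.1 t.2, map_zero]⟩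
  map_zero' := Subtype.ext (map_zero π)
  map_add' a b := Subtype.ext (map_add π (a : J) (b : J))

@[simp] theorem coe_πT (t : ↥(torsSub J (ℓ ^ (k + v)))) :
    ((πT π ℓ v k t : ↥(torsSub J' (ℓ ^ (k + v)))) : J') = π (t : J) := rfl

variable (J) in
/-- multiplication by `ℓ^v` from `J[ℓ^(k+v)]` to `J[ℓ^k]`. -/
def ψ : ↥(torsSub J (ℓ ^ (k + v))) →+ ↥(torsSub J (ℓ ^ k)) where
  toFun t := ⟨(ℓ ^ v) • (t : J), by
    rw [mem_torsSub, ← mul_smul, ← pow_add]
    exact mem_torsSub.1 t.2⟩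
  map_zero' := Subtype.ext (smul_zero _)
  map_add' a b := Subtype.ext (smul_add _ (a : J) (b : J))

@[simp] theorem coe_ψ (t : ↥(torsSub J (ℓ ^ (k + v)))) :
    ((ψ J ℓ v k t : ↥(torsSub J (ℓ ^ k))) : J) = (ℓ ^ v) • (t : J) := rfl

end Maps

/-- **AUX-LEVEL TRANSFER.** -/
theorem exists_flat_of_aux (π : J →+ J') (hπ : ∀ (σ : G) (x : J), π (σ • x) = σ • π x) (d : ℕ)
    (hker : ∀ x : J, π x = 0 → d • x = 0) (ℓ v k : ℕ) (hd : d ∣ ℓ ^ v)
    (hdiv : ∀ y : J, (ℓ ^ k) • y = 0 → ∃ t : J, (ℓ ^ v) • t = y)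
    [Finite ↥(torsSub J (ℓ ^ k))] [Finite ↥(torsSub J' (ℓ ^ (k + v)))]
    {H' : Subalgebra R (↥(torsSub J' (ℓ ^ (k + v))) → K)}
    (hH' : IsStableOrder F (smulAct G ↥(torsSub J' (ℓ ^ (k + v)))) H')
    (hfl : KumFlat G (ℓ ^ (k + v)) H') :
    ∃ H : Subalgebra R (↥(torsSub J (ℓ ^ k)) → K),
      IsStableOrder F (smulAct G ↥(torsSub J (ℓ ^ k))) H ∧
      ∀ R₂ : J, (∀ σ : G, σ • ((ℓ ^ (k + v)) • R₂) = (ℓ ^ (k + v)) • R₂) →
        ∀ x : G → ↥(torsSub J (ℓ ^ k)),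
          (∀ σ, torsι J (ℓ ^ k) (x σ) = σ • ((ℓ ^ v) • R₂) - (ℓ ^ v) • R₂) →
          IsFlat (smulAct G ↥(torsSub J (ℓ ^ k))) H x := by
  classical
  -- the subgroup `S` and the induced map `φ`
  have hsurj : Function.Surjective (πT π ℓ v k).rangeRestrict :=
    (πT π ℓ v k).rangeRestrict_surjective
  have hkerle : (πT π ℓ v k).rangeRestrict.ker ≤ (ψ J ℓ v k).ker := by
    intro t ht
    rw [AddMonoidHom.mem_ker] at ht ⊢
    have h0 : π (t : J) = 0 := by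
      have h1 := congrArg (fun s : (πT π ℓ v k).range =>
        ((s : ↥(torsSub J' (ℓ ^ (k + v)))) : J')) ht
      exact h1
    obtain ⟨c, hc⟩ := hd
    apply Subtype.ext
    rw [coe_ψ, hc, mul_comm, mul_smul, hker _ h0, smul_zero]
    rfl
  obtain ⟨φ, hφ_apply⟩ : ∃ φ : (πT π ℓ v k).range →+ ↥(torsSub J (ℓ ^ k)),
      ∀ t, φ ((πT π ℓ v k).rangeRestrict t) = ψ J ℓ v k t :=
    ⟨(πT π ℓ v k).rangeRestrict.liftOfSurjective hsurj ⟨ψ J ℓ v k, hkerle⟩, fun t =>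
      AddMonoidHom.liftOfRightInverse_comp_apply _ _ _ ⟨ψ J ℓ v k, hkerle⟩ t⟩
  have hφsurj : Function.Surjective φ := by
    intro y
    obtain ⟨t, ht⟩ := hdiv (y : J) (mem_torsSub.1 y.2)
    have htT : t ∈ torsSub J (ℓ ^ (k + v)) := by
      rw [mem_torsSub, pow_add, mul_smul, ht]
      exact mem_torsSub.1 y.2
    refine ⟨(πT π ℓ v k).rangeRestrict ⟨t, htT⟩, ?_⟩
    rw [hφ_apply]
    exact Subtype.ext ht
  -- the action on `S`
  have hSstab : ∀ (σ : G) (s : (πT π ℓ v k).range),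
      σ • (s : ↥(torsSub J' (ℓ ^ (k + v)))) ∈ (πT π ℓ v k).range := by
    rintro σ ⟨_, t, rfl⟩
    refine ⟨σ • t, ?_⟩
    apply Subtype.ext
    show π (σ • (t : J)) = σ • π (t : J)
    exact hπ σ _
  obtain ⟨actS, hactS⟩ : ∃ actS : G → (πT π ℓ v k).range → (πT π ℓ v k).range,
      ∀ σ s, ((actS σ s : (πT π ℓ v k).range) : ↥(torsSub J' (ℓ ^ (k + v)))) =
        σ • (s : ↥(torsSub J' (ℓ ^ (k + v)))) :=
    ⟨fun σ s => ⟨σ • (s : ↥(torsSub J' (ℓ ^ (k + v)))), hSstab σ s⟩, fun _ _ => rfl⟩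
  have hjeq : ∀ (σ : G) (s : (πT π ℓ v k).range),
      (πT π ℓ v k).range.subtype (actS σ s) =
        smulAct G ↥(torsSub J' (ℓ ^ (k + v))) σ ((πT π ℓ v k).range.subtype s) :=
    fun σ s => hactS σ s
  have hactS_add : ∀ (σ : G) (s s' : (πT π ℓ v k).range),
      actS σ (s + s') = actS σ s + actS σ s' := by
    intro σ s s'
    apply Subtype.ext
    rw [AddSubgroup.coe_add, hactS, hactS, hactS, AddSubgroup.coe_add, smul_add]
  have hφeq : ∀ (σ : G) (s : (πT π ℓ v k).range),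
      φ (actS σ s) = smulAct G ↥(torsSub J (ℓ ^ k)) σ (φ s) := by
    intro σ s
    obtain ⟨t, rfl⟩ := hsurj s
    have key : actS σ ((πT π ℓ v k).rangeRestrict t) = (πT π ℓ v k).rangeRestrict (σ • t) := by
      apply Subtype.ext
      rw [hactS]
      apply Subtype.ext
      show σ • π (t : J) = π (σ • (t : J))
      exact (hπ σ _).symm
    rw [key, hφ_apply, hφ_apply]
    apply Subtype.ext
    show (ℓ ^ v) • (σ • (t : J)) = σ • ((ℓ ^ v) • (t : J))
    exact (smul_nsmul_comm σ (ℓ ^ v) (t : J)).symm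
  -- the orders
  have hHS : IsStableOrder F actS (H'.map (precomp R K (πT π ℓ v k).range.subtype)) :=
    isStableOrder_map hH' (πT π ℓ v k).range.subtype Subtype.val_injective hjeq
  have hH : IsStableOrder F (smulAct G ↥(torsSub J (ℓ ^ k)))
      ((H'.map (precomp R K (πT π ℓ v k).range.subtype)).comap (precomp R K φ)) :=
    isStableOrder_comap hHS φ hφsurj hφeq
  refine ⟨_, hH, fun R₂ hR₂ x hx => ?_⟩
  -- the cocycles
  have hR' : ∀ σ : G, σ • ((ℓ ^ (k + v)) • π R₂) = (ℓ ^ (k + v)) • π R₂ := by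
    intro σ
    rw [← map_nsmul, ← hπ, hR₂ σ]
  obtain ⟨c'', hc''⟩ : ∃ c'' : G → (πT π ℓ v k).range,
      ∀ σ, c'' σ = (πT π ℓ v k).rangeRestrict (kumCoc (ℓ ^ (k + v)) R₂ hR₂ σ) :=
    ⟨fun σ => (πT π ℓ v k).rangeRestrict (kumCoc (ℓ ^ (k + v)) R₂ hR₂ σ), fun _ => rfl⟩
  have h1 : IsFlat (smulAct G ↥(torsSub J' (ℓ ^ (k + v)))) H'
      (fun σ => (πT π ℓ v k).range.subtype (c'' σ)) := by
    refine hfl (π R₂) hR' _ (fun σ => ?_)
    rw [hc'']
    show π (σ • R₂ - R₂) = σ • π R₂ - π R₂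
    rw [map_sub, hπ]
  have h2 : IsFlat actS (H'.map (precomp R K (πT π ℓ v k).range.subtype)) c'' :=
    isFlat_of_comp_injective hH' (fun σ m m' => smul_add σ m m') (πT π ℓ v k).range.subtype
      Subtype.val_injective hjeq h1
  have h3 := IsFlat.comp_surjective (actN := smulAct G ↥(torsSub J (ℓ ^ k))) hHS hactS_add
    φ hφsurj hφeq h2
  have hφc : (fun σ => φ (c'' σ)) = x := by
    funext σ
    rw [hc'', hφ_apply]
    apply Subtype.ext
    rw [coe_ψ, coe_kumCoc]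
    have := hx σ
    rw [torsι_apply] at this
    rw [this, smul_sub, smul_nsmul_comm]
  rw [hφc] at h3
  exact h3

/-- **AUX-LEVEL TRANSFER**, `KumFlat` form: if moreover every point of `J` is divisible by `ℓ^v`. -/
theorem kumFlat_of_aux (π : J →+ J') (hπ : ∀ (σ : G) (x : J), π (σ • x) = σ • π x) (d : ℕ)
    (hker : ∀ x : J, π x = 0 → d • x = 0) (ℓ v k : ℕ) (hd : d ∣ ℓ ^ v)
    (hdiv : ∀ y : J, (ℓ ^ k) • y = 0 → ∃ t : J, (ℓ ^ v) • t = y)
    (hdivJ : ∀ y : J, ∃ t : J, (ℓ ^ v) • t = y)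
    [Finite ↥(torsSub J (ℓ ^ k))] [Finite ↥(torsSub J' (ℓ ^ (k + v)))]
    {H' : Subalgebra R (↥(torsSub J' (ℓ ^ (k + v))) → K)}
    (hH' : IsStableOrder F (smulAct G ↥(torsSub J' (ℓ ^ (k + v)))) H')
    (hfl : KumFlat G (ℓ ^ (k + v)) H') :
    ∃ H : Subalgebra R (↥(torsSub J (ℓ ^ k)) → K),
      IsStableOrder F (smulAct G ↥(torsSub J (ℓ ^ k))) H ∧ KumFlat G (ℓ ^ k) H := by
  obtain ⟨H, hH, h⟩ := exists_flat_of_aux (F := F) π hπ d hker ℓ v k hd hdiv hH' hfl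
  refine ⟨H, hH, fun R₀ hR₀ x hx => ?_⟩
  obtain ⟨R₂, rfl⟩ := hdivJ R₀
  refine h R₂ (fun σ => ?_) x hx
  rw [pow_add, mul_smul]
  exact hR₀ σ

end Abs

end Fermat.Agent.GZ.LocR.FlatAux
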