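/-
GATE-Z (S15) / (LOC-r), node (FL), FINAL (helper92): **the binder `hFL` of helper79's Kummer package**
(`GZ/Kum/Plug.kumHyp`, `GZ/Kum/HeckePlug.kummer_package`) with `XL := flatX h` (helper94's flat
cochains, `GZ/LocR/FlatSub/Smul`), at EVERY level `N` prime to `ℓ`, ALL `k`, `ℓ ∈ {2, 3}` INCLUDED.

Model: `J₀(N)[ℓ^k] = ↥(Kum.TorsModel.torsSub (JZero N) (ℓ ^ k))` (= `Kum.Plug.Wn N (ℓ ^ k)`), action
`smulAct GQ _` (helper79's `instDistribMulActionTorsSub`), base ring `ratLocalizedAt ℓ = ℤ_(ℓ)`.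

* `bridge N ℓ k`            : the identification with the GATE-H model `GH.Top.torsSub N ((ℓ:ℤ)^k)`;
* `exists_kumFlat_admissible` : `ℓ ∤ N`, `ℓ = 2 → 3 ∣ N`, `ℓ = 3 → 2 ∣ N` (no further hypothesis):
  ONE stable order `HM` (the order of the S19 chain) with `KumFlat GQ (ℓ^k) HM`
  (= every cochain computing `σ ↦ σ • R - R`, `ℓ^k • R` rational, is flat);  from
  `GZ/LocR/Flat.hasTorsorOrder_kummer_admissible`;
* `exists_kumFlat`          : `ℓ ∤ N` only, through the auxiliary level of `GH/Aux23` and the abstract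
  transfer `GZ/LocR/FlatAux.exists_flat_of_aux`; the division point at the aux level comes from the
  binder (DIV) `hDIV` (= `GZ/LocP/Top.DivHyp N`, rational classes are divisible in `J₀(N)(ℚ̄)`), the
  change of division point is a coboundary;
* **`exists_flatX_hFL`**, `exists_flatX_hFL_admissible` : the `hFL` binder VERBATIM,
  `∃ HM (_ : Finite _) (h : IsStableOrder ℚ (smulAct GQ _) HM), ∀ R, (∀ σ, σ • (ℓ^k • R) = ℓ^k • R) →
     ∀ x, (∀ σ, torsι _ _ (x σ) = σ • R - R) → x ∈ flatX h`.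
-/
import Mathlib
import Fermat.Agent.GZ.LocR.Flat
import Fermat.Agent.GZ.LocR.FlatAux
import Fermat.Agent.GH.Aux23.Data

set_option autoImplicit false
set_option linter.unusedSectionVars false
set_option linter.unusedVariables false
set_option linter.style.haveILetI false
set_option synthInstance.maxHeartbeats 400000
set_option maxHeartbeats 1000000

noncomputable section

open AlgebraicCurve ModularCurve GaloisRep

namespace Fermat.Agent.GZ.LocR.FlatFinal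

open Fermat.Agent.GH.N0 Fermat.Agent.GS.ClosureW Fermat.Agent.GZ.LocR.FlatSub
  Fermat.Agent.GZ.Kum.TorsModel Fermat.Agent.GZ.LocR.FlatAux

local notation "Qb" => AlgebraicClosure ℚ
local notation "GQ" => (AlgebraicClosure ℚ ≃ₐ[ℚ] AlgebraicClosure ℚ)

variable (N : ℕ) [NeZero N] (ℓ : ℕ) (k : ℕ)

theorem mem_top_torsSub_iff (x : JZero N) :
    x ∈ Fermat.Agent.GH.Top.torsSub N ((ℓ : ℤ) ^ k) ↔ x ∈ torsSub (JZero N) (ℓ ^ k) := by
  rw [mem_torsSub]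
  show x ∈ Submodule.torsionBy ℤ (JZero N) ((ℓ : ℤ) ^ k) ↔ _
  rw [Submodule.mem_torsionBy_iff, ← Nat.cast_pow, natCast_zsmul]

/-- the identification of the two models of `J₀(N)[ℓ^k]`. -/
def bridge : ↥(torsSub (JZero N) (ℓ ^ k)) →+ ↥(Fermat.Agent.GH.Top.torsSub N ((ℓ : ℤ) ^ k)) where
  toFun x := ⟨(x : JZero N), (mem_top_torsSub_iff N ℓ k _).2 x.2⟩
  map_zero' := rfl
  map_add' _ _ := rfl

theorem bridge_injective : Function.Injective (bridge N ℓ k) := by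
  intro a b h
  exact Subtype.ext (congrArg (fun y : ↥(Fermat.Agent.GH.Top.torsSub N ((ℓ : ℤ) ^ k)) => (y : JZero N)) h)

theorem bridge_smul (σ : GQ) (x : ↥(torsSub (JZero N) (ℓ ^ k))) :
    bridge N ℓ k (smulAct GQ _ σ x) =
      Fermat.Agent.GH.actM (Fermat.Agent.GH.Top.torsSub_stable N ((ℓ : ℤ) ^ k)) σ (bridge N ℓ k x) := rfl


/-- **(FL), admissible levels**, in helper79's model and helper94's vocabulary. -/
theorem exists_kumFlat_admissible [hℓ : Fact ℓ.Prime] (h1 : ¬ ℓ ∣ N) (h2 : ℓ = 2 → 3 ∣ N)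
    (h3 : ℓ = 3 → 2 ∣ N) :
    ∃ HM : Subalgebra (ratLocalizedAt ℓ) (↥(torsSub (JZero N) (ℓ ^ k)) → Qb),
      IsStableOrder ℚ (smulAct GQ ↥(torsSub (JZero N) (ℓ ^ k))) HM ∧ KumFlat GQ (ℓ ^ k) HM := by
  obtain ⟨HM0, hHM0, hfl0⟩ :=
    Fermat.Agent.GZ.LocR.Flat.hasTorsorOrder_kummer_admissible (ℓ := ℓ) N k h1 h2 h3
  have := Fermat.Agent.GH.TorsionLevel.finite_torsionBy_pow N ℓ hℓ.out.ne_zero k
  have hfin0 : Finite ↥(Fermat.Agent.GH.Top.torsSub N ((ℓ : ℤ) ^ k)) := this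
  have hfin : Finite ↥(torsSub (JZero N) (ℓ ^ k)) :=
    Finite.of_injective _ (bridge_injective N ℓ k)
  have hadd0 : ∀ (σ : GQ) (m m' : ↥(Fermat.Agent.GH.Top.torsSub N ((ℓ : ℤ) ^ k))),
      Fermat.Agent.GH.actM (Fermat.Agent.GH.Top.torsSub_stable N ((ℓ : ℤ) ^ k)) σ (m + m') =
        Fermat.Agent.GH.actM (Fermat.Agent.GH.Top.torsSub_stable N ((ℓ : ℤ) ^ k)) σ m +
        Fermat.Agent.GH.actM (Fermat.Agent.GH.Top.torsSub_stable N ((ℓ : ℤ) ^ k)) σ m' :=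
    fun σ m m' => map_add _ m m'
  refine ⟨HM0.map (precomp (ratLocalizedAt ℓ) Qb (bridge N ℓ k)),
    isStableOrder_map hHM0 (bridge N ℓ k) (bridge_injective N ℓ k) (bridge_smul N ℓ k), ?_⟩
  intro R₀ hR₀ x hx
  have hR₀' : ∀ σ : GQ, σ • (((ℓ : ℤ) ^ k) • R₀) = ((ℓ : ℤ) ^ k) • R₀ := by
    intro σ
    have := hR₀ σ
    rwa [← Nat.cast_pow, natCast_zsmul]
  refine isFlat_of_comp_injective hHM0 hadd0 (bridge N ℓ k) (bridge_injective N ℓ k)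
    (bridge_smul N ℓ k) ?_
  have h := hfl0 R₀ hR₀'
  have he : (fun σ => bridge N ℓ k (x σ)) =
      fun σ => (⟨σ • R₀ - R₀, Fermat.Agent.GZ.LocR.Flat.kum_mem N k R₀ hR₀' σ⟩ :
        ↥(Fermat.Agent.GH.Top.torsSub N ((ℓ : ℤ) ^ k))) := by
    funext σ
    exact Subtype.ext (hx σ)
  show HasTorsorOrder (twist _ _) HM0
  rw [he]
  exact h


/-- the auxiliary level of `GH/Aux23/Data.aux23`: `N' = lcm 3 N, v = 2` (`ℓ = 2`),
`N' = lcm 2 N, v = 1` (`ℓ = 3`), `N' = N, v = 0` otherwise. -/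
theorem exists_aux_level (hℓ : ℓ.Prime) (hℓN : ¬ ℓ ∣ N) :
    ∃ (N' : ℕ) (_ : NeZero N') (v : ℕ) (_ : N ∣ N'), ¬ ℓ ∣ N' ∧ (ℓ = 2 → 3 ∣ N') ∧
      (ℓ = 3 → 2 ∣ N') ∧
      IntermediateField.relfinrank (modularFunctionFieldBar N) (modularFunctionFieldBar N') ∣
        ℓ ^ v := by
  by_cases h2 : ℓ = 2
  · subst h2
    have hne : NeZero (Nat.lcm 3 N) := ⟨Nat.lcm_ne_zero (by norm_num) (NeZero.ne N)⟩
    have hnd : ¬ 2 ∣ Nat.lcm 3 N :=
      Fermat.Agent.GJ.S37Final.not_dvd_lcm hℓ (by norm_num) hℓN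
    refine ⟨Nat.lcm 3 N, hne, 2, Nat.dvd_lcm_right 3 N, hnd, fun _ => Nat.dvd_lcm_left 3 N,
      fun h => absurd h (by norm_num), ?_⟩
    rcases Fermat.Agent.GJ.J1.Desc.relfinrank_lcm_prime Nat.prime_three N with h | h
    · rw [h]; exact one_dvd _
    · rw [h]; norm_num
  · by_cases h3 : ℓ = 3
    · subst h3
      have hne : NeZero (Nat.lcm 2 N) := ⟨Nat.lcm_ne_zero (by norm_num) (NeZero.ne N)⟩
      have hnd : ¬ 3 ∣ Nat.lcm 2 N :=
        Fermat.Agent.GJ.S37Final.not_dvd_lcm hℓ (by norm_num) hℓN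
      refine ⟨Nat.lcm 2 N, hne, 1, Nat.dvd_lcm_right 2 N, hnd, fun h => absurd h (by norm_num),
        fun _ => Nat.dvd_lcm_left 2 N, ?_⟩
      rcases Fermat.Agent.GJ.J1.Desc.relfinrank_lcm_prime Nat.prime_two N with h | h
      · rw [h]; exact one_dvd _
      · rw [h]; norm_num
    · refine ⟨N, inferInstance, 0, dvd_refl N, hℓN, fun h => absurd h h2, fun h => absurd h h3, ?_⟩
      rw [IntermediateField.relfinrank_self]
      exact one_dvd _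

theorem finite_torsSub (hℓ : ℓ ≠ 0) : Finite ↥(torsSub (JZero N) (ℓ ^ k)) := by
  have := Fermat.Agent.GH.TorsionLevel.finite_torsionBy_pow N ℓ hℓ k
  have hfin0 : Finite ↥(Fermat.Agent.GH.Top.torsSub N ((ℓ : ℤ) ^ k)) := this
  exact Finite.of_injective _ (bridge_injective N ℓ k)

/-- **(FL), every level prime to `ℓ`** (all `k`, `ℓ ∈ {2, 3}` included), modulo (DIV) for rational
classes at the auxiliary levels: ONE stable function order `HM` on `J₀(N)[ℓ^k]` for which every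
Kummer cochain is flat. -/
theorem exists_kumFlat [hℓ : Fact ℓ.Prime] (hℓN : ¬ ℓ ∣ N)
    (hDIV : ∀ z : JZero N, (∀ σ : GQ, σ • z = z) → ∀ m : ℕ, m ≠ 0 → ∃ R : JZero N, m • R = z) :
    ∃ HM : Subalgebra (ratLocalizedAt ℓ) (↥(torsSub (JZero N) (ℓ ^ k)) → Qb),
      IsStableOrder ℚ (smulAct GQ ↥(torsSub (JZero N) (ℓ ^ k))) HM ∧ KumFlat GQ (ℓ ^ k) HM := by
  have hℓp : ℓ.Prime := hℓ.out
  obtain ⟨N', hne', v, h, h1, h2, h3, hd⟩ := exists_aux_level N ℓ hℓp hℓN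
  obtain ⟨H', hH', hfl'⟩ := exists_kumFlat_admissible N' ℓ (k + v) h1 h2 h3
  obtain ⟨hpull, hker⟩ := Fermat.Agent.GJ.S37PullPackageInst.pullPackage N N' h
  have hfin := finite_torsSub N ℓ k hℓp.ne_zero
  have hfin' := finite_torsSub N' ℓ (k + v) hℓp.ne_zero
  obtain ⟨H, hH, hflat⟩ := exists_flat_of_aux (F := ℚ) (G := GQ)
    (Fermat.Agent.GJ.S37HeckePullback.pullBar h) hpull _ hker ℓ v k hd
    (Fermat.Agent.GH.Aux23.jZero_surj N ℓ hℓp.ne_zero v k) hH' hfl'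
  refine ⟨H, hH, ?_⟩
  intro R hR x hx
  have hadd : ∀ (σ : GQ) (m m' : ↥(torsSub (JZero N) (ℓ ^ k))),
      smulAct GQ _ σ (m + m') = smulAct GQ _ σ m + smulAct GQ _ σ m' :=
    fun σ m m' => smul_add σ m m'
  -- divide the rational class `ℓ^k • R` by `ℓ^(k+v)`
  obtain ⟨R₂, hR₂⟩ := hDIV ((ℓ ^ k) • R) hR (ℓ ^ (k + v)) (pow_ne_zero _ hℓp.ne_zero)
  have hR₂rat : ∀ σ : GQ, σ • ((ℓ ^ (k + v)) • R₂) = (ℓ ^ (k + v)) • R₂ := by
    intro σ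
    rw [hR₂]
    exact hR σ
  have hwmem : R - (ℓ ^ v) • R₂ ∈ torsSub (JZero N) (ℓ ^ k) := by
    rw [mem_torsSub, nsmul_sub, ← mul_nsmul', ← pow_add, hR₂, sub_self]
  have hR'rat : ∀ σ : GQ, σ • ((ℓ ^ k) • ((ℓ ^ v) • R₂)) = (ℓ ^ k) • ((ℓ ^ v) • R₂) := by
    intro σ
    rw [← mul_smul, ← pow_add]
    exact hR₂rat σ
  have hx' := hflat R₂ hR₂rat (kumCoc (ℓ ^ k) ((ℓ ^ v) • R₂) hR'rat) (fun σ => rfl)
  have hcob := isFlat_dCob hH hadd ⟨R - (ℓ ^ v) • R₂, hwmem⟩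
  have hsum := IsFlat.add hH hadd hx' hcob
  have he : x = kumCoc (ℓ ^ k) ((ℓ ^ v) • R₂) hR'rat +
      fun σ => smulAct GQ _ σ (⟨R - (ℓ ^ v) • R₂, hwmem⟩ : ↥(torsSub (JZero N) (ℓ ^ k))) -
        ⟨R - (ℓ ^ v) • R₂, hwmem⟩ := by
    funext σ
    apply Subtype.ext
    have := hx σ
    rw [torsι_apply] at this
    rw [this]
    show σ • R - R = (σ • ((ℓ ^ v) • R₂) - (ℓ ^ v) • R₂) +
      (σ • (R - (ℓ ^ v) • R₂) - (R - (ℓ ^ v) • R₂))
    rw [smul_sub]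
    abel
  rw [he]
  exact hsum

/-- **the binder `hFL`** of helper79's `GZ/Kum/Plug.kumHyp` / `HeckePlug.kummer_package`, with
`XL := flatX h`. -/
theorem exists_flatX_hFL [hℓ : Fact ℓ.Prime] (hℓN : ¬ ℓ ∣ N)
    (hDIV : ∀ z : JZero N, (∀ σ : GQ, σ • z = z) → ∀ m : ℕ, m ≠ 0 → ∃ R : JZero N, m • R = z) :
    ∃ (HM : Subalgebra (ratLocalizedAt ℓ) (↥(torsSub (JZero N) (ℓ ^ k)) → Qb))
      (_ : Finite ↥(torsSub (JZero N) (ℓ ^ k)))
      (h : IsStableOrder ℚ (smulAct GQ ↥(torsSub (JZero N) (ℓ ^ k))) HM),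
      ∀ R : JZero N, (∀ σ : GQ, σ • ((ℓ ^ k) • R) = (ℓ ^ k) • R) →
        ∀ x : GQ → ↥(torsSub (JZero N) (ℓ ^ k)),
          (∀ σ, torsι (JZero N) (ℓ ^ k) (x σ) = σ • R - R) → x ∈ flatX h := by
  obtain ⟨HM, h, hfl⟩ := exists_kumFlat N ℓ k hℓN hDIV
  exact ⟨HM, finite_torsSub N ℓ k hℓ.out.ne_zero, h, fun R hR x hx => hfl R hR x hx⟩

/-- **the binder `hFL`, admissible levels** (in particular every `ℓ ≥ 5`, `ℓ ∤ N`): no (DIV). -/
theorem exists_flatX_hFL_admissible [hℓ : Fact ℓ.Prime] (h1 : ¬ ℓ ∣ N) (h2 : ℓ = 2 → 3 ∣ N)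
    (h3 : ℓ = 3 → 2 ∣ N) :
    ∃ (HM : Subalgebra (ratLocalizedAt ℓ) (↥(torsSub (JZero N) (ℓ ^ k)) → Qb))
      (_ : Finite ↥(torsSub (JZero N) (ℓ ^ k)))
      (h : IsStableOrder ℚ (smulAct GQ ↥(torsSub (JZero N) (ℓ ^ k))) HM),
      ∀ R : JZero N, (∀ σ : GQ, σ • ((ℓ ^ k) • R) = (ℓ ^ k) • R) →
        ∀ x : GQ → ↥(torsSub (JZero N) (ℓ ^ k)),
          (∀ σ, torsι (JZero N) (ℓ ^ k) (x σ) = σ • R - R) → x ∈ flatX h := by
  obtain ⟨HM, h, hfl⟩ := exists_kumFlat_admissible N ℓ k h1 h2 h3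
  exact ⟨HM, finite_torsSub N ℓ k hℓ.out.ne_zero, h, fun R hR x hx => hfl R hR x hx⟩

end Fermat.Agent.GZ.LocR.FlatFinal
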