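/-
GATE-Z (S15) / (LOC-r), node (FL), BINDER-FREE (helper92): `GZ/LocR/FlatFinal.exists_flatX_hFL` with
its only binder (DIV) discharged by helper87's `GZ/LocP/Div.divHyp N`.

**`hFL_free N ℓ k (hℓN : ¬ ℓ ∣ N)`** : for every level `N`, every prime `ℓ ∤ N` (`ℓ ∈ {2, 3}` included)
and every `k` there is ONE stable function order `HM` (over `ratLocalizedAt ℓ = ℤ_(ℓ)`, values in `ℚ̄`)
on `J₀(N)[ℓ^k] = ↥(Kum.TorsModel.torsSub (JZero N) (ℓ ^ k))` such that every cochain computing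
`σ ↦ σ • R - R` with `ℓ^k • R` rational is in `flatX h` — the binder `hFL` of helper79's
`GZ/Kum/Plug.kumHyp` / `GZ/Kum/HeckePlug.kummer_package` VERBATIM (`n := ℓ ^ k`, `XL := flatX h`,
`hXL := dCob_mem_flatX h`).
-/
import Mathlib
import Fermat.Agent.GZ.LocR.FlatFinal
import Fermat.Agent.GZ.LocP.Div

set_option autoImplicit false
set_option linter.unusedSectionVars false
set_option linter.unusedVariables false

noncomputable section

open AlgebraicCurve ModularCurve GaloisRep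

namespace Fermat.Agent.GZ.LocR.FlatFree

open Fermat.Agent.GH.N0 Fermat.Agent.GS.ClosureW Fermat.Agent.GZ.LocR.FlatSub
  Fermat.Agent.GZ.Kum.TorsModel Fermat.Agent.GZ.LocR.FlatAux Fermat.Agent.GZ.LocR.FlatFinal

local notation "Qb" => AlgebraicClosure ℚ
local notation "GQ" => (AlgebraicClosure ℚ ≃ₐ[ℚ] AlgebraicClosure ℚ)

variable (N : ℕ) [NeZero N] (ℓ : ℕ) (k : ℕ)

/-- **(FL), binder-free, `KumFlat` form.** -/
theorem kumFlat_free [hℓ : Fact ℓ.Prime] (hℓN : ¬ ℓ ∣ N) :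
    ∃ HM : Subalgebra (ratLocalizedAt ℓ) (↥(torsSub (JZero N) (ℓ ^ k)) → Qb),
      IsStableOrder ℚ (smulAct GQ ↥(torsSub (JZero N) (ℓ ^ k))) HM ∧ KumFlat GQ (ℓ ^ k) HM :=
  exists_kumFlat N ℓ k hℓN (Fermat.Agent.GZ.LocP.Div.divHyp N)

/-- **(FL), binder-free: the `hFL` binder of the Kummer package.** -/
theorem hFL_free [hℓ : Fact ℓ.Prime] (hℓN : ¬ ℓ ∣ N) :
    ∃ (HM : Subalgebra (ratLocalizedAt ℓ) (↥(torsSub (JZero N) (ℓ ^ k)) → Qb))
      (_ : Finite ↥(torsSub (JZero N) (ℓ ^ k)))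
      (h : IsStableOrder ℚ (smulAct GQ ↥(torsSub (JZero N) (ℓ ^ k))) HM),
      ∀ R : JZero N, (∀ σ : GQ, σ • ((ℓ ^ k) • R) = (ℓ ^ k) • R) →
        ∀ x : GQ → ↥(torsSub (JZero N) (ℓ ^ k)),
          (∀ σ, torsι (JZero N) (ℓ ^ k) (x σ) = σ • R - R) → x ∈ flatX h :=
  exists_flatX_hFL N ℓ k hℓN (Fermat.Agent.GZ.LocP.Div.divHyp N)

end Fermat.Agent.GZ.LocR.FlatFree
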