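/-
GATE-Z / S15, node GZ-LOCR-CONSTORD, part 2 (helper5): **the rank-two Oort–Tate lemma in
function-order form** (`ab = 2 ⟹ a or b is a unit`; helper96 board 5617 §4).

`R` a commutative ring, `M` a group with two elements `0, x₁`, `H ⊆ Map(M, R)` a Δ-stable
`R`-subalgebra.  With the DIFFERENCE IDEAL `J = {f x₁ - f 0 | f ∈ H}`:

* `mem_iff_sub_mem_diffIdeal` : `H = {f | f x₁ - f 0 ∈ J}`;
* `two_mul_mem_sq` : `2 c ∈ J²` for every `c ∈ J` (this is `ab = 2`);
* `diffIdeal_eq_top_or_span_two` : `R` a principal ideal domain in which `2` is a prime element,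
  `J ≠ ⊥` (i.e. `H` separates the two points) ⟹ `J = ⊤` (the ÉTALE order `Map(M, R)`) or
  `J = (2)` (the MULTIPLICATIVE order `R[χ]`, `χ = (1, -1)`: `H = {f | 2 ∣ f x₁ - f 0}`);
* `eq_top_of_diffIdeal_eq_top`, `mem_iff_of_diffIdeal_eq_span_two` : the two orders.

Mathlib only.
-/
import Mathlib

set_option autoImplicit false
set_option linter.unusedSectionVars false

namespace Fermat.Agent.GZ.LocR.ConstOrd.Two

variable {R : Type*} [CommRing R] {M : Type*} [AddCommGroup M]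

/-- Δ-stability for `R`-valued function algebras. -/
def DeltaStableR (H : Subalgebra R (M → R)) : Prop :=
  ∀ f ∈ H, ∃ (n : ℕ) (a b : Fin n → H), ∀ x y : M,
    f (x + y) = ∑ i, (a i : M → R) x * (b i : M → R) y

variable (H : Subalgebra R (M → R)) (x₁ : M)

/-- the ideal of the differences `f x₁ - f 0`, `f ∈ H`. -/
def diffIdeal : Ideal R where
  carrier := {c | ∃ f ∈ H, f x₁ - f 0 = c}
  zero_mem' := ⟨0, H.zero_mem, by simp⟩
  add_mem' := by
    rintro _ _ ⟨f, hf, rfl⟩ ⟨g, hg, rfl⟩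
    exact ⟨f + g, H.add_mem hf hg, by simp only [Pi.add_apply]; ring⟩
  smul_mem' := by
    rintro r _ ⟨f, hf, rfl⟩
    exact ⟨r • f, H.smul_mem hf r, by simp only [Pi.smul_apply, smul_eq_mul]; ring⟩

variable {H x₁}

theorem mem_diffIdeal {c : R} : c ∈ diffIdeal H x₁ ↔ ∃ f ∈ H, f x₁ - f 0 = c := Iff.rfl

theorem sub_mem_diffIdeal {f : M → R} (hf : f ∈ H) : f x₁ - f 0 ∈ diffIdeal H x₁ := ⟨f, hf, rfl⟩

variable (hM : ∀ z : M, z = 0 ∨ z = x₁)
include hM

/-- **`H` is cut out by its difference ideal.** -/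
theorem mem_iff_sub_mem_diffIdeal {f : M → R} : f ∈ H ↔ f x₁ - f 0 ∈ diffIdeal H x₁ := by
  constructor
  · exact sub_mem_diffIdeal
  · rintro ⟨g, hg, hgf⟩
    have : f = g + algebraMap R (M → R) (f 0 - g 0) := by
      funext z
      rcases hM z with rfl | rfl
      · simp
      · simp only [Pi.add_apply, Pi.algebraMap_apply, Algebra.algebraMap_self, RingHom.id_apply]
        linear_combination -hgf
    rw [this]
    exact H.add_mem hg (H.algebraMap_mem _)

omit hM in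
/-- **`ab = 2`**: `2 c ∈ J²` for every `c` in the difference ideal of a Δ-stable algebra. -/
theorem two_mul_mem_sq (hx₁ : x₁ + x₁ = 0) (hΔ : DeltaStableR H) {c : R}
    (hc : c ∈ diffIdeal H x₁) : 2 * c ∈ diffIdeal H x₁ ^ 2 := by
  obtain ⟨f, hf, rfl⟩ := hc
  obtain ⟨n, a, b, hab⟩ := hΔ f hf
  have h00 := hab 0 0
  have h10 := hab x₁ 0
  have h01 := hab 0 x₁
  have h11 := hab x₁ x₁
  rw [add_zero] at h00 h10
  rw [zero_add] at h01
  rw [hx₁] at h11
  -- `2 (f x₁ - f 0) = - ∑ (a_i x₁ - a_i 0)(b_i x₁ - b_i 0)`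
  have key : 2 * (f x₁ - f 0) =
      -∑ i, ((a i : M → R) x₁ - (a i : M → R) 0) * ((b i : M → R) x₁ - (b i : M → R) 0) := by
    have e : ∑ i, ((a i : M → R) x₁ - (a i : M → R) 0) * ((b i : M → R) x₁ - (b i : M → R) 0) =
        ∑ i, (a i : M → R) x₁ * (b i : M → R) x₁ - ∑ i, (a i : M → R) x₁ * (b i : M → R) 0
          - ∑ i, (a i : M → R) 0 * (b i : M → R) x₁ + ∑ i, (a i : M → R) 0 * (b i : M → R) 0 := by
      rw [← Finset.sum_sub_distrib, ← Finset.sum_sub_distrib, ← Finset.sum_add_distrib]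
      refine Finset.sum_congr rfl fun i _ => ?_
      ring
    rw [e, ← h00, ← h10, ← h01, ← h11]
    ring
  rw [key, pow_two]
  refine (Ideal.neg_mem_iff _).mpr (Ideal.sum_mem _ fun i _ => ?_)
  exact Ideal.mul_mem_mul (sub_mem_diffIdeal (a i).2) (sub_mem_diffIdeal (b i).2)

omit hM in
/-- **the rank-two Oort–Tate dichotomy**: over a principal ideal domain in which `2` is prime, the
difference ideal of a Δ-stable algebra separating the two points is `⊤` or `(2)`. -/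
theorem diffIdeal_eq_top_or_span_two [IsDomain R] [IsPrincipalIdealRing R] (h2 : Prime (2 : R))
    (hx₁ : x₁ + x₁ = 0) (hΔ : DeltaStableR H) (hsep : diffIdeal H x₁ ≠ ⊥) :
    diffIdeal H x₁ = ⊤ ∨ diffIdeal H x₁ = Ideal.span {(2 : R)} := by
  obtain ⟨c₀, hc₀⟩ : ∃ c₀ : R, diffIdeal H x₁ = Ideal.span {c₀} :=
    ⟨_, (Ideal.span_singleton_generator _).symm⟩
  have hc₀0 : c₀ ≠ 0 := by
    rintro rfl
    apply hsep
    rw [hc₀, Ideal.span_singleton_eq_bot]
  have hmem : c₀ ∈ diffIdeal H x₁ := by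
    rw [hc₀]
    exact Ideal.mem_span_singleton_self c₀
  have h1 := two_mul_mem_sq hx₁ hΔ hmem
  rw [hc₀, Ideal.span_singleton_pow, Ideal.mem_span_singleton] at h1
  obtain ⟨u, hu⟩ := h1
  -- `2 c₀ = c₀² u` so `2 = c₀ u`
  have h2' : (2 : R) = c₀ * u := by
    apply mul_left_cancel₀ hc₀0
    rw [mul_comm c₀ 2, hu]
    ring
  rcases h2.irreducible.isUnit_or_isUnit h2' with hunit | hunit
  · left
    rw [hc₀, Ideal.span_singleton_eq_top]
    exact hunit
  · right
    rw [hc₀, h2']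
    obtain ⟨v, rfl⟩ := hunit
    exact (Ideal.span_singleton_mul_right_unit v.isUnit c₀).symm

/-- the étale case: `H` is everything. -/
theorem eq_top_of_diffIdeal_eq_top (h : diffIdeal H x₁ = ⊤) : H = ⊤ := by
  rw [eq_top_iff]
  intro f _
  rw [mem_iff_sub_mem_diffIdeal hM, h]
  exact Submodule.mem_top

/-- the multiplicative case: `H = {f | 2 ∣ f x₁ - f 0}`. -/
theorem mem_iff_of_diffIdeal_eq_span_two (h : diffIdeal H x₁ = Ideal.span {(2 : R)})
    {f : M → R} : f ∈ H ↔ (2 : R) ∣ f x₁ - f 0 := by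
  rw [mem_iff_sub_mem_diffIdeal hM, h, Ideal.mem_span_singleton]

end Fermat.Agent.GZ.LocR.ConstOrd.Two
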